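/-
S05 (Frey curve mod-p representation unramified at q ≠ 2, p): shared definitions.

The proof is elementary: it uses only the "Kummer line" identities for the x-coordinate
(formulas for `x(P+Q)·x(P-Q)` and `x(P+Q)+x(P-Q)`, and the duplication formula) together with
a real-valued additive valuation.  This file fixes the two abstract interfaces.
-/
import Mathlib

set_option autoImplicit false

namespace Fermat.Agent.S05

/-- A real-valued additive valuation on a field.  The value `v 0` is junk (think of it as `+∞`),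
so every axiom has non-vanishing side conditions. -/
structure AddVal (K : Type*) [Field K] where
  /-- the valuation -/
  v : K → ℝ
  map_mul : ∀ x y : K, x ≠ 0 → y ≠ 0 → v (x * y) = v x + v y
  map_add : ∀ x y : K, x ≠ 0 → y ≠ 0 → x + y ≠ 0 → min (v x) (v y) ≤ v (x + y)

/-- Kummer-line data on an abelian group `G` (think: the group of points of the elliptic curve
`Y² = X (X² + a X + b)` over the field `K`, with `X`, `Y` the coordinate functions, taking the junk
value at the origin `0 : G`). -/
structure KummerData (G : Type*) [AddCommGroup G] (K : Type*) [Field K] where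
  /-- the `X`-coordinate (junk at `0`) -/
  X : G → K
  /-- the `Y`-coordinate (junk at `0`) -/
  Y : G → K
  /-- coefficient `a` of the cubic `X (X² + a X + b)` -/
  a : K
  /-- coefficient `b` of the cubic `X (X² + a X + b)` -/
  b : K
  X_neg : ∀ P : G, X (-P) = X P
  Y_neg : ∀ P : G, Y (-P) = -Y P
  eqn : ∀ P : G, P ≠ 0 → Y P ^ 2 = X P * (X P ^ 2 + a * X P + b)
  eq_or_eq_neg : ∀ P Q : G, P ≠ 0 → Q ≠ 0 → X P = X Q → P = Q ∨ P = -Q
  two_torsion : ∀ P : G, P ≠ 0 → (P + P = 0 ↔ Y P = 0)
  dbl : ∀ P : G, P ≠ 0 → P + P ≠ 0 → X (P + P) * (2 * Y P) ^ 2 = (X P ^ 2 - b) ^ 2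
  addsub_mul : ∀ P Q : G, P ≠ 0 → Q ≠ 0 → X P ≠ X Q →
    X (P + Q) * X (P - Q) * (X P - X Q) ^ 2 = (X P * X Q - b) ^ 2
  addsub_add : ∀ P Q : G, P ≠ 0 → Q ≠ 0 → X P ≠ X Q →
    (X (P + Q) + X (P - Q)) * (X P - X Q) ^ 2 =
      2 * ((X P + X Q) * (X P * X Q + b) + 2 * a * (X P * X Q))

end Fermat.Agent.S05
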