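/-
S05: basic calculus for the real-valued additive valuations `AddVal` of `Defs.lean`.

Conventions: `ν.v 0` is junk; the predicates `ν.Ge x r` ("v(x) ≥ r") and `ν.Gt x r` ("v(x) > r")
treat `0` as having valuation `+∞`.
-/
import Mathlib
import Fermat.Agent.S05.Defs

set_option autoImplicit false

namespace Fermat.Agent.S05

namespace AddVal

variable {K : Type*} [Field K] (ν : AddVal K)

theorem v_mul {x y : K} (hx : x ≠ 0) (hy : y ≠ 0) : ν.v (x * y) = ν.v x + ν.v y :=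
  ν.map_mul x y hx hy

theorem v_one : ν.v 1 = 0 := by
  have h := ν.map_mul 1 1 one_ne_zero one_ne_zero
  rw [mul_one] at h
  linarith

theorem v_neg_one : ν.v (-1) = 0 := by
  have h := ν.map_mul (-1) (-1) (neg_ne_zero.mpr one_ne_zero) (neg_ne_zero.mpr one_ne_zero)
  rw [neg_one_mul, neg_neg, ν.v_one] at h
  linarith

theorem v_neg (x : K) : ν.v (-x) = ν.v x := by
  rcases eq_or_ne x 0 with rfl | hx
  · rw [neg_zero]
  · have h := ν.map_mul (-1) x (neg_ne_zero.mpr one_ne_zero) hx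
    rw [neg_one_mul, ν.v_neg_one, zero_add] at h
    exact h

theorem v_inv {x : K} (hx : x ≠ 0) : ν.v x⁻¹ = -ν.v x := by
  have h := ν.map_mul x x⁻¹ hx (inv_ne_zero hx)
  rw [mul_inv_cancel₀ hx, ν.v_one] at h
  linarith

theorem v_div {x y : K} (hx : x ≠ 0) (hy : y ≠ 0) : ν.v (x / y) = ν.v x - ν.v y := by
  rw [div_eq_mul_inv, ν.v_mul hx (inv_ne_zero hy), ν.v_inv hy]
  ring

theorem v_pow {x : K} (hx : x ≠ 0) (n : ℕ) : ν.v (x ^ n) = n * ν.v x := by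
  induction n with
  | zero => simp [ν.v_one]
  | succ n ih =>
    rw [pow_succ, ν.v_mul (pow_ne_zero n hx) hx, ih]
    push_cast
    ring

theorem v_zpow {x : K} (hx : x ≠ 0) (n : ℤ) : ν.v (x ^ n) = n * ν.v x := by
  cases n with
  | ofNat n =>
    simp only [Int.ofNat_eq_natCast, zpow_natCast, Int.cast_natCast]
    exact ν.v_pow hx n
  | negSucc n =>
    rw [zpow_negSucc, ν.v_inv (pow_ne_zero _ hx), ν.v_pow hx]
    push_cast
    ring

theorem v_sq {x : K} (hx : x ≠ 0) : ν.v (x ^ 2) = 2 * ν.v x := by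
  have h := ν.v_pow hx 2
  push_cast at h
  exact h

theorem v_add_ge {x y : K} (hx : x ≠ 0) (hy : y ≠ 0) (hxy : x + y ≠ 0) :
    min (ν.v x) (ν.v y) ≤ ν.v (x + y) :=
  ν.map_add x y hx hy hxy

theorem v_sub_ge {x y : K} (hx : x ≠ 0) (hy : y ≠ 0) (hxy : x - y ≠ 0) :
    min (ν.v x) (ν.v y) ≤ ν.v (x - y) := by
  have h := ν.map_add x (-y) hx (neg_ne_zero.mpr hy) (by rwa [← sub_eq_add_neg])
  rwa [ν.v_neg, ← sub_eq_add_neg] at h

/-- If `v x < v y` then `v (x + y) = v x` (and `x + y ≠ 0`). -/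
theorem v_add_eq_of_lt {x y : K} (hx : x ≠ 0) (hy : y ≠ 0) (h : ν.v x < ν.v y) :
    x + y ≠ 0 ∧ ν.v (x + y) = ν.v x := by
  have hne : x + y ≠ 0 := by
    intro h0
    have hxy : x = -y := eq_neg_of_add_eq_zero_left h0
    rw [hxy, ν.v_neg] at h
    exact lt_irrefl _ h
  refine ⟨hne, le_antisymm ?_ ?_⟩
  · -- x = (x + y) - y
    by_contra hlt
    push Not at hlt
    have h1 := ν.v_sub_ge hne hy (by rw [add_sub_cancel_right]; exact hx)
    rw [add_sub_cancel_right] at h1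
    have h2 : ν.v x < min (ν.v (x + y)) (ν.v y) := lt_min hlt h
    exact lt_irrefl _ (lt_of_lt_of_le h2 h1)
  · have h1 := ν.v_add_ge hx hy hne
    rwa [min_eq_left h.le] at h1

theorem v_add_eq_of_lt' {x y : K} (hx : x ≠ 0) (hy : y ≠ 0) (h : ν.v y < ν.v x) :
    x + y ≠ 0 ∧ ν.v (x + y) = ν.v y := by
  rw [add_comm]
  exact ν.v_add_eq_of_lt hy hx h

theorem v_sub_eq_of_lt {x y : K} (hx : x ≠ 0) (hy : y ≠ 0) (h : ν.v x < ν.v y) :
    x - y ≠ 0 ∧ ν.v (x - y) = ν.v x := by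
  rw [sub_eq_add_neg]
  exact ν.v_add_eq_of_lt hx (neg_ne_zero.mpr hy) (by rwa [ν.v_neg])

theorem v_sub_eq_of_lt' {x y : K} (hx : x ≠ 0) (hy : y ≠ 0) (h : ν.v y < ν.v x) :
    x - y ≠ 0 ∧ ν.v (x - y) = ν.v y := by
  have h1 := ν.v_sub_eq_of_lt hy hx h
  have h2 : x - y = -(y - x) := by ring
  rw [h2, ν.v_neg]
  exact ⟨neg_ne_zero.mpr h1.1, h1.2⟩

/-- If `v x = v y` for nonzero `x`, `y` and `x + y ≠ 0`, then `v (x + y) ≥ v x`. -/
theorem v_add_ge_left {x y : K} (hx : x ≠ 0) (hy : y ≠ 0) (hxy : x + y ≠ 0)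
    (h : ν.v x ≤ ν.v y) : ν.v x ≤ ν.v (x + y) := by
  have h1 := ν.v_add_ge hx hy hxy
  rwa [min_eq_left h] at h1

/-! ### The predicates `Ge` and `Gt` (with `v 0 = +∞`) -/

/-- `ν.Ge x r` means "`v x ≥ r`", where `v 0 = +∞`. -/
def Ge (x : K) (r : ℝ) : Prop := x = 0 ∨ r ≤ ν.v x

/-- `ν.Gt x r` means "`v x > r`", where `v 0 = +∞`. -/
def Gt (x : K) (r : ℝ) : Prop := x = 0 ∨ r < ν.v x

variable {ν}

theorem Ge.zero (r : ℝ) : ν.Ge (0 : K) r := Or.inl rfl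

theorem Gt.zero (r : ℝ) : ν.Gt (0 : K) r := Or.inl rfl

theorem ge_of_ne {x : K} {r : ℝ} (h : r ≤ ν.v x) : ν.Ge x r := Or.inr h

theorem gt_of_ne {x : K} {r : ℝ} (h : r < ν.v x) : ν.Gt x r := Or.inr h

theorem ge_self (x : K) : ν.Ge x (ν.v x) := Or.inr le_rfl

theorem Ge.le {x : K} {r : ℝ} (h : ν.Ge x r) (hx : x ≠ 0) : r ≤ ν.v x :=
  h.resolve_left hx

theorem Gt.lt {x : K} {r : ℝ} (h : ν.Gt x r) (hx : x ≠ 0) : r < ν.v x :=
  h.resolve_left hx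

theorem Gt.ge {x : K} {r : ℝ} (h : ν.Gt x r) : ν.Ge x r :=
  h.imp id le_of_lt

theorem Ge.mono {x : K} {r s : ℝ} (h : ν.Ge x r) (hs : s ≤ r) : ν.Ge x s :=
  h.imp id (le_trans hs)

theorem Gt.mono {x : K} {r s : ℝ} (h : ν.Gt x r) (hs : s ≤ r) : ν.Gt x s :=
  h.imp id (lt_of_le_of_lt hs)

theorem Ge.gt_of_lt {x : K} {r s : ℝ} (h : ν.Ge x r) (hs : s < r) : ν.Gt x s :=
  h.imp id (lt_of_lt_of_le hs)

theorem Ge.neg {x : K} {r : ℝ} (h : ν.Ge x r) : ν.Ge (-x) r := by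
  rcases h with rfl | h
  · exact Or.inl neg_zero
  · exact Or.inr (by rwa [ν.v_neg])

theorem Gt.neg {x : K} {r : ℝ} (h : ν.Gt x r) : ν.Gt (-x) r := by
  rcases h with rfl | h
  · exact Or.inl neg_zero
  · exact Or.inr (by rwa [ν.v_neg])

theorem Ge.add {x y : K} {r : ℝ} (hx : ν.Ge x r) (hy : ν.Ge y r) : ν.Ge (x + y) r := by
  rcases hx with rfl | hx
  · rwa [zero_add]
  rcases hy with rfl | hy
  · rw [add_zero]; exact Or.inr hx
  by_cases hxy : x + y = 0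
  · exact Or.inl hxy
  by_cases hx0 : x = 0
  · subst hx0; rw [zero_add]; exact Or.inr hy
  by_cases hy0 : y = 0
  · subst hy0; rw [add_zero]; exact Or.inr hx
  exact Or.inr (le_trans (le_min hx hy) (ν.v_add_ge hx0 hy0 hxy))

theorem Gt.add {x y : K} {r : ℝ} (hx : ν.Gt x r) (hy : ν.Gt y r) : ν.Gt (x + y) r := by
  rcases hx with rfl | hx
  · rwa [zero_add]
  rcases hy with rfl | hy
  · rw [add_zero]; exact Or.inr hx
  by_cases hxy : x + y = 0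
  · exact Or.inl hxy
  by_cases hx0 : x = 0
  · subst hx0; rw [zero_add]; exact Or.inr hy
  by_cases hy0 : y = 0
  · subst hy0; rw [add_zero]; exact Or.inr hx
  exact Or.inr (lt_of_lt_of_le (lt_min hx hy) (ν.v_add_ge hx0 hy0 hxy))

theorem Ge.sub {x y : K} {r : ℝ} (hx : ν.Ge x r) (hy : ν.Ge y r) : ν.Ge (x - y) r := by
  rw [sub_eq_add_neg]
  exact hx.add hy.neg

theorem Gt.sub {x y : K} {r : ℝ} (hx : ν.Gt x r) (hy : ν.Gt y r) : ν.Gt (x - y) r := by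
  rw [sub_eq_add_neg]
  exact hx.add hy.neg

theorem Ge.mul {x y : K} {r s : ℝ} (hx : ν.Ge x r) (hy : ν.Ge y s) : ν.Ge (x * y) (r + s) := by
  rcases eq_or_ne x 0 with rfl | hx0
  · rw [zero_mul]; exact Or.inl rfl
  rcases eq_or_ne y 0 with rfl | hy0
  · rw [mul_zero]; exact Or.inl rfl
  refine Or.inr ?_
  rw [ν.v_mul hx0 hy0]
  exact add_le_add (hx.le hx0) (hy.le hy0)

theorem Gt.mul_ge {x y : K} {r s : ℝ} (hx : ν.Gt x r) (hy : ν.Ge y s) : ν.Gt (x * y) (r + s) := by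
  rcases eq_or_ne x 0 with rfl | hx0
  · rw [zero_mul]; exact Or.inl rfl
  rcases eq_or_ne y 0 with rfl | hy0
  · rw [mul_zero]; exact Or.inl rfl
  refine Or.inr ?_
  rw [ν.v_mul hx0 hy0]
  exact add_lt_add_of_lt_of_le (hx.lt hx0) (hy.le hy0)

theorem Ge.mul_gt {x y : K} {r s : ℝ} (hx : ν.Ge x r) (hy : ν.Gt y s) : ν.Gt (x * y) (r + s) := by
  rw [mul_comm, add_comm]
  exact hy.mul_ge hx

theorem Ge.pow {x : K} {r : ℝ} (hx : ν.Ge x r) (n : ℕ) : ν.Ge (x ^ n) (n * r) := by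
  induction n with
  | zero => simp only [pow_zero, Nat.cast_zero, zero_mul]; exact Or.inr (by rw [ν.v_one])
  | succ n ih =>
    rw [pow_succ]
    have h := ih.mul hx
    have e : (n : ℝ) * r + r = ((n + 1 : ℕ) : ℝ) * r := by push_cast; ring
    rwa [e] at h

/-- `v (x + y) = v x` as soon as `x ≠ 0` and "`v y > v x`". -/
theorem v_add_eq_of_gt {x y : K} (hx : x ≠ 0) (hy : ν.Gt y (ν.v x)) :
    x + y ≠ 0 ∧ ν.v (x + y) = ν.v x := by
  rcases eq_or_ne y 0 with rfl | hy0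
  · rw [add_zero]; exact ⟨hx, rfl⟩
  · exact ν.v_add_eq_of_lt hx hy0 (hy.lt hy0)

/-- `v (x - y) = v x` as soon as `x ≠ 0` and "`v y > v x`". -/
theorem v_sub_eq_of_gt {x y : K} (hx : x ≠ 0) (hy : ν.Gt y (ν.v x)) :
    x - y ≠ 0 ∧ ν.v (x - y) = ν.v x := by
  rw [sub_eq_add_neg]
  exact v_add_eq_of_gt hx hy.neg

/-- `v (y + x) = v x` as soon as `x ≠ 0` and "`v y > v x`". -/
theorem v_add_eq_of_gt' {x y : K} (hx : x ≠ 0) (hy : ν.Gt y (ν.v x)) :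
    y + x ≠ 0 ∧ ν.v (y + x) = ν.v x := by
  rw [add_comm]
  exact v_add_eq_of_gt hx hy

/-- `v (y - x) = v x` as soon as `x ≠ 0` and "`v y > v x`". -/
theorem v_sub_eq_of_gt' {x y : K} (hx : x ≠ 0) (hy : ν.Gt y (ν.v x)) :
    y - x ≠ 0 ∧ ν.v (y - x) = ν.v x := by
  have h := v_sub_eq_of_gt hx hy
  have e : y - x = -(x - y) := by ring
  rw [e, ν.v_neg]
  exact ⟨neg_ne_zero.mpr h.1, h.2⟩

/-- Natural-number casts of nonzero `v`-units: if `v (k : K) = 0`, multiplying by `k` does not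
change the valuation. -/
theorem v_mul_of_v_eq_zero {c x : K} (hc : c ≠ 0) (hcv : ν.v c = 0) (hx : x ≠ 0) :
    ν.v (c * x) = ν.v x := by
  rw [ν.v_mul hc hx, hcv, zero_add]

/-! ### Newton polygon of a quadratic: from `v (r₁ r₂)` and `v (r₁ + r₂)` to `v r₁`, `v r₂` -/

/-- If `v(r₁) + v(r₂) = 2 m` (both nonzero) and "`v (r₁ + r₂) ≥ m`", then `v r₁ = v r₂ = m`. -/
theorem eq_eq_of_mul_of_add_ge {r₁ r₂ : K} {m : ℝ} (h₁ : r₁ ≠ 0) (h₂ : r₂ ≠ 0)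
    (hm : ν.v r₁ + ν.v r₂ = 2 * m) (hs : ν.Ge (r₁ + r₂) m) : ν.v r₁ = m ∧ ν.v r₂ = m := by
  by_contra hcon
  have hne : ν.v r₁ ≠ ν.v r₂ := by
    intro he
    apply hcon
    constructor <;> linarith
  rcases lt_or_gt_of_ne hne with hlt | hlt
  · obtain ⟨hne0, hv⟩ := ν.v_add_eq_of_lt h₁ h₂ hlt
    have := hs.le hne0
    linarith
  · obtain ⟨hne0, hv⟩ := ν.v_add_eq_of_lt' h₁ h₂ hlt
    have := hs.le hne0
    linarith

/-- If `r₁ + r₂ ≠ 0` has valuation `s` and `v r₁ + v r₂ = s + t` with `s < t`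
(both `r_i ≠ 0`), then `{v r₁, v r₂} = {s, t}`. -/
theorem eq_or_eq_of_add_of_mul {r₁ r₂ : K} {s t : ℝ} (h₁ : r₁ ≠ 0) (h₂ : r₂ ≠ 0)
    (hsum0 : r₁ + r₂ ≠ 0) (hs : ν.v (r₁ + r₂) = s) (hm : ν.v r₁ + ν.v r₂ = s + t) (hst : s < t) :
    (ν.v r₁ = s ∧ ν.v r₂ = t) ∨ (ν.v r₁ = t ∧ ν.v r₂ = s) := by
  rcases lt_trichotomy (ν.v r₁) (ν.v r₂) with hlt | heq | hgt
  · obtain ⟨_, hv⟩ := ν.v_add_eq_of_lt h₁ h₂ hlt
    left
    constructor <;> linarith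
  · exfalso
    have h := ν.v_add_ge h₁ h₂ hsum0
    rw [heq, min_self] at h
    linarith
  · obtain ⟨_, hv⟩ := ν.v_add_eq_of_lt' h₁ h₂ hgt
    right
    constructor <;> linarith

end AddVal

end Fermat.Agent.S05
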