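/-
S05: points in the "kernel of reduction" of the Kummer line `Y² = X (X² + a X + b)` have no
prime-to-`ℓ` torsion (`ℓ` = odd residue characteristic).

Everything is elementary: only the identities `eqn`, `two_torsion`, `dbl`, `addsub_mul`,
`eq_or_eq_neg`, `X_neg` of `KummerData` and the valuation calculus of `ValCalc.lean` are used.

A point `Q` is *deep* if `Q ≠ 0`, `X Q ≠ 0` and `v (X Q) < 0`.  For a deep point `Q` one shows by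
induction on `k < ℓ` that `k • Q ≠ 0` and `k² X(k • Q) ≡ X(Q)` up to terms of strictly larger
valuation; at `k = ℓ` this yields that `ℓ • Q` is either `0` or strictly deeper than `Q`.
Iterating along `ℓ^j • P` and using `ℓ^(p-1) ≡ 1 mod p` gives the theorem.
-/
import Mathlib
import Fermat.Agent.S05.Defs
import Fermat.Agent.S05.ValCalc

set_option autoImplicit false

namespace Fermat.Agent.S05

/-! ### Pure valuation lemmas -/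

section deep_val

variable {K : Type*} [Field K] {ν : AddVal K}

/-- If `z * w = n` with `w ≠ 0`, `v w = s` and "`v n > t`", then "`v z > t - s`". -/
theorem deep_gt_of_mul_eq {z w n : K} {s t : ℝ} (hw : w ≠ 0) (hwv : ν.v w = s)
    (h : z * w = n) (hn : ν.Gt n t) : ν.Gt z (t - s) := by
  rcases eq_or_ne z 0 with rfl | hz
  · exact AddVal.Gt.zero _
  · refine Or.inr ?_
    have hn0 : n ≠ 0 := by rw [← h]; exact mul_ne_zero hz hw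
    have h1 := hn.lt hn0
    rw [← h, ν.v_mul hz hw, hwv] at h1
    linarith

/-- If `z * w = n` with `w ≠ 0`, `v w = s` and "`v n ≥ t`", then "`v z ≥ t - s`". -/
theorem deep_ge_of_mul_eq {z w n : K} {s t : ℝ} (hw : w ≠ 0) (hwv : ν.v w = s)
    (h : z * w = n) (hn : ν.Ge n t) : ν.Ge z (t - s) := by
  rcases eq_or_ne z 0 with rfl | hz
  · exact AddVal.Ge.zero _
  · refine Or.inr ?_
    have hn0 : n ≠ 0 := by rw [← h]; exact mul_ne_zero hz hw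
    have h1 := hn.le hn0
    rw [← h, ν.v_mul hz hw, hwv] at h1
    linarith

theorem deep_ge_sq {x : K} {r : ℝ} (h : ν.Ge x r) : ν.Ge (x ^ 2) (2 * r) := by
  have h1 := h.mul h
  have e : x * x = x ^ 2 := by ring
  rw [e] at h1
  exact h1.mono (by linarith)

theorem deep_ge_cube {x : K} {r : ℝ} (h : ν.Ge x r) : ν.Ge (x ^ 3) (3 * r) := by
  have h1 := (h.mul h).mul h
  have e : x * x * x = x ^ 3 := by ring
  rw [e] at h1
  exact h1.mono (by linarith)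

theorem deep_gt_sq {x : K} {r : ℝ} (h : ν.Gt x r) : ν.Gt (x ^ 2) (2 * r) := by
  have h1 := h.mul_ge h.ge
  have e : x * x = x ^ 2 := by ring
  rw [e] at h1
  exact h1.mono (by linarith)

/-- If `c` is a unit and `c² X_k` is close to `X₁`, then `X_k ≠ 0` and `v X_k = v X₁`. -/
theorem deep_val_of_close {c X₁ Xk : K} (hc : c ≠ 0) (hcv : ν.v c = 0) (hX₁ : X₁ ≠ 0)
    (h : ν.Gt (c ^ 2 * Xk - X₁) (ν.v X₁)) : Xk ≠ 0 ∧ ν.v Xk = ν.v X₁ := by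
  have h1 := AddVal.v_add_eq_of_gt hX₁ h
  have e : X₁ + (c ^ 2 * Xk - X₁) = c ^ 2 * Xk := by ring
  rw [e] at h1
  obtain ⟨h2, h3⟩ := h1
  have hXk : Xk ≠ 0 := right_ne_zero_of_mul h2
  refine ⟨hXk, ?_⟩
  rw [ν.v_mul (pow_ne_zero 2 hc) hXk, ν.v_sq hc, hcv] at h3
  linarith

/-- Valuation form of the duplication step (Lemma A). -/
theorem deep_dbl_val {X Y X2 a b : K} (hν2 : ν.v 2 = 0) (ha : ν.Ge a 0) (hb : ν.Ge b 0)
    (hX : X ≠ 0) (hr : ν.v X < 0)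
    (heqn : Y ^ 2 = X * (X ^ 2 + a * X + b)) :
    Y ≠ 0 ∧ (X2 * (2 * Y) ^ 2 = (X ^ 2 - b) ^ 2 → ν.Gt (4 * X2 - X) (ν.v X)) := by
  have hX2 : X ^ 2 ≠ 0 := pow_ne_zero 2 hX
  have hX2v : ν.v (X ^ 2) = 2 * ν.v X := ν.v_sq hX
  have hgeX : ν.Ge X (ν.v X) := AddVal.ge_self X
  have h1 : ν.Gt (a * X + b) (ν.v (X ^ 2)) := by
    rw [hX2v]
    have h11 : ν.Gt (a * X) (2 * ν.v X) := (ha.mul hgeX).gt_of_lt (by linarith)
    have h12 : ν.Gt b (2 * ν.v X) := hb.gt_of_lt (by linarith)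
    exact h11.add h12
  obtain ⟨h2, h3⟩ := AddVal.v_add_eq_of_gt hX2 h1
  have e : X ^ 2 + (a * X + b) = X ^ 2 + a * X + b := by ring
  rw [e] at h2 h3
  have hY2 : Y ^ 2 ≠ 0 := by rw [heqn]; exact mul_ne_zero hX h2
  have hY2v : ν.v (Y ^ 2) = 3 * ν.v X := by
    rw [heqn, ν.v_mul hX h2, h3, hX2v]; ring
  have hY : Y ≠ 0 := fun h => hY2 (by rw [h]; ring)
  refine ⟨hY, fun hdbl => ?_⟩
  have key : (4 * X2 - X) * Y ^ 2 = -(a * X ^ 3) - 3 * (b * X ^ 2) + b ^ 2 := by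
    linear_combination hdbl - X * heqn
  have h2ge : ν.Ge (2 : K) 0 := AddVal.ge_of_ne (le_of_eq hν2.symm)
  have h1ge : ν.Ge (1 : K) 0 := AddVal.ge_of_ne (le_of_eq ν.v_one.symm)
  have h3ge : ν.Ge (3 : K) 0 := by
    have e3 : (3 : K) = 2 + 1 := by norm_num
    rw [e3]
    exact h2ge.add h1ge
  have t1 : ν.Ge (a * X ^ 3) (3 * ν.v X) := (ha.mul (deep_ge_cube hgeX)).mono (by linarith)
  have t2 : ν.Ge (3 * (b * X ^ 2)) (3 * ν.v X) :=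
    (h3ge.mul (hb.mul (deep_ge_sq hgeX))).mono (by linarith)
  have t3 : ν.Ge (b ^ 2) (3 * ν.v X) := (deep_ge_sq hb).mono (by linarith)
  have hnum : ν.Ge (-(a * X ^ 3) - 3 * (b * X ^ 2) + b ^ 2) (3 * ν.v X) :=
    (t1.neg.sub t2).add t3
  exact (deep_ge_of_mul_eq hY2 hY2v key hnum).gt_of_lt (by linarith)

/-- The polynomial identity behind the induction step (Lemma B). -/
theorem deep_step_identity (X₁ Xk Xm Xn b ck cm cn : K)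
    (hc : cn * ck = cm ^ 2 - 1)
    (hE : Xn * Xk * (Xm - X₁) ^ 2 = (Xm * X₁ - b) ^ 2) :
    (cn ^ 2 * Xn - X₁) *
        ((X₁ + (ck ^ 2 * Xk - X₁)) * ((cm ^ 2 - 1) * X₁ - (cm ^ 2 * Xm - X₁)) ^ 2) =
      2 * (cm ^ 2 - 1) ^ 2 * X₁ ^ 2 * ((cm ^ 2 * Xm - X₁) * X₁ - cm ^ 2 * b)
      + (cm ^ 2 - 1) ^ 2 * ((cm ^ 2 * Xm - X₁) * X₁ - cm ^ 2 * b) ^ 2
      + 2 * (cm ^ 2 - 1) * X₁ ^ 3 * (cm ^ 2 * Xm - X₁)
      - X₁ ^ 2 * (cm ^ 2 * Xm - X₁) ^ 2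
      - X₁ * (ck ^ 2 * Xk - X₁) * ((cm ^ 2 - 1) * X₁ - (cm ^ 2 * Xm - X₁)) ^ 2 := by
  linear_combination (cn ^ 2 * ck ^ 2 * cm ^ 4) * hE
    + ((cn * ck + (cm ^ 2 - 1)) * cm ^ 4 * (Xm * X₁ - b) ^ 2) * hc

/-- Valuation form of the induction step (Lemma B). -/
theorem deep_step_val {X₁ Xk Xm Xn b ck cm cn : K}
    (hX₁ : X₁ ≠ 0) (hr : ν.v X₁ < 0) (hb : ν.Ge b 0) (h2 : ν.Ge (2 : K) 0)
    (hcm : ν.Ge cm 0)
    (hc : cn * ck = cm ^ 2 - 1) (hc0 : cm ^ 2 - 1 ≠ 0) (hcv : ν.v (cm ^ 2 - 1) = 0)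
    (h₁ : ν.Gt (ck ^ 2 * Xk - X₁) (ν.v X₁))
    (h₂ : ν.Gt (cm ^ 2 * Xm - X₁) (ν.v X₁))
    (hE : Xn * Xk * (Xm - X₁) ^ 2 = (Xm * X₁ - b) ^ 2) :
    ν.Gt (cn ^ 2 * Xn - X₁) (ν.v X₁) := by
  have key := deep_step_identity X₁ Xk Xm Xn b ck cm cn hc hE
  have hcm2 : ν.Ge (cm ^ 2) 0 := (deep_ge_sq hcm).mono (by linarith)
  generalize ck ^ 2 * Xk - X₁ = e₁ at key h₁
  generalize cm ^ 2 * Xm - X₁ = e₂ at key h₂
  generalize cm ^ 2 - 1 = c at key hc0 hcv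
  generalize cm ^ 2 = m2 at key hcm2
  have hgeX : ν.Ge X₁ (ν.v X₁) := AddVal.ge_self X₁
  have hcge : ν.Ge c 0 := AddVal.ge_of_ne (le_of_eq hcv.symm)
  obtain ⟨hW1, hW1v⟩ := AddVal.v_add_eq_of_gt hX₁ h₁
  have hcX : c * X₁ ≠ 0 := mul_ne_zero hc0 hX₁
  have hcXv : ν.v (c * X₁) = ν.v X₁ := AddVal.v_mul_of_v_eq_zero hc0 hcv hX₁
  obtain ⟨hW2, hW2v⟩ := AddVal.v_sub_eq_of_gt hcX (y := e₂) (by rw [hcXv]; exact h₂)
  rw [hcXv] at hW2v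
  have hW2ge : ν.Ge (c * X₁ - e₂) (ν.v X₁) := AddVal.ge_of_ne (le_of_eq hW2v.symm)
  have hW : (X₁ + e₁) * (c * X₁ - e₂) ^ 2 ≠ 0 := mul_ne_zero hW1 (pow_ne_zero 2 hW2)
  have hWv : ν.v ((X₁ + e₁) * (c * X₁ - e₂) ^ 2) = 3 * ν.v X₁ := by
    rw [ν.v_mul hW1 (pow_ne_zero 2 hW2), ν.v_sq hW2, hW1v, hW2v]; ring
  have hT : ν.Gt (e₂ * X₁ - m2 * b) (2 * ν.v X₁) :=
    ((h₂.mul_ge hgeX).mono (by linarith)).sub ((hcm2.mul hb).gt_of_lt (by linarith))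
  have t1 : ν.Gt (2 * c ^ 2 * X₁ ^ 2 * (e₂ * X₁ - m2 * b)) (4 * ν.v X₁) :=
    (((h2.mul (deep_ge_sq hcge)).mul (deep_ge_sq hgeX)).mul_gt hT).mono (by linarith)
  have t2 : ν.Gt (c ^ 2 * (e₂ * X₁ - m2 * b) ^ 2) (4 * ν.v X₁) :=
    ((deep_ge_sq hcge).mul_gt (deep_gt_sq hT)).mono (by linarith)
  have t3 : ν.Gt (2 * c * X₁ ^ 3 * e₂) (4 * ν.v X₁) :=
    (((h2.mul hcge).mul (deep_ge_cube hgeX)).mul_gt h₂).mono (by linarith)
  have t4 : ν.Gt (X₁ ^ 2 * e₂ ^ 2) (4 * ν.v X₁) :=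
    ((deep_ge_sq hgeX).mul_gt (deep_gt_sq h₂)).mono (by linarith)
  have t5 : ν.Gt (X₁ * e₁ * (c * X₁ - e₂) ^ 2) (4 * ν.v X₁) :=
    ((hgeX.mul_gt h₁).mul_ge (deep_ge_sq hW2ge)).mono (by linarith)
  have hN := (((t1.add t2).add t3).sub t4).sub t5
  exact (deep_gt_of_mul_eq hW hWv key hN).mono (by linarith)

end deep_val

/-! ### Torsion bookkeeping in an abelian group -/

section deep_group

variable {G : Type*} [AddCommGroup G]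

theorem deep_nsmul_ne_zero {P : G} (hP : P ≠ 0) {p n : ℕ} (hpP : p • P = 0)
    (hcop : Nat.Coprime n p) : n • P ≠ 0 := by
  intro hn
  have h1 : addOrderOf P ∣ n := addOrderOf_dvd_of_nsmul_eq_zero hn
  have h2 : addOrderOf P ∣ p := addOrderOf_dvd_of_nsmul_eq_zero hpP
  have h3 : addOrderOf P ∣ Nat.gcd n p := Nat.dvd_gcd h1 h2
  rw [hcop.gcd_eq_one] at h3
  have h4 : addOrderOf P = 1 := Nat.dvd_one.mp h3
  exact hP (AddMonoid.addOrderOf_eq_one_iff.mp h4)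

theorem deep_nsmul_mod {P : G} {p : ℕ} (hpP : p • P = 0) (n : ℕ) :
    n • P = (n % p) • P := by
  conv_lhs => rw [← Nat.div_add_mod n p]
  rw [add_nsmul, mul_nsmul, hpP, nsmul_zero, zero_add]

end deep_group

/-! ### Deep points -/

section deep_kummer

variable {G K : Type*} [AddCommGroup G] [Field K] [CharZero K]
  (D : KummerData G K) (ν : AddVal K)

/-- A point is *deep* if it lies in the "kernel of reduction": `v (X Q) < 0`. -/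
def deep_Deep (Q : G) : Prop := Q ≠ 0 ∧ D.X Q ≠ 0 ∧ ν.v (D.X Q) < 0

/-- The property `D(k)`: `k • Q ≠ 0` and `k² X(k • Q)` is close to `X(Q)`. -/
def deep_Close (Q : G) (k : ℕ) : Prop :=
  k • Q ≠ 0 ∧ ν.Gt ((k : K) ^ 2 * D.X (k • Q) - D.X Q) (ν.v (D.X Q))

omit [CharZero K] in
theorem deep_close_one {Q : G} (hQ : deep_Deep D ν Q) : deep_Close D ν Q 1 := by
  refine ⟨by rw [one_nsmul]; exact hQ.1, ?_⟩
  have e : ((1 : ℕ) : K) ^ 2 * D.X ((1 : ℕ) • Q) - D.X Q = 0 := by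
    rw [one_nsmul]; push_cast; ring
  rw [e]; exact AddVal.Gt.zero _

omit [CharZero K] in
/-- Lemma A (doubling). -/
theorem deep_close_two (hν2 : ν.v 2 = 0) (ha : ν.Ge D.a 0) (hb : ν.Ge D.b 0) {Q : G}
    (hQ : deep_Deep D ν Q) : deep_Close D ν Q 2 := by
  obtain ⟨hQ0, hX, hr⟩ := hQ
  obtain ⟨hY, hgt⟩ := deep_dbl_val (X2 := D.X (Q + Q)) hν2 ha hb hX hr (D.eqn Q hQ0)
  have hQQ : Q + Q ≠ 0 := fun h => hY ((D.two_torsion Q hQ0).mp h)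
  have h := hgt (D.dbl Q hQ0 hQQ)
  refine ⟨by rwa [two_nsmul], ?_⟩
  rw [two_nsmul]
  have e : ((2 : ℕ) : K) ^ 2 * D.X (Q + Q) - D.X Q = 4 * D.X (Q + Q) - D.X Q := by
    push_cast; ring
  rw [e]; exact h

/-- Lemma B (step). -/
theorem deep_close_step (hν2 : ν.v 2 = 0) (hb : ν.Ge D.b 0) {ℓ : ℕ}
    (hunit : ∀ k : ℕ, 0 < k → k < ℓ → ν.v (k : K) = 0)
    {Q : G} (hQ : deep_Deep D ν Q) {k : ℕ} (hk : 1 ≤ k) (hkℓ : k + 2 < ℓ)
    (h₁ : deep_Close D ν Q k) (h₂ : deep_Close D ν Q (k + 1)) :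
    deep_Close D ν Q (k + 2) := by
  obtain ⟨hQ0, hX, hr⟩ := hQ
  obtain ⟨hk0, hkgt⟩ := h₁
  obtain ⟨hm0, hmgt⟩ := h₂
  -- units
  have hck0 : (k : K) ≠ 0 := Nat.cast_ne_zero.mpr (by omega)
  have hckv : ν.v (k : K) = 0 := hunit k (by omega) (by omega)
  have hcmv : ν.v ((k + 1 : ℕ) : K) = 0 := hunit (k + 1) (by omega) (by omega)
  have hcn0 : ((k + 2 : ℕ) : K) ≠ 0 := Nat.cast_ne_zero.mpr (by omega)
  have hcnv : ν.v ((k + 2 : ℕ) : K) = 0 := hunit (k + 2) (by omega) hkℓ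
  have hc : ((k + 2 : ℕ) : K) * (k : K) = ((k + 1 : ℕ) : K) ^ 2 - 1 := by push_cast; ring
  have hc0 : ((k + 1 : ℕ) : K) ^ 2 - 1 ≠ 0 := by rw [← hc]; exact mul_ne_zero hcn0 hck0
  have hcv : ν.v (((k + 1 : ℕ) : K) ^ 2 - 1) = 0 := by
    rw [← hc, ν.v_mul hcn0 hck0, hcnv, hckv, add_zero]
  -- (i) `X_{k+1} ≠ X₁`
  have hne : D.X ((k + 1) • Q) ≠ D.X Q := by
    intro heq
    rw [heq] at hmgt
    have e : ((k + 1 : ℕ) : K) ^ 2 * D.X Q - D.X Q = (((k + 1 : ℕ) : K) ^ 2 - 1) * D.X Q := by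
      ring
    rw [e] at hmgt
    have h1 := hmgt.lt (mul_ne_zero hc0 hX)
    rw [AddVal.v_mul_of_v_eq_zero hc0 hcv hX] at h1
    exact lt_irrefl _ h1
  -- (ii)
  have hsum : (k + 1) • Q + Q = (k + 2) • Q := (succ_nsmul Q (k + 1)).symm
  have hdiff : (k + 1) • Q - Q = k • Q := by
    rw [succ_nsmul Q k, add_sub_cancel_right]
  have hn0 : (k + 2) • Q ≠ 0 := by
    rw [← hsum]
    intro h
    apply hne
    rw [eq_neg_of_add_eq_zero_left h, D.X_neg]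
  have hE := D.addsub_mul ((k + 1) • Q) Q hm0 hQ0 hne
  rw [hsum, hdiff] at hE
  exact ⟨hn0, deep_step_val hX hr hb (AddVal.ge_of_ne (le_of_eq hν2.symm))
    (AddVal.ge_of_ne (le_of_eq hcmv.symm)) hc hc0 hcv hkgt hmgt hE⟩

/-- `D(k)` for all `1 ≤ k < ℓ`, in the form `D(k+1) ∧ D(k+2)` for `k + 2 < ℓ`. -/
theorem deep_close_all (hν2 : ν.v 2 = 0) (ha : ν.Ge D.a 0) (hb : ν.Ge D.b 0) {ℓ : ℕ}
    (hunit : ∀ k : ℕ, 0 < k → k < ℓ → ν.v (k : K) = 0)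
    {Q : G} (hQ : deep_Deep D ν Q) (k : ℕ) (hkℓ : k + 2 < ℓ) :
    deep_Close D ν Q (k + 1) ∧ deep_Close D ν Q (k + 2) := by
  induction k with
  | zero => exact ⟨deep_close_one D ν hQ, deep_close_two D ν hν2 ha hb hQ⟩
  | succ k ih =>
    obtain ⟨h1, h2⟩ := ih (by omega)
    exact ⟨h2, deep_close_step D ν hν2 hb hunit hQ (by omega) hkℓ h1 h2⟩

/-- Lemma C (deepening): for a deep point `Q`, `ℓ • Q` is `0` or strictly deeper. -/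
theorem deep_deepen (hν2 : ν.v 2 = 0) (ha : ν.Ge D.a 0) (hb : ν.Ge D.b 0) {ℓ : ℕ}
    (hℓ3 : 3 ≤ ℓ) (hℓv : 0 < ν.v (ℓ : K))
    (hunit : ∀ k : ℕ, 0 < k → k < ℓ → ν.v (k : K) = 0)
    {Q : G} (hQ : deep_Deep D ν Q) :
    ℓ • Q = 0 ∨ (deep_Deep D ν (ℓ • Q) ∧ ν.v (D.X (ℓ • Q)) < ν.v (D.X Q)) := by
  obtain ⟨k, rfl⟩ : ∃ k, ℓ = k + 3 := ⟨ℓ - 3, by omega⟩
  obtain ⟨h₁, h₂⟩ := deep_close_all D ν hν2 ha hb hunit hQ k (by omega)
  obtain ⟨hQ0, hX, hr⟩ := hQ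
  obtain ⟨hk0, hkgt⟩ := h₁
  obtain ⟨hm0, hmgt⟩ := h₂
  -- units
  have hck0 : ((k + 1 : ℕ) : K) ≠ 0 := Nat.cast_ne_zero.mpr (by omega)
  have hckv : ν.v ((k + 1 : ℕ) : K) = 0 := hunit (k + 1) (by omega) (by omega)
  have hcm0 : ((k + 2 : ℕ) : K) ≠ 0 := Nat.cast_ne_zero.mpr (by omega)
  have hcmv : ν.v ((k + 2 : ℕ) : K) = 0 := hunit (k + 2) (by omega) (by omega)
  -- valuations of `X_{k+1}`, `X_{k+2}`
  obtain ⟨hXk0, hXkv⟩ := deep_val_of_close hck0 hckv hX hkgt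
  obtain ⟨hXm0, hXmv⟩ := deep_val_of_close hcm0 hcmv hX hmgt
  -- `X_{k+2} - X₁` has valuation `> r`
  have hclose : ν.Gt (D.X ((k + 2) • Q) - D.X Q) (ν.v (D.X Q)) := by
    have e : D.X ((k + 2) • Q) - D.X Q =
        (((k + 2 : ℕ) : K) ^ 2 * D.X ((k + 2) • Q) - D.X Q)
          - ((k + 3 : ℕ) : K) * (((k + 1 : ℕ) : K) * D.X ((k + 2) • Q)) := by
      push_cast; ring
    rw [e]
    refine hmgt.sub ?_
    have h1 : ν.Gt ((k + 3 : ℕ) : K) 0 := AddVal.gt_of_ne hℓv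
    have h2 : ν.Ge (((k + 1 : ℕ) : K) * D.X ((k + 2) • Q)) (ν.v (D.X Q)) := by
      refine AddVal.ge_of_ne ?_
      rw [AddVal.v_mul_of_v_eq_zero hck0 hckv hXm0, hXmv]
    exact (h1.mul_ge h2).mono (by linarith)
  have hsum : (k + 2) • Q + Q = (k + 3) • Q := (succ_nsmul Q (k + 2)).symm
  have hdiff : (k + 2) • Q - Q = (k + 1) • Q := by
    rw [succ_nsmul Q (k + 1), add_sub_cancel_right]
  by_cases heq : D.X ((k + 2) • Q) = D.X Q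
  · rcases D.eq_or_eq_neg _ _ hm0 hQ0 heq with h | h
    · exfalso
      apply hk0
      rw [← hdiff, h, sub_self]
    · left
      rw [← hsum, h, neg_add_cancel]
  · right
    have hn0 : (k + 3) • Q ≠ 0 := by
      rw [← hsum]
      intro h
      apply heq
      rw [eq_neg_of_add_eq_zero_left h, D.X_neg]
    have hE := D.addsub_mul ((k + 2) • Q) Q hm0 hQ0 heq
    rw [hsum, hdiff] at hE
    have hXX0 : D.X ((k + 2) • Q) * D.X Q ≠ 0 := mul_ne_zero hXm0 hX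
    have hXXv : ν.v (D.X ((k + 2) • Q) * D.X Q) = 2 * ν.v (D.X Q) := by
      rw [ν.v_mul hXm0 hX, hXmv]; ring
    obtain ⟨hR0, hRv⟩ := AddVal.v_sub_eq_of_gt hXX0 (y := D.b)
      (hb.gt_of_lt (by rw [hXXv]; linarith))
    have hd0 : D.X ((k + 2) • Q) - D.X Q ≠ 0 := sub_ne_zero.mpr heq
    have hdv := hclose.lt hd0
    have hL0 : D.X ((k + 3) • Q) * D.X ((k + 1) • Q) * (D.X ((k + 2) • Q) - D.X Q) ^ 2 ≠ 0 := by
      rw [hE]; exact pow_ne_zero 2 hR0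
    have hXn0 : D.X ((k + 3) • Q) ≠ 0 := left_ne_zero_of_mul (left_ne_zero_of_mul hL0)
    have hv := congrArg ν.v hE
    rw [ν.v_mul (mul_ne_zero hXn0 hXk0) (pow_ne_zero 2 hd0), ν.v_mul hXn0 hXk0, ν.v_sq hd0,
      ν.v_sq hR0, hRv, hXXv, hXkv] at hv
    have hlt : ν.v (D.X ((k + 3) • Q)) < ν.v (D.X Q) := by linarith
    exact ⟨⟨hn0, hXn0, by linarith⟩, hlt⟩

end deep_kummer

theorem no_torsion_of_neg_val {G K : Type*} [AddCommGroup G] [Field K] [CharZero K]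
    (D : KummerData G K) (ν : AddVal K)
    (hν2 : ν.v 2 = 0)
    (ha : D.a = 0 ∨ 0 ≤ ν.v D.a) (hb : D.b = 0 ∨ 0 ≤ ν.v D.b)
    {ℓ p : ℕ} (hℓ : ℓ.Prime) (hℓ2 : ℓ ≠ 2) (hp : p.Prime) (hpℓ : p ≠ ℓ)
    (hℓv : 0 < ν.v (ℓ : K))
    (hunit : ∀ k : ℕ, 0 < k → k < ℓ → ν.v (k : K) = 0)
    {P : G} (hP : P ≠ 0) (hX : D.X P ≠ 0) (hv : ν.v (D.X P) < 0) :
    p • P ≠ 0 := by
  intro hpP
  have hℓ3 : 3 ≤ ℓ := by
    have := hℓ.two_le
    omega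
  have hcop1 : Nat.Coprime ℓ p := (Nat.coprime_primes hℓ hp).mpr (Ne.symm hpℓ)
  have hcop : ∀ j : ℕ, Nat.Coprime (ℓ ^ j) p := fun j => Nat.Coprime.pow_left j hcop1
  have key : ∀ j : ℕ, deep_Deep D ν (ℓ ^ (j + 1) • P) ∧
      ν.v (D.X (ℓ ^ (j + 1) • P)) < ν.v (D.X P) := by
    intro j
    induction j with
    | zero =>
      rw [zero_add, pow_one]
      rcases deep_deepen D ν hν2 ha hb hℓ3 hℓv hunit (Q := P) ⟨hP, hX, hv⟩ with h | h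
      · exact absurd h (by simpa using deep_nsmul_ne_zero hP hpP (hcop 1))
      · exact h
    | succ j ih =>
      rcases deep_deepen D ν hν2 ha hb hℓ3 hℓv hunit ih.1 with h | h
      · rw [← mul_nsmul, ← pow_succ] at h
        exact absurd h (deep_nsmul_ne_zero hP hpP (hcop _))
      · rw [← mul_nsmul, ← pow_succ] at h
        exact ⟨h.1, lt_trans h.2 ih.2⟩
  obtain ⟨j, hj⟩ : ∃ j, p - 1 = j + 1 := ⟨p - 2, by have := hp.two_le; omega⟩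
  have hflt : ℓ ^ (p - 1) % p = 1 % p := by
    have h := Nat.ModEq.pow_totient hcop1
    rw [Nat.totient_prime hp] at h
    exact h
  have hPP : ℓ ^ (j + 1) • P = P := by
    rw [← hj, deep_nsmul_mod hpP, hflt, Nat.mod_eq_of_lt hp.one_lt, one_nsmul]
  have hfin := (key j).2
  rw [hPP] at hfin
  exact lt_irrefl _ hfin

end Fermat.Agent.S05
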