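/-
S05: the final "inertia acts trivially" step.

`G` = points of `Y² = X (X² + a X + b)`, `τ` = the action on points of an element `σ` of an
inertia group (`σ` preserves the valuation and is the identity modulo the maximal ideal).
Conclusion: `σ` fixes every `p`-torsion point (`p` odd), both at a prime of multiplicative
reduction (`galois_fixed_mult`, using the tropical information `hT`) and at a prime of good
reduction (`galois_fixed_good`).
-/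
import Mathlib
import Fermat.Agent.S05.Defs
import Fermat.Agent.S05.ValCalc
set_option autoImplicit false
namespace Fermat.Agent.S05

section abstract
variable {G K : Type*} [AddCommGroup G] [Field K] [CharZero K]

omit [CharZero K] in
/-- Product of two elements of valuation `≥ 0`. -/
theorem fin_ge_mul (ν : AddVal K) {x y : K} (hx : ν.Ge x 0) (hy : ν.Ge y 0) : ν.Ge (x * y) 0 := by
  have h := hx.mul hy
  rwa [add_zero] at h

omit [CharZero K] in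
/-- Product of an element of valuation `> 0` and one of valuation `≥ 0`. -/
theorem fin_gt_mul_ge (ν : AddVal K) {x y : K} (hx : ν.Gt x 0) (hy : ν.Ge y 0) :
    ν.Gt (x * y) 0 := by
  have h := hx.mul_ge hy
  rwa [add_zero] at h

omit [CharZero K] in
/-- Product of an element of valuation `≥ 0` and one of valuation `> 0`. -/
theorem fin_ge_mul_gt (ν : AddVal K) {x y : K} (hx : ν.Ge x 0) (hy : ν.Gt y 0) :
    ν.Gt (x * y) 0 := by
  have h := hx.mul_gt hy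
  rwa [add_zero] at h

omit [CharZero K] in
/-- CLAIM 0: an inertia-like `σ` moves `x` only slightly as soon as `v x ∈ ℤ · v d` for a
`σ`-fixed element `d`. -/
theorem fin_near (ν : AddVal K) (σ : K →+* K)
    (hσnear : ∀ x : K, x ≠ 0 → 0 ≤ ν.v x → σ x = x ∨ 0 < ν.v (σ x - x))
    (d : K) (hd0 : d ≠ 0) (hσd : σ d = d)
    {x : K} (hx : x ≠ 0) (m : ℤ) (hm : ν.v x = m * ν.v d) :
    σ x = x ∨ ν.v x < ν.v (σ x - x) := by
  have hr0 : d ^ m ≠ 0 := zpow_ne_zero m hd0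
  have hσr : σ (d ^ m) = d ^ m := by rw [map_zpow₀, hσd]
  have hvr : ν.v (d ^ m) = ν.v x := by rw [ν.v_zpow hd0, hm]
  obtain ⟨r, hr⟩ : ∃ r : K, r = d ^ m := ⟨_, rfl⟩
  rw [← hr] at hr0 hσr hvr
  have hu0 : x / r ≠ 0 := div_ne_zero hx hr0
  have hvu : ν.v (x / r) = 0 := by rw [ν.v_div hx hr0, hvr, sub_self]
  obtain ⟨u, hu⟩ : ∃ u : K, u = x / r := ⟨_, rfl⟩
  rw [← hu] at hu0 hvu
  have hxu : x = u * r := by rw [hu, div_mul_cancel₀ x hr0]
  have hσx : σ x = σ u * r := by rw [hxu, map_mul, hσr]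
  rcases hσnear u hu0 (le_of_eq hvu.symm) with h | h
  · left
    rw [hσx, h, ← hxu]
  · by_cases h0 : σ u - u = 0
    · left
      rw [hσx, sub_eq_zero.mp h0, ← hxu]
    · right
      have e : σ x - x = r * (σ u - u) := by
        rw [hσx, hxu]
        ring
      rw [e, ν.v_mul hr0 h0, hvr]
      linarith

omit [CharZero K] in
/-- The sum and the difference of two `p`-torsion points with distinct `X`-coordinates have
integral `X`-coordinates. -/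
theorem fin_pm_ge (D : KummerData G K) (ν : AddVal K) {p : ℕ}
    (hE1 : ∀ Q : G, Q ≠ 0 → p • Q = 0 → D.X Q = 0 ∨ 0 ≤ ν.v (D.X Q))
    {R P : G} (hpR : p • R = 0) (hpP : p • P = 0) (hne : D.X R ≠ D.X P) :
    ν.Ge (D.X (R + P)) 0 ∧ ν.Ge (D.X (R - P)) 0 := by
  constructor
  · refine hE1 (R + P) ?_ (by rw [smul_add, hpR, hpP, add_zero])
    intro h0
    apply hne
    rw [eq_neg_of_add_eq_zero_left h0, D.X_neg]
  · refine hE1 (R - P) ?_ (by rw [smul_sub, hpR, hpP, sub_zero])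
    intro h0
    apply hne
    rw [sub_eq_zero.mp h0]

/-- The contradiction in CLAIM A: the `X`-coordinates of `R ± P` cannot both be integral if
`X R - X P` is small compared with one of the two numerators. -/
theorem fin_contra (D : KummerData G K) (ν : AddVal K) (hν2 : ν.v 2 = 0)
    {R P : G} (hR : R ≠ 0) (hP : P ≠ 0) (hne : D.X R ≠ D.X P) (c : ℝ)
    (hnear : c < ν.v (D.X R - D.X P))
    (hplus : ν.Ge (D.X (R + P)) 0) (hminus : ν.Ge (D.X (R - P)) 0)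
    (h : (D.X R * D.X P - D.b ≠ 0 ∧ ν.v (D.X R * D.X P - D.b) ≤ c) ∨
      ((D.X R + D.X P) * (D.X R * D.X P + D.b) + 2 * D.a * (D.X R * D.X P) ≠ 0 ∧
        ν.v ((D.X R + D.X P) * (D.X R * D.X P + D.b) + 2 * D.a * (D.X R * D.X P)) ≤ 2 * c)) :
    False := by
  have h2 : (2 : K) ≠ 0 := two_ne_zero
  have hDl0 : D.X R - D.X P ≠ 0 := sub_ne_zero.mpr hne
  have hDl2 : ν.v ((D.X R - D.X P) ^ 2) = 2 * ν.v (D.X R - D.X P) := ν.v_sq hDl0
  rcases h with ⟨hN0, hvN⟩ | ⟨hN0, hvN⟩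
  · have hmul := D.addsub_mul R P hR hP hne
    have hL0 : D.X (R + P) * D.X (R - P) ≠ 0 := by
      intro h0
      rw [h0, zero_mul] at hmul
      exact pow_ne_zero 2 hN0 hmul.symm
    have hv := congrArg ν.v hmul
    rw [ν.v_mul hL0 (pow_ne_zero 2 hDl0), hDl2, ν.v_sq hN0] at hv
    have hge := (fin_ge_mul ν hplus hminus).le hL0
    linarith
  · have hadd := D.addsub_add R P hR hP hne
    have hL0 : D.X (R + P) + D.X (R - P) ≠ 0 := by
      intro h0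
      rw [h0, zero_mul] at hadd
      exact mul_ne_zero h2 hN0 hadd.symm
    have hv := congrArg ν.v hadd
    rw [ν.v_mul hL0 (pow_ne_zero 2 hDl0), hDl2, ν.v_mul h2 hN0, hν2] at hv
    have hge := (hplus.add hminus).le hL0
    linarith

/-- CLAIM A at a prime of multiplicative reduction. -/
theorem fin_claimA_mult (D : KummerData G K) (ν : AddVal K)
    (hν2 : ν.v 2 = 0) (ha0 : D.a ≠ 0) (ha : ν.v D.a = 0) (hb0 : D.b ≠ 0)
    {R P : G} (hR : R ≠ 0) (hP : P ≠ 0)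
    (hXP0 : D.X P ≠ 0) (hXR0 : D.X R ≠ 0)
    (hc0 : 0 ≤ ν.v (D.X P)) (hcb : ν.v (D.X P) < ν.v D.b)
    (hvR : ν.v (D.X R) = ν.v (D.X P))
    (hne : D.X R ≠ D.X P)
    (hnear : ν.v (D.X P) < ν.v (D.X R - D.X P))
    (hplus : ν.Ge (D.X (R + P)) 0) (hminus : ν.Ge (D.X (R - P)) 0) : False := by
  have h2 : (2 : K) ≠ 0 := two_ne_zero
  have hRP0 : D.X R * D.X P ≠ 0 := mul_ne_zero hXR0 hXP0
  have hvRP : ν.v (D.X R * D.X P) = 2 * ν.v (D.X P) := by
    rw [ν.v_mul hXR0 hXP0, hvR]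
    ring
  refine fin_contra D ν hν2 hR hP hne (ν.v (D.X P)) hnear hplus hminus ?_
  rcases eq_or_lt_of_le hc0 with hc | hc
  · -- `v (X P) = 0`
    left
    obtain ⟨hN0, hvN⟩ := ν.v_sub_eq_of_lt hRP0 hb0 (by rw [hvRP]; linarith)
    refine ⟨hN0, ?_⟩
    rw [hvN, hvRP]
    linarith
  · -- `v (X P) > 0`
    right
    have h2a : 2 * D.a ≠ 0 := mul_ne_zero h2 ha0
    have hT0 : 2 * D.a * (D.X R * D.X P) ≠ 0 := mul_ne_zero h2a hRP0
    have hvT : ν.v (2 * D.a * (D.X R * D.X P)) = 2 * ν.v (D.X P) := by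
      rw [ν.v_mul h2a hRP0, ν.v_mul h2 ha0, hν2, ha, hvRP]
      ring
    have hs1 : ν.Ge (D.X R + D.X P) (ν.v (D.X P)) :=
      AddVal.Ge.add (AddVal.ge_of_ne (le_of_eq hvR.symm)) (AddVal.ge_self _)
    have hs2 : ν.Gt (D.X R * D.X P + D.b) (ν.v (D.X P)) :=
      AddVal.Gt.add (AddVal.gt_of_ne (by rw [hvRP]; linarith)) (AddVal.gt_of_ne hcb)
    have hs3 : ν.Gt ((D.X R + D.X P) * (D.X R * D.X P + D.b))
        (ν.v (2 * D.a * (D.X R * D.X P))) := by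
      rw [hvT]
      have h := hs1.mul_gt hs2
      rwa [← two_mul] at h
    obtain ⟨hN0, hvN⟩ := AddVal.v_add_eq_of_gt' hT0 hs3
    exact ⟨hN0, by rw [hvN, hvT]⟩

/-- The numerators in CLAIM A at a prime of good reduction: one of them is a unit. -/
theorem fin_good_num (ν : AddVal K) (hν2 : ν.v 2 = 0) (a b xR xP : K)
    (ha : ν.Ge a 0) (hb : ν.Ge b 0)
    (hdisc0 : a ^ 2 - 4 * b ≠ 0) (hdisc : ν.v (a ^ 2 - 4 * b) = 0)
    (hXP0 : xP ≠ 0) (hvP : ν.v xP = 0)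
    (hnear : ν.Gt (xR - xP) 0) :
    (xR * xP - b ≠ 0 ∧ ν.v (xR * xP - b) = 0) ∨
    ((xR + xP) * (xR * xP + b) + 2 * a * (xR * xP) ≠ 0 ∧
      ν.v ((xR + xP) * (xR * xP + b) + 2 * a * (xR * xP)) = 0) := by
  have h2 : (2 : K) ≠ 0 := two_ne_zero
  have hν4 : ν.v 4 = 0 := by
    have e : (4 : K) = 2 * 2 := by norm_num
    rw [e, ν.v_mul h2 h2, hν2, add_zero]
  have gP : ν.Ge xP 0 := AddVal.ge_of_ne (le_of_eq hvP.symm)
  have g2 : ν.Ge (2 : K) 0 := AddVal.ge_of_ne (le_of_eq hν2.symm)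
  have g4 : ν.Ge (4 : K) 0 := AddVal.ge_of_ne (le_of_eq hν4.symm)
  have gR : ν.Ge xR 0 := by
    have h := hnear.ge.add gP
    rwa [sub_add_cancel] at h
  have gPP : ν.Ge (xP * xP) 0 := fin_ge_mul ν gP gP
  have gQ : ν.Ge (xP ^ 2 - b) 0 := by
    have h := gPP.sub hb
    rwa [← pow_two] at h
  have g2P : ν.Ge (2 * xP) 0 := fin_ge_mul ν g2 gP
  by_cases hQ : ν.Gt (xP ^ 2 - b) 0
  · right
    -- `2 xP + a` is a unit
    have hprod : (2 * xP + a) * (2 * xP - a) = 4 * (xP ^ 2 - b) - (a ^ 2 - 4 * b) := by ring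
    have g1 : ν.Gt (4 * (xP ^ 2 - b)) (ν.v (a ^ 2 - 4 * b)) := by
      rw [hdisc]
      exact fin_ge_mul_gt ν g4 hQ
    obtain ⟨hpr0, hprv⟩ := AddVal.v_sub_eq_of_gt' hdisc0 g1
    rw [← hprod] at hpr0 hprv
    have hf1 : 2 * xP + a ≠ 0 := left_ne_zero_of_mul hpr0
    have hf2 : 2 * xP - a ≠ 0 := right_ne_zero_of_mul hpr0
    rw [ν.v_mul hf1 hf2, hdisc] at hprv
    have hvf1 : ν.v (2 * xP + a) = 0 := by
      have h1 := (g2P.add ha).le hf1
      have h2 := (g2P.sub ha).le hf2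
      linarith
    have hP2 : 2 * xP ^ 2 ≠ 0 := mul_ne_zero h2 (pow_ne_zero 2 hXP0)
    have hM0 : 2 * xP ^ 2 * (2 * xP + a) ≠ 0 := mul_ne_zero hP2 hf1
    have hMv : ν.v (2 * xP ^ 2 * (2 * xP + a)) = 0 := by
      rw [ν.v_mul hP2 hf1, ν.v_mul h2 (pow_ne_zero 2 hXP0), ν.v_sq hXP0, hν2, hvP, hvf1]
      ring
    have e : (xR + xP) * (xR * xP + b) + 2 * a * (xR * xP)
        = 2 * xP ^ 2 * (2 * xP + a) + (2 * xP * (-(xP ^ 2 - b))
          + (xR - xP) * ((xR * xP + b) + 2 * xP * xP + 2 * a * xP)) := by ring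
    rw [e]
    have gcof : ν.Ge ((xR * xP + b) + 2 * xP * xP + 2 * a * xP) 0 :=
      (((fin_ge_mul ν gR gP).add hb).add (fin_ge_mul ν g2P gP)).add
        (fin_ge_mul ν (fin_ge_mul ν g2 ha) gP)
    have grest : ν.Gt (2 * xP * (-(xP ^ 2 - b))
        + (xR - xP) * ((xR * xP + b) + 2 * xP * xP + 2 * a * xP))
        (ν.v (2 * xP ^ 2 * (2 * xP + a))) := by
      rw [hMv]
      exact AddVal.Gt.add (fin_ge_mul_gt ν g2P hQ.neg) (fin_gt_mul_ge ν hnear gcof)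
    obtain ⟨h0, hv⟩ := AddVal.v_add_eq_of_gt hM0 grest
    exact ⟨h0, by rw [hv, hMv]⟩
  · left
    -- `xP ^ 2 - b` is a unit
    have hQ0 : xP ^ 2 - b ≠ 0 := fun h => hQ (Or.inl h)
    have hQv : ν.v (xP ^ 2 - b) = 0 := by
      have h1 := gQ.le hQ0
      have h2 : ¬ (0 < ν.v (xP ^ 2 - b)) := fun h => hQ (Or.inr h)
      linarith
    have e : xR * xP - b = (xP ^ 2 - b) + (xR - xP) * xP := by ring
    rw [e]
    have grest : ν.Gt ((xR - xP) * xP) (ν.v (xP ^ 2 - b)) := by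
      rw [hQv]
      exact fin_gt_mul_ge ν hnear gP
    obtain ⟨h0, hv⟩ := AddVal.v_add_eq_of_gt hQ0 grest
    exact ⟨h0, by rw [hv, hQv]⟩

/-- CLAIM B: `τ P = -P` is impossible for a nonzero `p`-torsion point `P` (`p` odd), because
`X P` has a square root `g` with `σ g = -g`, while `σ` moves `g` only slightly. -/
theorem fin_claimB (D : KummerData G K) (ν : AddVal K) (hν2 : ν.v 2 = 0)
    {p : ℕ} (hp : Odd p) (σ : K →+* K) (τ : G →+ G)
    (hτX : ∀ P : G, P ≠ 0 → D.X (τ P) = σ (D.X P))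
    (hτY : ∀ P : G, P ≠ 0 → D.Y (τ P) = σ (D.Y P))
    (hσb : σ D.b = D.b)
    {P : G} (hP : P ≠ 0) (hpP : p • P = 0) (hXP0 : D.X P ≠ 0) (hτP : τ P = -P)
    (hnear : ∀ g : K, g ≠ 0 → g ^ 2 = D.X P → σ g = g ∨ ν.v g < ν.v (σ g - g)) : False := by
  obtain ⟨k, hk⟩ := hp
  have h2 : (2 : K) ≠ 0 := two_ne_zero
  have hSS : (k + 1) • P + (k + 1) • P = P := by
    have e : (k + 1) • P + (k + 1) • P = p • P + P := by
      rw [← add_nsmul, ← succ_nsmul]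
      congr 1
      omega
    rw [e, hpP, zero_add]
  have hτS : τ ((k + 1) • P) = -((k + 1) • P) := by rw [map_nsmul, hτP, smul_neg]
  obtain ⟨S, hS⟩ : ∃ S : G, S = (k + 1) • P := ⟨_, rfl⟩
  rw [← hS] at hSS hτS
  have hS0 : S ≠ 0 := by
    intro h0
    apply hP
    rw [← hSS, h0, add_zero]
  have hSS0 : S + S ≠ 0 := by
    rw [hSS]
    exact hP
  have hY0 : D.Y S ≠ 0 := fun h => hSS0 ((D.two_torsion S hS0).mpr h)
  have hσX : σ (D.X S) = D.X S := by rw [← hτX S hS0, hτS, D.X_neg]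
  have hσY : σ (D.Y S) = -D.Y S := by rw [← hτY S hS0, hτS, D.Y_neg]
  have hdbl := D.dbl S hS0 hSS0
  rw [hSS] at hdbl
  have h2Y : 2 * D.Y S ≠ 0 := mul_ne_zero h2 hY0
  have hg2 : ((D.X S ^ 2 - D.b) / (2 * D.Y S)) ^ 2 = D.X P := by
    rw [div_pow, ← hdbl, mul_div_assoc, div_self (pow_ne_zero 2 h2Y), mul_one]
  have hσg : σ ((D.X S ^ 2 - D.b) / (2 * D.Y S)) = -((D.X S ^ 2 - D.b) / (2 * D.Y S)) := by
    rw [map_div₀, map_sub, map_pow, map_mul, hσX, hσY, hσb, map_ofNat, mul_neg, div_neg]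
  obtain ⟨g, hg⟩ : ∃ g : K, g = (D.X S ^ 2 - D.b) / (2 * D.Y S) := ⟨_, rfl⟩
  rw [← hg] at hg2 hσg
  have hg0 : g ≠ 0 := by
    intro h0
    apply hXP0
    rw [← hg2, h0]
    ring
  rcases hnear g hg0 hg2 with h | h
  · rw [hσg] at h
    apply hg0
    have e : (2 : K) * g = 0 := by linear_combination -h
    exact (mul_eq_zero.mp e).resolve_left h2
  · rw [hσg] at h
    have e : -g - g = -(2 * g) := by ring
    rw [e, ν.v_neg, ν.v_mul h2 hg0, hν2, zero_add] at h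
    exact lt_irrefl _ h

theorem galois_fixed_mult (D : KummerData G K) (ν : AddVal K)
    (hν2 : ν.v 2 = 0) (ha0 : D.a ≠ 0) (ha : ν.v D.a = 0) (hb0 : D.b ≠ 0) (hb : 0 < ν.v D.b)
    {p : ℕ} (hp : Odd p)
    (σ : K →+* K) (τ : G →+ G)
    (hτ0 : ∀ P : G, τ P = 0 → P = 0)
    (hτX : ∀ P : G, P ≠ 0 → D.X (τ P) = σ (D.X P))
    (hτY : ∀ P : G, P ≠ 0 → D.Y (τ P) = σ (D.Y P))
    (hσb : σ D.b = D.b)
    (hσv : ∀ x : K, x ≠ 0 → ν.v (σ x) = ν.v x)
    (hσnear : ∀ x : K, x ≠ 0 → 0 ≤ ν.v x → σ x = x ∨ 0 < ν.v (σ x - x))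
    (d : K) (hd0 : d ≠ 0) (hσd : σ d = d) (hbd : ν.v D.b = p * ν.v d)
    (hE1 : ∀ Q : G, Q ≠ 0 → p • Q = 0 → D.X Q = 0 ∨ 0 ≤ ν.v (D.X Q))
    (hT : ∀ Q : G, Q ≠ 0 → p • Q = 0 → D.X Q ≠ 0 ∧ ν.v (D.X Q) < ν.v D.b ∧
      (0 < ν.v (D.X Q) → ∃ j : ℤ, (p : ℝ) * ν.v (D.X Q) = 2 * ν.v D.b * j))
    {P : G} (hpP : p • P = 0) : τ P = P := by
  have _ := hb
  by_cases hP : P = 0
  · rw [hP, map_zero]
  have hR : τ P ≠ 0 := fun h => hP (hτ0 P h)
  have hpR : p • τ P = 0 := by rw [← map_nsmul, hpP, map_zero]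
  have hXR : D.X (τ P) = σ (D.X P) := hτX P hP
  obtain ⟨hXP0, hcb, hTj⟩ := hT P hP hpP
  have hc0 : 0 ≤ ν.v (D.X P) := (hE1 P hP hpP).resolve_left hXP0
  have hp0 : (p : ℝ) ≠ 0 := by
    have h : p ≠ 0 := hp.pos.ne'
    exact_mod_cast h
  -- `v (X P) = 2 j v(d)` for some integer `j`
  obtain ⟨j, hj⟩ : ∃ j : ℤ, ν.v (D.X P) = 2 * j * ν.v d := by
    rcases eq_or_lt_of_le hc0 with hc | hc
    · exact ⟨0, by rw [← hc]; simp⟩
    · obtain ⟨j, hj⟩ := hTj hc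
      refine ⟨j, ?_⟩
      rw [hbd] at hj
      have e : (p : ℝ) * ν.v (D.X P) = p * (2 * j * ν.v d) := by
        rw [hj]
        ring
      exact mul_left_cancel₀ hp0 e
  -- CLAIM 0
  have hcl0 : ∀ x : K, x ≠ 0 → ∀ m : ℤ, ν.v x = m * ν.v d →
      σ x = x ∨ ν.v x < ν.v (σ x - x) :=
    fun x hx m hm => fin_near ν σ hσnear d hd0 hσd hx m hm
  -- CLAIM A
  have hA : D.X (τ P) = D.X P := by
    by_contra hne
    obtain ⟨hplus, hminus⟩ := fin_pm_ge D ν hE1 hpR hpP hne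
    have hnear : ν.v (D.X P) < ν.v (D.X (τ P) - D.X P) := by
      rw [hXR]
      rcases hcl0 (D.X P) hXP0 (2 * j) (by rw [hj]; push_cast; ring) with h | h
      · exact absurd (hXR.trans h) hne
      · exact h
    have hvR : ν.v (D.X (τ P)) = ν.v (D.X P) := by
      rw [hXR]
      exact hσv _ hXP0
    have hXR0 : D.X (τ P) ≠ 0 := by
      rw [hXR]
      exact (map_ne_zero σ).mpr hXP0
    exact fin_claimA_mult D ν hν2 ha0 ha hb0 hR hP hXP0 hXR0 hc0 hcb hvR hne hnear hplus hminus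
  -- CLAIM B
  rcases D.eq_or_eq_neg (τ P) P hR hP hA with h | h
  · exact h
  · exfalso
    refine fin_claimB D ν hν2 hp σ τ hτX hτY hσb hP hpP hXP0 h ?_
    intro g hg0 hg2
    refine hcl0 g hg0 j ?_
    have h1 := ν.v_sq hg0
    rw [hg2, hj] at h1
    linarith

theorem galois_fixed_good (D : KummerData G K) (ν : AddVal K)
    (hν2 : ν.v 2 = 0) (ha : D.a = 0 ∨ 0 ≤ ν.v D.a) (hb0 : D.b ≠ 0) (hb : ν.v D.b = 0)
    (hdisc0 : D.a ^ 2 - 4 * D.b ≠ 0) (hdisc : ν.v (D.a ^ 2 - 4 * D.b) = 0)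
    {p : ℕ} (hp : Odd p)
    (σ : K →+* K) (τ : G →+ G)
    (hτ0 : ∀ P : G, τ P = 0 → P = 0)
    (hτX : ∀ P : G, P ≠ 0 → D.X (τ P) = σ (D.X P))
    (hτY : ∀ P : G, P ≠ 0 → D.Y (τ P) = σ (D.Y P))
    (hσb : σ D.b = D.b)
    (hσv : ∀ x : K, x ≠ 0 → ν.v (σ x) = ν.v x)
    (hσnear : ∀ x : K, x ≠ 0 → 0 ≤ ν.v x → σ x = x ∨ 0 < ν.v (σ x - x))
    (hE1 : ∀ Q : G, Q ≠ 0 → p • Q = 0 → D.X Q = 0 ∨ 0 ≤ ν.v (D.X Q))
    {P : G} (hpP : p • P = 0) (hXP : D.X P ≠ 0) (hvP : ν.v (D.X P) = 0) : τ P = P := by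
  have _ := hb0
  have _ := hσv
  by_cases hP : P = 0
  · rw [hP, map_zero]
  have hR : τ P ≠ 0 := fun h => hP (hτ0 P h)
  have hpR : p • τ P = 0 := by rw [← map_nsmul, hpP, map_zero]
  have hXR : D.X (τ P) = σ (D.X P) := hτX P hP
  -- CLAIM A
  have hA : D.X (τ P) = D.X P := by
    by_contra hne
    obtain ⟨hplus, hminus⟩ := fin_pm_ge D ν hE1 hpR hpP hne
    have hnear : 0 < ν.v (D.X (τ P) - D.X P) := by
      rw [hXR]
      rcases hσnear (D.X P) hXP (le_of_eq hvP.symm) with h | h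
      · exact absurd (hXR.trans h) hne
      · exact h
    refine fin_contra D ν hν2 hR hP hne 0 hnear hplus hminus ?_
    rcases fin_good_num ν hν2 D.a D.b (D.X (τ P)) (D.X P) ha
        (AddVal.ge_of_ne (le_of_eq hb.symm)) hdisc0 hdisc hXP hvP (AddVal.gt_of_ne hnear)
      with ⟨h0, hv⟩ | ⟨h0, hv⟩
    · exact Or.inl ⟨h0, le_of_eq hv⟩
    · exact Or.inr ⟨h0, by rw [hv, mul_zero]⟩
  -- CLAIM B
  rcases D.eq_or_eq_neg (τ P) P hR hP hA with h | h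
  · exact h
  · exfalso
    refine fin_claimB D ν hν2 hp σ τ hτX hτY hσb hP hpP hXP h ?_
    intro g hg0 hg2
    have hvg : ν.v g = 0 := by
      have h1 := ν.v_sq hg0
      rw [hg2, hvP] at h1
      linarith
    rw [hvg]
    exact hσnear g hg0 (le_of_eq hvg.symm)

end abstract
end Fermat.Agent.S05
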