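/-
S05 (Frey curve mod-p representation unramified at q ≠ 2, p): Kummer-line data of a Weierstrass
curve `y² + x y = x³ + a₂ x² + a₄ x` with a marked root `e` of the completed-square cubic.

With `u = y + x / 2` and `X = x - e` the curve reads `u² = X (X² + a X + b)`; this file checks
that Mathlib's group law on `W.Point` satisfies the Kummer-line identities of `KummerData`.
-/
import Mathlib
import Fermat.Agent.S05.Defs

set_option autoImplicit false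

namespace Fermat.Agent.S05

open WeierstrassCurve

section kummer

variable {K : Type*} [Field K] [DecidableEq K] [CharZero K]

/-- centred x-coordinate -/
noncomputable def kumX (W : Affine K) (e : K) : W.Point → K
  | .zero => 0
  | .some x _ _ => x - e

/-- completed-square y-coordinate (for curves with `a₁ = 1`, `a₃ = 0`) -/
noncomputable def kumY (W : Affine K) : W.Point → K
  | .zero => 0
  | .some x y _ => y + x / 2

/-! ### Pure field identities -/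

omit [DecidableEq K] in
/-- The duplication identity on the Kummer line. -/
theorem kum_field_dbl (X u a b : K) (hu : u ^ 2 = X * (X ^ 2 + a * X + b)) (hu0 : u ≠ 0) :
    (((3 * X ^ 2 + 2 * a * X + b) / (2 * u)) ^ 2 - a - 2 * X) * (2 * u) ^ 2 = (X ^ 2 - b) ^ 2 := by
  field_simp
  linear_combination (-4 * (a + 2 * X)) * hu

omit [DecidableEq K] [CharZero K] in
/-- The product identity `X(P+Q)·X(P-Q)·(X₁-X₂)² = (X₁X₂-b)²` on the Kummer line. -/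
theorem kum_field_mul (X₁ X₂ u₁ u₂ a b : K) (h₁ : u₁ ^ 2 = X₁ * (X₁ ^ 2 + a * X₁ + b))
    (h₂ : u₂ ^ 2 = X₂ * (X₂ ^ 2 + a * X₂ + b)) (hD : X₁ - X₂ ≠ 0) :
    (((u₁ - u₂) / (X₁ - X₂)) ^ 2 - (a + X₁ + X₂)) *
        (((u₁ + u₂) / (X₁ - X₂)) ^ 2 - (a + X₁ + X₂)) * (X₁ - X₂) ^ 2 =
      (X₁ * X₂ - b) ^ 2 := by
  field_simp
  linear_combination
    (u₁ ^ 2 + X₁ * (X₁ ^ 2 + a * X₁ + b) - 2 * u₂ ^ 2 - 2 * (a + X₁ + X₂) * (X₁ - X₂) ^ 2) * h₁ +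
    (u₂ ^ 2 + X₂ * (X₂ ^ 2 + a * X₂ + b) - 2 * (X₁ * (X₁ ^ 2 + a * X₁ + b)) -
      2 * (a + X₁ + X₂) * (X₁ - X₂) ^ 2) * h₂

omit [DecidableEq K] [CharZero K] in
/-- The sum identity `(X(P+Q)+X(P-Q))·(X₁-X₂)² = 2((X₁+X₂)(X₁X₂+b)+2aX₁X₂)` on the Kummer line. -/
theorem kum_field_add (X₁ X₂ u₁ u₂ a b : K) (h₁ : u₁ ^ 2 = X₁ * (X₁ ^ 2 + a * X₁ + b))
    (h₂ : u₂ ^ 2 = X₂ * (X₂ ^ 2 + a * X₂ + b)) (hD : X₁ - X₂ ≠ 0) :
    ((((u₁ - u₂) / (X₁ - X₂)) ^ 2 - (a + X₁ + X₂)) +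
        (((u₁ + u₂) / (X₁ - X₂)) ^ 2 - (a + X₁ + X₂))) * (X₁ - X₂) ^ 2 =
      2 * ((X₁ + X₂) * (X₁ * X₂ + b) + 2 * a * (X₁ * X₂)) := by
  field_simp
  linear_combination 2 * h₁ + 2 * h₂

/-! ### Coordinates on the curve -/

variable (W : Affine K)

omit [DecidableEq K] [CharZero K] in
theorem kum_X_zero (e : K) : kumX W e 0 = 0 := rfl

omit [DecidableEq K] [CharZero K] in
theorem kum_X_some (e : K) {x y : K} (h : W.Nonsingular x y) :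
    kumX W e (Affine.Point.some x y h) = x - e := rfl

omit [DecidableEq K] [CharZero K] in
theorem kum_Y_zero : kumY W 0 = 0 := rfl

omit [DecidableEq K] [CharZero K] in
theorem kum_Y_some {x y : K} (h : W.Nonsingular x y) :
    kumY W (Affine.Point.some x y h) = y + x / 2 := rfl

omit [DecidableEq K] in
/-- The curve equation in the coordinates `(X, u) = (x - e, y + x / 2)`. -/
theorem kum_equation (h₁ : W.a₁ = 1) (h₃ : W.a₃ = 0) (h₆ : W.a₆ = 0) (e : K)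
    (he : e ^ 3 + (W.a₂ + 1 / 4) * e ^ 2 + W.a₄ * e = 0) {x y : K} (h : W.Equation x y) :
    (y + x / 2) ^ 2 = (x - e) * ((x - e) ^ 2 + (3 * e + W.a₂ + 1 / 4) * (x - e) +
      (3 * e ^ 2 + 2 * (W.a₂ + 1 / 4) * e + W.a₄)) := by
  rw [Affine.equation_iff, h₁, h₃, h₆] at h
  linear_combination h + he

omit [DecidableEq K] in
/-- The `x`-coordinate of a sum with slope `ℓ`, in Kummer coordinates. -/
theorem kum_addX (h₁ : W.a₁ = 1) (e x₁ x₂ ℓ : K) :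
    W.addX x₁ x₂ ℓ - e = (ℓ + 1 / 2) ^ 2 - ((3 * e + W.a₂ + 1 / 4) + (x₁ - e) + (x₂ - e)) := by
  rw [Affine.addX, h₁]
  ring

omit [DecidableEq K] [CharZero K] in
theorem kum_X_neg (e : K) (P : W.Point) : kumX W e (-P) = kumX W e P := by
  rcases P with _ | ⟨x, y, h⟩
  · rfl
  · rfl

omit [DecidableEq K] in
theorem kum_Y_neg (h₁ : W.a₁ = 1) (h₃ : W.a₃ = 0) (P : W.Point) : kumY W (-P) = -kumY W P := by
  rcases P with _ | ⟨x, y, h⟩
  · exact neg_zero.symm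
  · rw [Affine.Point.neg_some, kum_Y_some, kum_Y_some, Affine.negY, h₁, h₃]
    ring

omit [DecidableEq K] in
theorem kum_eqn (h₁ : W.a₁ = 1) (h₃ : W.a₃ = 0) (h₆ : W.a₆ = 0) (e : K)
    (he : e ^ 3 + (W.a₂ + 1 / 4) * e ^ 2 + W.a₄ * e = 0) (P : W.Point) (hP : P ≠ 0) :
    kumY W P ^ 2 = kumX W e P * (kumX W e P ^ 2 + (3 * e + W.a₂ + 1 / 4) * kumX W e P +
      (3 * e ^ 2 + 2 * (W.a₂ + 1 / 4) * e + W.a₄)) := by
  rcases P with _ | ⟨x, y, h⟩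
  · exact absurd rfl hP
  · exact kum_equation W h₁ h₃ h₆ e he h.1

omit [DecidableEq K] [CharZero K] in
theorem kum_eq_or_eq_neg (e : K) (P Q : W.Point) (hP : P ≠ 0) (hQ : Q ≠ 0)
    (hX : kumX W e P = kumX W e Q) : P = Q ∨ P = -Q := by
  rcases P with _ | ⟨x₁, y₁, hP'⟩
  · exact absurd rfl hP
  rcases Q with _ | ⟨x₂, y₂, hQ'⟩
  · exact absurd rfl hQ
  rw [kum_X_some, kum_X_some] at hX
  exact Affine.Point.X_eq_iff.mp (sub_left_injective hX)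

theorem kum_two_torsion (h₁ : W.a₁ = 1) (h₃ : W.a₃ = 0) (P : W.Point) (hP : P ≠ 0) :
    P + P = 0 ↔ kumY W P = 0 := by
  rcases P with _ | ⟨x, y, h⟩
  · exact absurd rfl hP
  rw [add_eq_zero_iff_eq_neg, Affine.Point.neg_some, Affine.Point.some.injEq, kum_Y_some,
    Affine.negY, h₁, h₃]
  constructor
  · rintro ⟨-, hy⟩
    linear_combination (1 / 2 : K) * hy
  · intro hy
    exact ⟨rfl, by linear_combination 2 * hy⟩

theorem kum_dbl (h₁ : W.a₁ = 1) (h₃ : W.a₃ = 0) (h₆ : W.a₆ = 0) (e : K)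
    (he : e ^ 3 + (W.a₂ + 1 / 4) * e ^ 2 + W.a₄ * e = 0) (P : W.Point) (hP : P ≠ 0)
    (hPP : P + P ≠ 0) :
    kumX W e (P + P) * (2 * kumY W P) ^ 2 =
      (kumX W e P ^ 2 - (3 * e ^ 2 + 2 * (W.a₂ + 1 / 4) * e + W.a₄)) ^ 2 := by
  rcases P with _ | ⟨x, y, h⟩
  · exact absurd rfl hP
  have hy : y ≠ W.negY x y := fun hy => hPP (Affine.Point.add_self_of_Y_eq hy)
  have hu0 : y + x / 2 ≠ 0 := fun hu => hPP ((kum_two_torsion W h₁ h₃ _ hP).mpr hu)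
  rw [Affine.Point.add_self_of_Y_ne hy, kum_X_some, kum_X_some, kum_Y_some, kum_addX W h₁,
    Affine.slope_of_Y_ne rfl hy, Affine.negY, h₁, h₃,
    ← kum_field_dbl (x - e) (y + x / 2) (3 * e + W.a₂ + 1 / 4)
      (3 * e ^ 2 + 2 * (W.a₂ + 1 / 4) * e + W.a₄) (kum_equation W h₁ h₃ h₆ e he h.1) hu0]
  have h2u : y - (-y - 1 * x - 0) = 2 * (y + x / 2) := by ring
  have h2u0 : 2 * (y + x / 2) ≠ 0 := mul_ne_zero two_ne_zero hu0
  have key : (3 * x ^ 2 + 2 * W.a₂ * x + W.a₄ - 1 * y) / (2 * (y + x / 2)) + 1 / 2 =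
      (3 * (x - e) ^ 2 + 2 * (3 * e + W.a₂ + 1 / 4) * (x - e) +
        (3 * e ^ 2 + 2 * (W.a₂ + 1 / 4) * e + W.a₄)) / (2 * (y + x / 2)) := by
    rw [div_add' _ _ _ h2u0]
    congr 1
    ring
  rw [h2u, key]
  ring

theorem kum_addsub (h₁ : W.a₁ = 1) (h₃ : W.a₃ = 0) (e : K) (P Q : W.Point) (hP : P ≠ 0)
    (hQ : Q ≠ 0) (hX : kumX W e P ≠ kumX W e Q) :
    kumX W e (P + Q) =
        ((kumY W P - kumY W Q) / (kumX W e P - kumX W e Q)) ^ 2 -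
          ((3 * e + W.a₂ + 1 / 4) + kumX W e P + kumX W e Q) ∧
      kumX W e (P - Q) =
        ((kumY W P + kumY W Q) / (kumX W e P - kumX W e Q)) ^ 2 -
          ((3 * e + W.a₂ + 1 / 4) + kumX W e P + kumX W e Q) := by
  rcases P with _ | ⟨x₁, y₁, hP'⟩
  · exact absurd rfl hP
  rcases Q with _ | ⟨x₂, y₂, hQ'⟩
  · exact absurd rfl hQ
  rw [kum_X_some, kum_X_some] at hX
  have hx : x₁ ≠ x₂ := fun hx => hX (by rw [hx])
  have hD : x₁ - x₂ ≠ 0 := sub_ne_zero.mpr hx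
  have hD' : x₁ - e - (x₂ - e) = x₁ - x₂ := by ring
  constructor
  · rw [Affine.Point.add_of_X_ne hx, kum_X_some, kum_X_some, kum_X_some, kum_Y_some, kum_Y_some,
      kum_addX W h₁, Affine.slope_of_X_ne hx, hD']
    congr 2
    field_simp
    ring
  · rw [sub_eq_add_neg, Affine.Point.neg_some, Affine.Point.add_of_X_ne hx, kum_X_some,
      kum_X_some, kum_X_some, kum_Y_some, kum_Y_some, kum_addX W h₁, Affine.slope_of_X_ne hx,
      Affine.negY, h₁, h₃, hD']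
    congr 2
    field_simp
    ring

theorem kum_addsub_mul (h₁ : W.a₁ = 1) (h₃ : W.a₃ = 0) (h₆ : W.a₆ = 0) (e : K)
    (he : e ^ 3 + (W.a₂ + 1 / 4) * e ^ 2 + W.a₄ * e = 0) (P Q : W.Point) (hP : P ≠ 0)
    (hQ : Q ≠ 0) (hX : kumX W e P ≠ kumX W e Q) :
    kumX W e (P + Q) * kumX W e (P - Q) * (kumX W e P - kumX W e Q) ^ 2 =
      (kumX W e P * kumX W e Q - (3 * e ^ 2 + 2 * (W.a₂ + 1 / 4) * e + W.a₄)) ^ 2 := by
  obtain ⟨hadd, hsub⟩ := kum_addsub W h₁ h₃ e P Q hP hQ hX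
  rw [hadd, hsub]
  exact kum_field_mul _ _ _ _ _ _ (kum_eqn W h₁ h₃ h₆ e he P hP) (kum_eqn W h₁ h₃ h₆ e he Q hQ)
    (sub_ne_zero.mpr hX)

theorem kum_addsub_add (h₁ : W.a₁ = 1) (h₃ : W.a₃ = 0) (h₆ : W.a₆ = 0) (e : K)
    (he : e ^ 3 + (W.a₂ + 1 / 4) * e ^ 2 + W.a₄ * e = 0) (P Q : W.Point) (hP : P ≠ 0)
    (hQ : Q ≠ 0) (hX : kumX W e P ≠ kumX W e Q) :
    (kumX W e (P + Q) + kumX W e (P - Q)) * (kumX W e P - kumX W e Q) ^ 2 =
      2 * ((kumX W e P + kumX W e Q) *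
          (kumX W e P * kumX W e Q + (3 * e ^ 2 + 2 * (W.a₂ + 1 / 4) * e + W.a₄)) +
        2 * (3 * e + W.a₂ + 1 / 4) * (kumX W e P * kumX W e Q)) := by
  obtain ⟨hadd, hsub⟩ := kum_addsub W h₁ h₃ e P Q hP hQ hX
  rw [hadd, hsub]
  exact kum_field_add _ _ _ _ _ _ (kum_eqn W h₁ h₃ h₆ e he P hP) (kum_eqn W h₁ h₃ h₆ e he Q hQ)
    (sub_ne_zero.mpr hX)

theorem exists_kummerData (W : Affine K) (h₁ : W.a₁ = 1) (h₃ : W.a₃ = 0) (h₆ : W.a₆ = 0) (e : K)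
    (he : e ^ 3 + (W.a₂ + 1 / 4) * e ^ 2 + W.a₄ * e = 0) :
    ∃ D : KummerData W.Point K, D.X = kumX W e ∧ D.Y = kumY W ∧
      D.a = 3 * e + W.a₂ + 1 / 4 ∧ D.b = 3 * e ^ 2 + 2 * (W.a₂ + 1 / 4) * e + W.a₄ :=
  ⟨{  X := kumX W e
      Y := kumY W
      a := 3 * e + W.a₂ + 1 / 4
      b := 3 * e ^ 2 + 2 * (W.a₂ + 1 / 4) * e + W.a₄
      X_neg := kum_X_neg W e
      Y_neg := kum_Y_neg W h₁ h₃
      eqn := kum_eqn W h₁ h₃ h₆ e he
      eq_or_eq_neg := kum_eq_or_eq_neg W e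
      two_torsion := kum_two_torsion W h₁ h₃
      dbl := kum_dbl W h₁ h₃ h₆ e he
      addsub_mul := kum_addsub_mul W h₁ h₃ h₆ e he
      addsub_add := kum_addsub_add W h₁ h₃ h₆ e he },
    rfl, rfl, rfl, rfl⟩

end kummer

end Fermat.Agent.S05
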