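import Mathlib
import Fermat.Agent.S05.Defs
import Fermat.Prelude.Def_FLTPrelim_Ramification
set_option autoImplicit false
namespace Fermat.Agent.S05

section val_generic

variable {Γ : Type*} [LinearOrderedCommGroupWithZero Γ]

theorem val_ratio_unique {π g : Γ} (hπ0 : 0 < π) (hπ1 : π < 1) {N N' : ℕ} {k k' : ℤ}
    (hN : 0 < N) (hN' : 0 < N') (h : g ^ N = π ^ k) (h' : g ^ N' = π ^ k') :
    (k : ℝ) / N = (k' : ℝ) / N' := by
  have e : π ^ (k * N') = π ^ (k' * N) := by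
    rw [zpow_mul, zpow_mul, ← h, ← h', zpow_natCast, zpow_natCast, ← pow_mul, ← pow_mul,
      mul_comm]
  have e2 : k * N' = k' * N := (zpow_right_inj₀ hπ0 hπ1.ne).mp e
  have hNr : (N : ℝ) ≠ 0 := by exact_mod_cast hN.ne'
  have hNr' : (N' : ℝ) ≠ 0 := by exact_mod_cast hN'.ne'
  rw [div_eq_div_iff hNr hNr']
  exact_mod_cast e2

/-- The real-valued additive valuation attached to a valuation `w` and an element `π` of the
value group: `val_fun w π x = k / N` whenever `w x ^ N = π ^ k` with `0 < N` (junk value if there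
is no such pair). -/
noncomputable def val_fun {K : Type*} [Field K] (w : Valuation K Γ) (π : Γ) (x : K) : ℝ :=
  Classical.epsilon fun r : ℝ => ∀ (N : ℕ) (k : ℤ), 0 < N → w x ^ N = π ^ k → r = (k : ℝ) / N

variable {K : Type*} [Field K] (w : Valuation K Γ) {π : Γ}

theorem val_fun_eq (hπ0 : 0 < π) (hπ1 : π < 1)
    {x : K} {N : ℕ} {k : ℤ} (hN : 0 < N) (h : w x ^ N = π ^ k) :
    val_fun w π x = (k : ℝ) / N := by
  have hex : ∃ r : ℝ, ∀ (N' : ℕ) (k' : ℤ), 0 < N' → w x ^ N' = π ^ k' → r = (k' : ℝ) / N' :=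
    ⟨(k : ℝ) / N, fun N' k' hN' h' => val_ratio_unique hπ0 hπ1 hN hN' h h'⟩
  exact Classical.epsilon_spec hex N k hN h

theorem val_fun_mul (hπ0 : 0 < π) (hπ1 : π < 1)
    (hc : ∀ x : K, x ≠ 0 → ∃ N : ℕ, 0 < N ∧ ∃ k : ℤ, w x ^ N = π ^ k)
    {x y : K} (hx : x ≠ 0) (hy : y ≠ 0) :
    val_fun w π (x * y) = val_fun w π x + val_fun w π y := by
  obtain ⟨N, hN, k, hk⟩ := hc x hx
  obtain ⟨N', hN', k', hk'⟩ := hc y hy
  have h : w (x * y) ^ (N * N') = π ^ (k * N' + k' * N) := by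
    rw [map_mul, mul_pow, pow_mul, hk, mul_comm N N', pow_mul, hk', zpow_add₀ hπ0.ne', zpow_mul,
      zpow_mul, zpow_natCast, zpow_natCast]
  rw [val_fun_eq w hπ0 hπ1 (Nat.mul_pos hN hN') h, val_fun_eq w hπ0 hπ1 hN hk,
    val_fun_eq w hπ0 hπ1 hN' hk']
  have hNr : (N : ℝ) ≠ 0 := by exact_mod_cast hN.ne'
  have hNr' : (N' : ℝ) ≠ 0 := by exact_mod_cast hN'.ne'
  push_cast
  field_simp

theorem val_fun_nonneg_iff (hπ0 : 0 < π) (hπ1 : π < 1)
    (hc : ∀ x : K, x ≠ 0 → ∃ N : ℕ, 0 < N ∧ ∃ k : ℤ, w x ^ N = π ^ k)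
    {x : K} (hx : x ≠ 0) :
    0 ≤ val_fun w π x ↔ w x ≤ 1 := by
  obtain ⟨N, hN, k, hk⟩ := hc x hx
  have hNr : (0 : ℝ) < N := by exact_mod_cast hN
  rw [val_fun_eq w hπ0 hπ1 hN hk, ← pow_le_one_iff_of_nonneg zero_le hN.ne', hk,
    zpow_le_one_iff_right_of_lt_one₀ hπ0 hπ1, le_div_iff₀ hNr, zero_mul, Int.cast_nonneg_iff]

theorem val_fun_pos_iff (hπ0 : 0 < π) (hπ1 : π < 1)
    (hc : ∀ x : K, x ≠ 0 → ∃ N : ℕ, 0 < N ∧ ∃ k : ℤ, w x ^ N = π ^ k)
    {x : K} (hx : x ≠ 0) :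
    0 < val_fun w π x ↔ w x < 1 := by
  obtain ⟨N, hN, k, hk⟩ := hc x hx
  have hNr : (0 : ℝ) < N := by exact_mod_cast hN
  rw [val_fun_eq w hπ0 hπ1 hN hk, ← pow_lt_one_iff_of_nonneg zero_le hN.ne', hk,
    zpow_lt_one_iff_right_of_lt_one₀ hπ0 hπ1, lt_div_iff₀ hNr, zero_mul, Int.cast_pos]

theorem val_fun_add (hπ0 : 0 < π) (hπ1 : π < 1)
    (hc : ∀ x : K, x ≠ 0 → ∃ N : ℕ, 0 < N ∧ ∃ k : ℤ, w x ^ N = π ^ k)
    {x y : K} (hx : x ≠ 0) (hy : y ≠ 0) (hxy : x + y ≠ 0) :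
    min (val_fun w π x) (val_fun w π y) ≤ val_fun w π (x + y) := by
  -- key: if `val x ≤ val y` then `val x ≤ val (x + y)`
  have key : ∀ x y : K, x ≠ 0 → y ≠ 0 → x + y ≠ 0 → val_fun w π x ≤ val_fun w π y →
      val_fun w π x ≤ val_fun w π (x + y) := by
    intro x y hx hy hxy hle
    have hyx : y / x ≠ 0 := div_ne_zero hy hx
    have h1 : val_fun w π y = val_fun w π x + val_fun w π (y / x) := by
      rw [← val_fun_mul w hπ0 hπ1 hc hx hyx, mul_div_cancel₀ y hx]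
    have h2 : 0 ≤ val_fun w π (y / x) := by linarith
    have h3 : w (y / x) ≤ 1 := (val_fun_nonneg_iff w hπ0 hπ1 hc hyx).mp h2
    have h4 : 1 + y / x ≠ 0 := by
      intro h
      apply hxy
      have : x + y = x * (1 + y / x) := by field_simp
      rw [this, h, mul_zero]
    have h5 : w (1 + y / x) ≤ 1 := w.map_add_le (le_of_eq w.map_one) h3
    have h6 : 0 ≤ val_fun w π (1 + y / x) := (val_fun_nonneg_iff w hπ0 hπ1 hc h4).mpr h5
    have h7 : x + y = x * (1 + y / x) := by field_simp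
    rw [h7, val_fun_mul w hπ0 hπ1 hc hx h4]
    linarith
  rcases le_total (val_fun w π x) (val_fun w π y) with hle | hle
  · rw [min_eq_left hle]
    exact key x y hx hy hxy hle
  · rw [min_eq_right hle, add_comm]
    exact key y x hy hx (by rwa [add_comm]) hle

end val_generic

section val_specific

variable {K : Type*} [Field K] (A : ValuationSubring K)

theorem val_valuation_intCast_eq_one {q : ℕ} (hq : q.Prime) (hπ1 : A.valuation (q : K) < 1)
    {n : ℤ} (hn : ¬ (q : ℤ) ∣ n) : A.valuation (n : K) = 1 := by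
  have hle : A.valuation (n : K) ≤ 1 := (A.valuation_le_one_iff _).mpr (intCast_mem A n)
  refine le_antisymm hle (not_lt.mp fun hlt => ?_)
  have hcop : IsCoprime (q : ℤ) n := (Nat.prime_iff_prime_int.mp hq).coprime_iff_not_dvd.mpr hn
  obtain ⟨u, t, hut⟩ := hcop
  have h1 : ((u : K) * (q : K) + (t : K) * (n : K)) = 1 := by
    exact_mod_cast congrArg (Int.cast : ℤ → K) hut
  have hu : A.valuation (u : K) ≤ 1 := (A.valuation_le_one_iff _).mpr (intCast_mem A u)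
  have ht : A.valuation (t : K) ≤ 1 := (A.valuation_le_one_iff _).mpr (intCast_mem A t)
  have h2 : A.valuation ((u : K) * (q : K)) < 1 := by
    rw [map_mul]
    exact lt_of_le_of_lt (mul_le_of_le_one_left' hu) hπ1
  have h3 : A.valuation ((t : K) * (n : K)) < 1 := by
    rw [map_mul]
    exact lt_of_le_of_lt (mul_le_of_le_one_left' ht) hlt
  have h4 := A.valuation.map_add_lt h2 h3
  rw [h1, map_one] at h4
  exact lt_irrefl _ h4

theorem val_valuation_natCast {q : ℕ} (hq : q.Prime) (hπ1 : A.valuation (q : K) < 1) {n : ℕ}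
    (hn : n ≠ 0) : ∃ k : ℕ, A.valuation (n : K) = A.valuation (q : K) ^ k := by
  obtain ⟨e, m, hm, rfl⟩ := Nat.exists_eq_pow_mul_and_not_dvd hn q hq.ne_one
  refine ⟨e, ?_⟩
  have hm' : ¬ (q : ℤ) ∣ (m : ℤ) := by exact_mod_cast hm
  have h1 := val_valuation_intCast_eq_one A hq hπ1 hm'
  rw [Int.cast_natCast] at h1
  rw [Nat.cast_mul, Nat.cast_pow, map_mul, map_pow, h1, mul_one]

theorem val_valuation_ratCast [Algebra ℚ K] {q : ℕ} (hq : q.Prime)
    (hπ0 : 0 < A.valuation (q : K)) (hπ1 : A.valuation (q : K) < 1) {r : ℚ}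
    (hr : r ≠ 0) : ∃ k : ℤ, A.valuation (algebraMap ℚ K r) = A.valuation (q : K) ^ k := by
  have hnum : r.num.natAbs ≠ 0 := by simpa using hr
  obtain ⟨i, hi⟩ := val_valuation_natCast A hq hπ1 hnum
  obtain ⟨j, hj⟩ := val_valuation_natCast A hq hπ1 r.den_ne_zero
  refine ⟨(i : ℤ) - j, ?_⟩
  have h1 : algebraMap ℚ K r = (r.num : K) / (r.den : K) := by
    conv_lhs => rw [← Rat.num_div_den r]
    rw [map_div₀, map_intCast, map_natCast]
  have h2 : A.valuation (r.num : K) = A.valuation ((r.num.natAbs : ℕ) : K) := by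
    rcases Int.natAbs_eq r.num with h | h
    · conv_lhs => rw [h]
      simp
    · conv_lhs => rw [h]
      simp
  rw [h1, map_div₀, h2, hi, hj, zpow_sub₀ hπ0.ne', zpow_natCast, zpow_natCast]

theorem val_commensurable [Algebra ℚ K] [Algebra.IsAlgebraic ℚ K] {q : ℕ} (hq : q.Prime)
    (hπ0 : 0 < A.valuation (q : K)) (hπ1 : A.valuation (q : K) < 1) {x : K} (hx : x ≠ 0) :
    ∃ N : ℕ, 0 < N ∧ ∃ k : ℤ, A.valuation x ^ N = A.valuation (q : K) ^ k := by
  obtain ⟨f, hf0, hfx⟩ := Algebra.IsAlgebraic.isAlgebraic (R := ℚ) x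
  have hsum : ∑ i ∈ f.support, algebraMap ℚ K (f.coeff i) * x ^ i = 0 := by
    rw [← hfx, Polynomial.aeval_def, Polynomial.eval₂_eq_sum, Polynomial.sum_def]
  have hne : f.support.Nonempty := Polynomial.support_nonempty.mpr hf0
  obtain ⟨j, hj, hjmax⟩ := Finset.exists_max_image f.support
    (fun i => A.valuation (algebraMap ℚ K (f.coeff i) * x ^ i)) hne
  have hgne : ∀ i ∈ f.support, algebraMap ℚ K (f.coeff i) * x ^ i ≠ 0 := by
    intro i hi
    have : f.coeff i ≠ 0 := Polynomial.mem_support_iff.mp hi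
    exact mul_ne_zero ((map_ne_zero _).mpr this) (pow_ne_zero _ hx)
  have hex : ∃ i ∈ f.support, i ≠ j ∧ A.valuation (algebraMap ℚ K (f.coeff i) * x ^ i) =
      A.valuation (algebraMap ℚ K (f.coeff j) * x ^ j) := by
    by_contra hcon
    push Not at hcon
    have hlt : ∀ i ∈ f.support \ {j}, A.valuation (algebraMap ℚ K (f.coeff i) * x ^ i) <
        A.valuation (algebraMap ℚ K (f.coeff j) * x ^ j) := by
      intro i hi
      rw [Finset.mem_sdiff, Finset.mem_singleton] at hi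
      exact lt_of_le_of_ne (hjmax i hi.1) (hcon i hi.1 hi.2)
    have h5 := A.valuation.map_sum_eq_of_lt hj hlt
    rw [hsum, map_zero] at h5
    exact (A.valuation.ne_zero_iff.mpr (hgne j hj)) h5.symm
  obtain ⟨i, hi, hij, hval⟩ := hex
  have key : ∀ a b : ℕ, a ∈ f.support → b ∈ f.support → a < b →
      A.valuation (algebraMap ℚ K (f.coeff a) * x ^ a) =
        A.valuation (algebraMap ℚ K (f.coeff b) * x ^ b) →
      ∃ N : ℕ, 0 < N ∧ ∃ k : ℤ, A.valuation x ^ N = A.valuation (q : K) ^ k := by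
    intro a b ha hb hab hval
    obtain ⟨ka, hka⟩ := val_valuation_ratCast A hq hπ0 hπ1 (Polynomial.mem_support_iff.mp ha)
    obtain ⟨kb, hkb⟩ := val_valuation_ratCast A hq hπ0 hπ1 (Polynomial.mem_support_iff.mp hb)
    obtain ⟨d, rfl⟩ := Nat.exists_eq_add_of_lt hab
    refine ⟨d + 1, Nat.succ_pos d, ka - kb, ?_⟩
    have hwx : A.valuation x ≠ 0 := A.valuation.ne_zero_iff.mpr hx
    rw [map_mul, map_mul, map_pow, map_pow, hka, hkb] at hval
    rw [zpow_sub₀ hπ0.ne', eq_div_iff (zpow_ne_zero kb hπ0.ne')]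
    apply mul_right_cancel₀ (pow_ne_zero a hwx)
    rw [hval, add_assoc, pow_add (A.valuation x) a (d + 1)]
    simp only [mul_comm, mul_left_comm]
  rcases Nat.lt_or_gt_of_ne hij with h | h
  · exact key i j hi hj h hval
  · exact key j i hj hi h hval.symm

open scoped Pointwise in
theorem val_inertia_mem [Algebra ℚ K] {σ : K ≃ₐ[ℚ] K} (hσ : σ ∈ A.inertiaSubgroupIn ℚ) :
    (∀ x : K, σ x ∈ A ↔ x ∈ A) ∧ (∀ x : K, x ∈ A → σ x - x ∈ A.nonunits) := by
  obtain ⟨τ, hτ, rfl⟩ := hσ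
  have hstab : (τ : K ≃ₐ[ℚ] K) • A = A := τ.2
  refine ⟨fun x => ?_, fun x hx => ?_⟩
  · have h1 : (τ : K ≃ₐ[ℚ] K) • x ∈ (τ : K ≃ₐ[ℚ] K) • A ↔ x ∈ A :=
      ValuationSubring.smul_mem_pointwise_smul_iff
    rw [hstab] at h1
    exact h1
  · have h1 : MulSemiringAction.toRingAut (A.decompositionSubgroup ℚ)
        (IsLocalRing.ResidueField A) τ = 1 := hτ
    have h2 : τ • IsLocalRing.residue A ⟨x, hx⟩ = IsLocalRing.residue A ⟨x, hx⟩ :=
      RingEquiv.congr_fun h1 (IsLocalRing.residue A ⟨x, hx⟩)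
    rw [← IsLocalRing.ResidueField.residue_smul] at h2
    have h3 : τ • (⟨x, hx⟩ : A) - ⟨x, hx⟩ ∈ IsLocalRing.maximalIdeal A := by
      rw [← IsLocalRing.residue_eq_zero_iff, map_sub, h2, sub_self]
    exact A.coe_mem_nonunits_iff.mpr h3

end val_specific

theorem exists_addVal {K : Type*} [Field K] [Algebra ℚ K] [Algebra.IsAlgebraic ℚ K]
    (A : ValuationSubring K) {q : ℕ} (hq : q.Prime) (hqA : A.LiesOverPrime q) :
    ∃ ν : AddVal K,
      (∀ x : K, x ≠ 0 → (0 ≤ ν.v x ↔ x ∈ A)) ∧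
      (∀ x : K, x ≠ 0 → (0 < ν.v x ↔ x ∈ A.nonunits)) ∧
      (∀ n : ℤ, ¬ (q : ℤ) ∣ n → ν.v (n : K) = 0) ∧
      (∀ σ ∈ A.inertiaSubgroupIn ℚ,
        (∀ x : K, x ≠ 0 → ν.v (σ x) = ν.v x) ∧
        (∀ x : K, x ≠ 0 → 0 ≤ ν.v x → σ x = x ∨ 0 < ν.v (σ x - x))) := by
  have : CharZero K := algebraRat.charZero K
  have hq0 : (q : K) ≠ 0 := Nat.cast_ne_zero.mpr hq.ne_zero
  have hπ0 : 0 < A.valuation (q : K) := zero_lt_iff.mpr (A.valuation.ne_zero_iff.mpr hq0)
  have hπ1 : A.valuation (q : K) < 1 := A.mem_nonunits_iff.mp hqA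
  have hc : ∀ x : K, x ≠ 0 →
      ∃ N : ℕ, 0 < N ∧ ∃ k : ℤ, A.valuation x ^ N = A.valuation (q : K) ^ k :=
    fun x hx => val_commensurable A hq hπ0 hπ1 hx
  refine ⟨⟨val_fun A.valuation (A.valuation (q : K)),
    fun x y hx hy => val_fun_mul A.valuation hπ0 hπ1 hc hx hy,
    fun x y hx hy hxy => val_fun_add A.valuation hπ0 hπ1 hc hx hy hxy⟩, ?_, ?_, ?_, ?_⟩
  · intro x hx
    rw [val_fun_nonneg_iff A.valuation hπ0 hπ1 hc hx, A.valuation_le_one_iff]
  · intro x hx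
    rw [val_fun_pos_iff A.valuation hπ0 hπ1 hc hx, A.mem_nonunits_iff]
  · intro n hn
    have h1 := val_valuation_intCast_eq_one A hq hπ1 hn
    have h2 : A.valuation (n : K) ^ 1 = A.valuation (q : K) ^ (0 : ℤ) := by
      rw [pow_one, zpow_zero, h1]
    show val_fun A.valuation (A.valuation (q : K)) (n : K) = 0
    rw [val_fun_eq A.valuation hπ0 hπ1 one_pos h2]
    simp
  · intro σ hσ
    obtain ⟨h1, h3⟩ := val_inertia_mem A hσ
    constructor
    · intro x hx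
      obtain ⟨N, hN, k, hk⟩ := hc x hx
      have hσx : σ x ≠ 0 := (map_ne_zero σ).mpr hx
      have hu : A.valuation (x ^ N / (q : K) ^ k) = 1 := by
        rw [map_div₀, map_pow, map_zpow₀, hk, div_self (zpow_ne_zero _ hπ0.ne')]
      have hu1 : x ^ N / (q : K) ^ k ∈ A := (A.valuation_le_one_iff _).mp hu.le
      have hu2 : (x ^ N / (q : K) ^ k)⁻¹ ∈ A :=
        (A.valuation_le_one_iff _).mp (by rw [map_inv₀, hu, inv_one])
      have hs1 := (h1 _).mpr hu1
      have hs2 := (h1 _).mpr hu2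
      have hσq : σ (q : K) = q := map_natCast σ q
      rw [map_inv₀] at hs2
      rw [map_div₀, map_pow, map_zpow₀, hσq] at hs1 hs2
      have hz : σ x ^ N / (q : K) ^ k ≠ 0 := div_ne_zero (pow_ne_zero _ hσx) (zpow_ne_zero _ hq0)
      have hv1 : A.valuation (σ x ^ N / (q : K) ^ k) ≤ 1 := (A.valuation_le_one_iff _).mpr hs1
      have hv2 : A.valuation ((σ x ^ N / (q : K) ^ k)⁻¹) ≤ 1 :=
        (A.valuation_le_one_iff _).mpr hs2
      have hv : A.valuation (σ x ^ N / (q : K) ^ k) = 1 := by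
        refine le_antisymm hv1 ?_
        rw [map_inv₀] at hv2
        exact (inv_le_one₀ (zero_lt_iff.mpr (A.valuation.ne_zero_iff.mpr hz))).mp hv2
      have hk' : A.valuation (σ x) ^ N = A.valuation (q : K) ^ k := by
        rw [map_div₀, map_pow, map_zpow₀] at hv
        exact (div_eq_one_iff_eq (zpow_ne_zero _ hπ0.ne')).mp hv
      show val_fun A.valuation (A.valuation (q : K)) (σ x) =
        val_fun A.valuation (A.valuation (q : K)) x
      rw [val_fun_eq A.valuation hπ0 hπ1 hN hk, val_fun_eq A.valuation hπ0 hπ1 hN hk']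
    · intro x hx hx0
      have hxA : x ∈ A :=
        (A.valuation_le_one_iff _).mp ((val_fun_nonneg_iff A.valuation hπ0 hπ1 hc hx).mp hx0)
      have h4 := h3 x hxA
      by_cases hσx : σ x = x
      · left
        exact hσx
      · right
        exact (val_fun_pos_iff A.valuation hπ0 hπ1 hc (sub_ne_zero.mpr hσx)).mpr
          (A.mem_nonunits_iff.mp h4)

end Fermat.Agent.S05
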