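/-
S05: assembly.  The mod-`p` Galois representation of the Frey curve is unramified at every prime
`q ≠ 2, p`.
-/
import Mathlib
import Fermat.Prelude.Def_FLTPrelim_FreyPackage
import Fermat.Prelude.Def_FLTPrelim_GaloisRep
import Fermat.Prelude.Def_FLTPrelim_Ramification
import Fermat.Agent.S05.Defs
import Fermat.Agent.S05.ValCalc
import Fermat.Agent.S05.Kummer
import Fermat.Agent.S05.Val
import Fermat.Agent.S05.Deepen
import Fermat.Agent.S05.Tropical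
import Fermat.Agent.S05.Final

set_option autoImplicit false

namespace Fermat.Agent.S05

open WeierstrassCurve WeierstrassCurve.Affine

/-! ### The two abstract cases -/

section abstractCases
variable {G K : Type*} [AddCommGroup G] [Field K] [CharZero K]

theorem main_integral_of_torsion (D : KummerData G K) (ν : AddVal K)
    (hν2 : ν.v 2 = 0) (ha : D.a = 0 ∨ 0 ≤ ν.v D.a) (hb : D.b = 0 ∨ 0 ≤ ν.v D.b)
    {ℓ p : ℕ} (hℓ : ℓ.Prime) (hℓ2 : ℓ ≠ 2) (hp : p.Prime) (hpℓ : p ≠ ℓ)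
    (hℓv : 0 < ν.v (ℓ : K)) (hunit : ∀ k : ℕ, 0 < k → k < ℓ → ν.v (k : K) = 0)
    (Q : G) (hQ : Q ≠ 0) (hpQ : p • Q = 0) : D.X Q = 0 ∨ 0 ≤ ν.v (D.X Q) := by
  by_contra hcon
  push Not at hcon
  exact no_torsion_of_neg_val D ν hν2 ha hb hℓ hℓ2 hp hpℓ hℓv hunit hQ hcon.1 hcon.2 hpQ

theorem main_mult_case (D : KummerData G K) (ν : AddVal K)
    (hν2 : ν.v 2 = 0) (ha0 : D.a ≠ 0) (ha : ν.v D.a = 0) (hb0 : D.b ≠ 0) (hb : 0 < ν.v D.b)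
    {ℓ p : ℕ} (hℓ : ℓ.Prime) (hℓ2 : ℓ ≠ 2) (hp : p.Prime) (hp2 : p ≠ 2) (hpℓ : p ≠ ℓ)
    (hℓv : 0 < ν.v (ℓ : K)) (hunit : ∀ k : ℕ, 0 < k → k < ℓ → ν.v (k : K) = 0)
    (σ : K →+* K) (τ : G →+ G)
    (hτ0 : ∀ P : G, τ P = 0 → P = 0)
    (hτX : ∀ P : G, P ≠ 0 → D.X (τ P) = σ (D.X P))
    (hτY : ∀ P : G, P ≠ 0 → D.Y (τ P) = σ (D.Y P))
    (hσb : σ D.b = D.b)
    (hσv : ∀ x : K, x ≠ 0 → ν.v (σ x) = ν.v x)
    (hσnear : ∀ x : K, x ≠ 0 → 0 ≤ ν.v x → σ x = x ∨ 0 < ν.v (σ x - x))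
    (d : K) (hd0 : d ≠ 0) (hσd : σ d = d) (hbd : ν.v D.b = p * ν.v d)
    {P : G} (hpP : p • P = 0) : τ P = P :=
  galois_fixed_mult D ν hν2 ha0 ha hb0 hb (hp.odd_of_ne_two hp2) σ τ hτ0 hτX hτY hσb hσv hσnear
    d hd0 hσd hbd
    (main_integral_of_torsion D ν hν2 (Or.inr ha.ge) (Or.inr hb.le) hℓ hℓ2 hp hpℓ hℓv hunit)
    (fun _ hQ hpQ => torsion_val_mult D ν hν2 ha0 ha hb0 hb (hp.odd_of_ne_two hp2) hQ hpQ)
    hpP

theorem main_good_case (D : KummerData G K) (ν : AddVal K)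
    (hν2 : ν.v 2 = 0) (ha : D.a = 0 ∨ 0 ≤ ν.v D.a) (hb0 : D.b ≠ 0) (hb : ν.v D.b = 0)
    (hdisc0 : D.a ^ 2 - 4 * D.b ≠ 0) (hdisc : ν.v (D.a ^ 2 - 4 * D.b) = 0)
    {ℓ p : ℕ} (hℓ : ℓ.Prime) (hℓ2 : ℓ ≠ 2) (hp : p.Prime) (hp2 : p ≠ 2) (hpℓ : p ≠ ℓ)
    (hℓv : 0 < ν.v (ℓ : K)) (hunit : ∀ k : ℕ, 0 < k → k < ℓ → ν.v (k : K) = 0)
    (σ : K →+* K) (τ : G →+ G)
    (hτ0 : ∀ P : G, τ P = 0 → P = 0)
    (hτX : ∀ P : G, P ≠ 0 → D.X (τ P) = σ (D.X P))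
    (hτY : ∀ P : G, P ≠ 0 → D.Y (τ P) = σ (D.Y P))
    (hσb : σ D.b = D.b)
    (hσv : ∀ x : K, x ≠ 0 → ν.v (σ x) = ν.v x)
    (hσnear : ∀ x : K, x ≠ 0 → 0 ≤ ν.v x → σ x = x ∨ 0 < ν.v (σ x - x))
    {P : G} (hpP : p • P = 0) (hXP : D.X P ≠ 0) (hvP : ν.v (D.X P) = 0) : τ P = P :=
  galois_fixed_good D ν hν2 ha hb0 hb hdisc0 hdisc (hp.odd_of_ne_two hp2) σ τ hτ0 hτX hτY hσb
    hσv hσnear
    (main_integral_of_torsion D ν hν2 ha (Or.inr hb.ge) hℓ hℓ2 hp hpℓ hℓv hunit)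
    hpP hXP hvP

end abstractCases

/-! ### Compatibility of the coordinates with the Galois action -/

section galois
variable {K : Type*} [Field K] [DecidableEq K] [Algebra ℚ K]

theorem main_map_ne_zero (W' : Affine ℚ) (σ : K ≃ₐ[ℚ] K) (P : (W'⁄K).Point)
    (h : Affine.Point.map (W' := W') σ.toAlgHom P = 0) : P = 0 := by
  apply Affine.Point.map_injective (W' := W') σ.toAlgHom
  rw [h]
  rfl

theorem main_map_kumX (W' : Affine ℚ) (σ : K ≃ₐ[ℚ] K) (e : K) (he : σ e = e)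
    (P : (W'⁄K).Point) (hP : P ≠ 0) :
    kumX (W'⁄K) e (Affine.Point.map (W' := W') σ.toAlgHom P) = σ (kumX (W'⁄K) e P) := by
  rcases P with _ | ⟨x, y, h⟩
  · exact absurd rfl hP
  · rw [Affine.Point.map_some]
    simp only [kumX]
    rw [map_sub, he]
    rfl

theorem main_map_kumY (W' : Affine ℚ) (σ : K ≃ₐ[ℚ] K)
    (P : (W'⁄K).Point) (hP : P ≠ 0) :
    kumY (W'⁄K) (Affine.Point.map (W' := W') σ.toAlgHom P) = σ (kumY (W'⁄K) P) := by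
  rcases P with _ | ⟨x, y, h⟩
  · exact absurd rfl hP
  · rw [Affine.Point.map_some]
    simp only [kumY]
    rw [map_add, map_div₀, map_ofNat]
    rfl

end galois


/-! ### The Frey curve -/

section frey
variable {K : Type*} [Field K] [DecidableEq K] [Algebra ℚ K] [CharZero K]

omit [DecidableEq K] [Algebra ℚ K] [CharZero K] in
theorem main_kumX_shift (W : Affine K) (e : K) (P : W.Point) (hP : P ≠ 0) :
    kumX W e P = kumX W 0 P - e := by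
  rcases P with _ | ⟨x, y, h⟩
  · exact absurd rfl hP
  · simp [kumX]

theorem main_frey (W' : Affine ℚ) (a b c : ℤ) (p q : ℕ)
    (ha0 : a ≠ 0) (hb0 : b ≠ 0) (hc0 : c ≠ 0)
    (hp : p.Prime) (hp2 : p ≠ 2) (hq : q.Prime) (hq2 : q ≠ 2) (hqp : q ≠ p)
    (habc : a ^ p + b ^ p = c ^ p)
    (hab : ¬ ((q : ℤ) ∣ a ∧ (q : ℤ) ∣ b))
    (h₁ : W'.a₁ = 1) (h₂ : W'.a₂ = ((b : ℚ) ^ p - 1 - (a : ℚ) ^ p) / 4) (h₃ : W'.a₃ = 0)
    (h₄ : W'.a₄ = -((a : ℚ) ^ p) * ((b : ℚ) ^ p) / 16) (h₆ : W'.a₆ = 0)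
    (ν : AddVal K)
    (hint : ∀ n : ℤ, n ≠ 0 → 0 ≤ ν.v (n : K))
    (hunit : ∀ n : ℤ, ¬ (q : ℤ) ∣ n → ν.v (n : K) = 0)
    (hqv : 0 < ν.v (q : K))
    (σ : K ≃ₐ[ℚ] K)
    (hσv : ∀ x : K, x ≠ 0 → ν.v (σ x) = ν.v x)
    (hσnear : ∀ x : K, x ≠ 0 → 0 ≤ ν.v x → σ x = x ∨ 0 < ν.v (σ x - x))
    (x : (W'⁄K).Point) (hx : p • x = 0) :
    Affine.Point.map (W' := W') σ.toAlgHom x = x := by
  -- basic numerics
  have hq2' : ¬ (q : ℤ) ∣ 2 := by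
    intro h
    have h' : q ∣ 2 := Int.natCast_dvd_natCast.mp (by exact_mod_cast h)
    exact hq2 ((Nat.prime_dvd_prime_iff_eq hq Nat.prime_two).mp h')
  have hν2 : ν.v 2 = 0 := by simpa using hunit 2 hq2'
  have h2K : (2 : K) ≠ 0 := two_ne_zero
  have h4K : (4 : K) ≠ 0 := by norm_num
  have h16K : (16 : K) ≠ 0 := by norm_num
  have hν4 : ν.v 4 = 0 := by
    have : (4 : K) = 2 * 2 := by norm_num
    rw [this, ν.v_mul h2K h2K, hν2]; ring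
  have hν16 : ν.v 16 = 0 := by
    have : (16 : K) = 4 * 4 := by norm_num
    rw [this, ν.v_mul h4K h4K, hν4]; ring
  have hunit' : ∀ k : ℕ, 0 < k → k < q → ν.v (k : K) = 0 := by
    intro k hk0 hkq
    have := hunit (k : ℤ) (fun h => Nat.not_dvd_of_pos_of_lt hk0 hkq (Int.natCast_dvd_natCast.mp h))
    simpa using this
  have hpos : ∀ n : ℤ, n ≠ 0 → (q : ℤ) ∣ n → 0 < ν.v (n : K) := by
    intro n hn hqn
    obtain ⟨m, rfl⟩ := hqn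
    have hm : m ≠ 0 := right_ne_zero_of_mul hn
    have hqK : (q : K) ≠ 0 := Nat.cast_ne_zero.mpr hq.ne_zero
    have hmK : (m : K) ≠ 0 := Int.cast_ne_zero.mpr hm
    have : (((q : ℤ) * m : ℤ) : K) = (q : K) * (m : K) := by push_cast; ring
    rw [this, ν.v_mul hqK hmK]
    have := hint m hm
    linarith
  have hpq : p ≠ q := fun h => hqp h.symm
  -- the three p-th powers
  have haK : (a : K) ≠ 0 := Int.cast_ne_zero.mpr ha0
  have hbK : (b : K) ≠ 0 := Int.cast_ne_zero.mpr hb0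
  have hcK : (c : K) ≠ 0 := Int.cast_ne_zero.mpr hc0
  obtain ⟨A, hA⟩ : ∃ A : K, A = (a : K) ^ p := ⟨_, rfl⟩
  obtain ⟨B, hB⟩ : ∃ B : K, B = (b : K) ^ p := ⟨_, rfl⟩
  obtain ⟨C, hC⟩ : ∃ C : K, C = (c : K) ^ p := ⟨_, rfl⟩
  have hA0 : A ≠ 0 := by rw [hA]; exact pow_ne_zero _ haK
  have hB0 : B ≠ 0 := by rw [hB]; exact pow_ne_zero _ hbK
  have hC0 : C ≠ 0 := by rw [hC]; exact pow_ne_zero _ hcK
  have hABC : C = A + B := by
    rw [hA, hB, hC]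
    exact_mod_cast (congrArg (Int.cast : ℤ → K) habc).symm
  have hvA : ν.v A = p * ν.v (a : K) := by rw [hA]; exact ν.v_pow haK p
  have hvB : ν.v B = p * ν.v (b : K) := by rw [hB]; exact ν.v_pow hbK p
  have hvC : ν.v C = p * ν.v (c : K) := by rw [hC]; exact ν.v_pow hcK p
  have hσA : σ A = A := by rw [hA, map_pow, map_intCast]
  have hσB : σ B = B := by rw [hB, map_pow, map_intCast]
  have hσC : σ C = C := by rw [hC, map_pow, map_intCast]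
  have hσ4 : σ (4 : K) = 4 := map_ofNat σ 4
  have hσ16 : σ (16 : K) = 16 := map_ofNat σ 16
  have hp0 : (0 : ℝ) < p := by exact_mod_cast hp.pos
  -- the curve
  have hW₁ : (W'⁄K).a₁ = 1 := by
    show algebraMap ℚ K W'.a₁ = 1
    rw [h₁, map_one]
  have hW₃ : (W'⁄K).a₃ = 0 := by
    show algebraMap ℚ K W'.a₃ = 0
    rw [h₃, map_zero]
  have hW₆ : (W'⁄K).a₆ = 0 := by
    show algebraMap ℚ K W'.a₆ = 0
    rw [h₆, map_zero]
  have hW₂ : (W'⁄K).a₂ = (B - 1 - A) / 4 := by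
    show algebraMap ℚ K W'.a₂ = (B - 1 - A) / 4
    rw [h₂, hA, hB]
    simp
  have hW₄ : (W'⁄K).a₄ = -A * B / 16 := by
    show algebraMap ℚ K W'.a₄ = -A * B / 16
    rw [h₄, hA, hB]
    simp
  have hτ0 := main_map_ne_zero W' σ
  have hAB0 : -A * B ≠ 0 := mul_ne_zero (neg_ne_zero.mpr hA0) hB0
  have hAC0 : A * C ≠ 0 := mul_ne_zero hA0 hC0
  have heA : (A / 4) ^ 3 + ((W'⁄K).a₂ + 1 / 4) * (A / 4) ^ 2 + (W'⁄K).a₄ * (A / 4) = 0 := by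
    rw [hW₂, hW₄]; ring
  have hσe : σ (A / 4) = A / 4 := by rw [map_div₀, hσA, hσ4]
  by_cases hqa : (q : ℤ) ∣ a
  · -- multiplicative reduction, `q ∣ a`
    have hqb : ¬ (q : ℤ) ∣ b := fun h => hab ⟨hqa, h⟩
    have hva : 0 < ν.v (a : K) := hpos a ha0 hqa
    have hvb : ν.v (b : K) = 0 := hunit b hqb
    have hvB0 : ν.v B = 0 := by rw [hvB, hvb, mul_zero]
    have hvApos : 0 < ν.v A := by rw [hvA]; exact mul_pos hp0 hva
    obtain ⟨D, hDX, hDY, hDa, hDb⟩ := exists_kummerData (W'⁄K) hW₁ hW₃ hW₆ 0 (by ring)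
    have hDa' : D.a = (B - A) / 4 := by rw [hDa, hW₂]; ring
    have hDb' : D.b = -A * B / 16 := by rw [hDb, hW₂, hW₄]; ring
    obtain ⟨hBA0, hvBA⟩ := AddVal.v_sub_eq_of_gt hB0
      (Or.inr (by rw [hvB0]; exact hvApos) : ν.Gt A (ν.v B))
    refine main_mult_case D ν hν2 ?_ ?_ ?_ ?_ hq hq2 hp hp2 hpq hqv hunit' (σ : K →+* K)
      (Affine.Point.map (W' := W') σ.toAlgHom) hτ0 ?_ ?_ ?_ hσv hσnear (a : K) haK
      (map_intCast σ a) ?_ hx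
    · rw [hDa']; exact div_ne_zero hBA0 h4K
    · rw [hDa', ν.v_div hBA0 h4K, hvBA, hvB0, hν4]; ring
    · rw [hDb']; exact div_ne_zero hAB0 h16K
    · rw [hDb', ν.v_div hAB0 h16K, ν.v_mul (neg_ne_zero.mpr hA0) hB0, ν.v_neg, hvB0, hν16]
      linarith
    · intro P hP; rw [hDX]; exact main_map_kumX W' σ 0 (map_zero σ) P hP
    · intro P hP; rw [hDY]; exact main_map_kumY W' σ P hP
    · rw [hDb']
      show σ (-A * B / 16) = -A * B / 16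
      rw [map_div₀, map_mul, map_neg, hσA, hσB, hσ16]
    · rw [hDb', ν.v_div hAB0 h16K, ν.v_mul (neg_ne_zero.mpr hA0) hB0, ν.v_neg, hvB0, hν16, hvA]
      ring
  by_cases hqb : (q : ℤ) ∣ b
  · -- multiplicative reduction, `q ∣ b`
    have hvb : 0 < ν.v (b : K) := hpos b hb0 hqb
    have hva : ν.v (a : K) = 0 := hunit a hqa
    have hvA0 : ν.v A = 0 := by rw [hvA, hva, mul_zero]
    have hvBpos : 0 < ν.v B := by rw [hvB]; exact mul_pos hp0 hvb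
    obtain ⟨D, hDX, hDY, hDa, hDb⟩ := exists_kummerData (W'⁄K) hW₁ hW₃ hW₆ 0 (by ring)
    have hDa' : D.a = (B - A) / 4 := by rw [hDa, hW₂]; ring
    have hDb' : D.b = -A * B / 16 := by rw [hDb, hW₂, hW₄]; ring
    obtain ⟨hBA0, hvBA⟩ := AddVal.v_sub_eq_of_gt' hA0
      (Or.inr (by rw [hvA0]; exact hvBpos) : ν.Gt B (ν.v A))
    refine main_mult_case D ν hν2 ?_ ?_ ?_ ?_ hq hq2 hp hp2 hpq hqv hunit' (σ : K →+* K)
      (Affine.Point.map (W' := W') σ.toAlgHom) hτ0 ?_ ?_ ?_ hσv hσnear (b : K) hbK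
      (map_intCast σ b) ?_ hx
    · rw [hDa']; exact div_ne_zero hBA0 h4K
    · rw [hDa', ν.v_div hBA0 h4K, hvBA, hvA0, hν4]; ring
    · rw [hDb']; exact div_ne_zero hAB0 h16K
    · rw [hDb', ν.v_div hAB0 h16K, ν.v_mul (neg_ne_zero.mpr hA0) hB0, ν.v_neg, hvA0, hν16]
      linarith
    · intro P hP; rw [hDX]; exact main_map_kumX W' σ 0 (map_zero σ) P hP
    · intro P hP; rw [hDY]; exact main_map_kumY W' σ P hP
    · rw [hDb']
      show σ (-A * B / 16) = -A * B / 16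
      rw [map_div₀, map_mul, map_neg, hσA, hσB, hσ16]
    · rw [hDb', ν.v_div hAB0 h16K, ν.v_mul (neg_ne_zero.mpr hA0) hB0, ν.v_neg, hvA0, hν16, hvB]
      ring
  by_cases hqc : (q : ℤ) ∣ c
  · -- multiplicative reduction, `q ∣ c`
    have hvc : 0 < ν.v (c : K) := hpos c hc0 hqc
    have hva : ν.v (a : K) = 0 := hunit a hqa
    have hvA0 : ν.v A = 0 := by rw [hvA, hva, mul_zero]
    have hvCpos : 0 < ν.v C := by rw [hvC]; exact mul_pos hp0 hvc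
    obtain ⟨D, hDX, hDY, hDa, hDb⟩ := exists_kummerData (W'⁄K) hW₁ hW₃ hW₆ (A / 4) heA
    have hDa' : D.a = (A + C) / 4 := by rw [hDa, hW₂, hABC]; ring
    have hDb' : D.b = A * C / 16 := by rw [hDb, hW₂, hW₄, hABC]; ring
    obtain ⟨hAC0', hvAC⟩ := AddVal.v_add_eq_of_gt hA0
      (Or.inr (by rw [hvA0]; exact hvCpos) : ν.Gt C (ν.v A))
    refine main_mult_case D ν hν2 ?_ ?_ ?_ ?_ hq hq2 hp hp2 hpq hqv hunit' (σ : K →+* K)
      (Affine.Point.map (W' := W') σ.toAlgHom) hτ0 ?_ ?_ ?_ hσv hσnear (c : K) hcK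
      (map_intCast σ c) ?_ hx
    · rw [hDa']; exact div_ne_zero hAC0' h4K
    · rw [hDa', ν.v_div hAC0' h4K, hvAC, hvA0, hν4]; ring
    · rw [hDb']; exact div_ne_zero hAC0 h16K
    · rw [hDb', ν.v_div hAC0 h16K, ν.v_mul hA0 hC0, hvA0, hν16]
      linarith
    · intro P hP; rw [hDX]; exact main_map_kumX W' σ (A / 4) hσe P hP
    · intro P hP; rw [hDY]; exact main_map_kumY W' σ P hP
    · rw [hDb']
      show σ (A * C / 16) = A * C / 16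
      rw [map_div₀, map_mul, hσA, hσC, hσ16]
    · rw [hDb', ν.v_div hAC0 h16K, ν.v_mul hA0 hC0, hvA0, hν16, hvC]
      ring
  -- good reduction
  have hvA0 : ν.v A = 0 := by rw [hvA, hunit a hqa, mul_zero]
  have hvB0 : ν.v B = 0 := by rw [hvB, hunit b hqb, mul_zero]
  have hvC0 : ν.v C = 0 := by rw [hvC, hunit c hqc, mul_zero]
  rcases eq_or_ne x 0 with rfl | hx0
  · exact map_zero _
  have hdiv4 : ∀ z : K, ν.Ge z 0 → (z / 4 = 0 ∨ 0 ≤ ν.v (z / 4)) := by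
    intro z hz
    rcases eq_or_ne z 0 with rfl | hz0
    · left; simp
    · right
      rw [ν.v_div hz0 h4K, hν4, sub_zero]
      exact hz.le hz0
  obtain ⟨D₀, hDX₀, hDY₀, hDa₀, hDb₀⟩ := exists_kummerData (W'⁄K) hW₁ hW₃ hW₆ 0 (by ring)
  have hDa₀' : D₀.a = (B - A) / 4 := by rw [hDa₀, hW₂]; ring
  have hDb₀' : D₀.b = -A * B / 16 := by rw [hDb₀, hW₂, hW₄]; ring
  have hD₀a : D₀.a = 0 ∨ 0 ≤ ν.v D₀.a := by
    rw [hDa₀']
    exact hdiv4 _ (AddVal.Ge.sub (Or.inr hvB0.ge) (Or.inr hvA0.ge))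
  have hD₀b0 : D₀.b ≠ 0 := by rw [hDb₀']; exact div_ne_zero hAB0 h16K
  have hD₀b : ν.v D₀.b = 0 := by
    rw [hDb₀', ν.v_div hAB0 h16K, ν.v_mul (neg_ne_zero.mpr hA0) hB0, ν.v_neg, hvA0, hvB0, hν16]
    ring
  have hint₀ := main_integral_of_torsion D₀ ν hν2 hD₀a (Or.inr hD₀b.ge) hq hq2 hp hpq hqv hunit'
    x hx0 hx
  by_cases hcase : D₀.X x ≠ 0 ∧ ν.v (D₀.X x) = 0
  · have hdisc : D₀.a ^ 2 - 4 * D₀.b = C ^ 2 / 16 := by rw [hDa₀', hDb₀', hABC]; ring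
    refine main_good_case D₀ ν hν2 hD₀a hD₀b0 hD₀b ?_ ?_ hq hq2 hp hp2 hpq hqv hunit'
      (σ : K →+* K) (Affine.Point.map (W' := W') σ.toAlgHom) hτ0 ?_ ?_ ?_ hσv hσnear hx
      hcase.1 hcase.2
    · rw [hdisc]; exact div_ne_zero (pow_ne_zero 2 hC0) h16K
    · rw [hdisc, ν.v_div (pow_ne_zero 2 hC0) h16K, ν.v_sq hC0, hvC0, hν16]; ring
    · intro P hP; rw [hDX₀]; exact main_map_kumX W' σ 0 (map_zero σ) P hP
    · intro P hP; rw [hDY₀]; exact main_map_kumY W' σ P hP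
    · rw [hDb₀']
      show σ (-A * B / 16) = -A * B / 16
      rw [map_div₀, map_mul, map_neg, hσA, hσB, hσ16]
  · obtain ⟨D₁, hDX₁, hDY₁, hDa₁, hDb₁⟩ := exists_kummerData (W'⁄K) hW₁ hW₃ hW₆ (A / 4) heA
    have hDa₁' : D₁.a = (A + C) / 4 := by rw [hDa₁, hW₂, hABC]; ring
    have hDb₁' : D₁.b = A * C / 16 := by rw [hDb₁, hW₂, hW₄, hABC]; ring
    have hD₁a : D₁.a = 0 ∨ 0 ≤ ν.v D₁.a := by
      rw [hDa₁']
      exact hdiv4 _ (AddVal.Ge.add (Or.inr hvA0.ge) (Or.inr hvC0.ge))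
    have hD₁b0 : D₁.b ≠ 0 := by rw [hDb₁']; exact div_ne_zero hAC0 h16K
    have hD₁b : ν.v D₁.b = 0 := by
      rw [hDb₁', ν.v_div hAC0 h16K, ν.v_mul hA0 hC0, hvA0, hvC0, hν16]
      ring
    have hdisc : D₁.a ^ 2 - 4 * D₁.b = B ^ 2 / 16 := by rw [hDa₁', hDb₁', hABC]; ring
    have hA4 : A / 4 ≠ 0 := div_ne_zero hA0 h4K
    have hvA4 : ν.v (A / 4) = 0 := by rw [ν.v_div hA0 h4K, hvA0, hν4]; ring
    have hX₀gt : ν.Gt (D₀.X x) (ν.v (A / 4)) := by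
      rw [hvA4]
      rcases hint₀ with h0 | hge
      · exact Or.inl h0
      · rcases eq_or_ne (D₀.X x) 0 with h0 | hne
        · exact Or.inl h0
        · exact Or.inr (lt_of_le_of_ne hge (fun h => hcase ⟨hne, h.symm⟩))
    have hX₁ : D₁.X x = D₀.X x - A / 4 := by
      rw [hDX₁, hDX₀]; exact main_kumX_shift (W'⁄K) (A / 4) x hx0
    obtain ⟨hX₁0, hvX₁⟩ := AddVal.v_sub_eq_of_gt' hA4 hX₀gt
    refine main_good_case D₁ ν hν2 hD₁a hD₁b0 hD₁b ?_ ?_ hq hq2 hp hp2 hpq hqv hunit'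
      (σ : K →+* K) (Affine.Point.map (W' := W') σ.toAlgHom) hτ0 ?_ ?_ ?_ hσv hσnear hx
      ?_ ?_
    · rw [hdisc]; exact div_ne_zero (pow_ne_zero 2 hB0) h16K
    · rw [hdisc, ν.v_div (pow_ne_zero 2 hB0) h16K, ν.v_sq hB0, hvB0, hν16]; ring
    · intro P hP; rw [hDX₁]; exact main_map_kumX W' σ (A / 4) hσe P hP
    · intro P hP; rw [hDY₁]; exact main_map_kumY W' σ P hP
    · rw [hDb₁']
      show σ (A * C / 16) = A * C / 16
      rw [map_div₀, map_mul, hσA, hσC, hσ16]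
    · rw [hX₁]; exact hX₁0
    · rw [hX₁, hvX₁, hvA4]

end frey

/-! ### The statement -/

theorem main_result (P : FreyPackage) {q : ℕ} (hq : q.Prime) (hq2 : q ≠ 2) (hqp : q ≠ P.p) :
    P.GaloisRepUnramifiedAt q := by
  intro A hA σ hσ x
  apply Subtype.ext
  show Affine.Point.map (W' := P.freyCurve) σ.toAlgHom x.1 = x.1
  have : Algebra.IsAlgebraic ℚ (AlgebraicClosure ℚ) := AlgebraicClosure.isAlgebraic ℚ
  obtain ⟨ν, hν1, hν2, hν3, hν4⟩ := exists_addVal A hq hA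
  obtain ⟨hσv, hσnear⟩ := hν4 σ hσ
  have hx : P.p • x.1 = 0 := by
    have h := x.2
    rw [Submodule.mem_torsionBy_iff] at h
    rwa [natCast_zsmul] at h
  have hp2 : P.p ≠ 2 := by
    have := P.hp5
    omega
  refine main_frey P.freyCurve P.a P.b P.c P.p q P.ha0 P.hb0 P.hc0 P.pp hp2 hq hq2 hqp P.hFLT
    ?_ rfl ?_ rfl ?_ rfl ν ?_ hν3 ?_ σ hσv hσnear x.1 hx
  · rintro ⟨h1, h2⟩
    have h3 : (q : ℤ) ∣ gcd P.a P.b := dvd_gcd h1 h2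
    rw [P.hgcdab] at h3
    have h4 : q ∣ 1 := Int.natCast_dvd_natCast.mp (by exact_mod_cast h3)
    exact hq.one_lt.ne' (Nat.dvd_one.mp h4)
  · rfl
  · rfl
  · intro n hn
    exact (hν1 _ (Int.cast_ne_zero.mpr hn)).mpr (intCast_mem A n)
  · exact (hν2 _ (Nat.cast_ne_zero.mpr hq.ne_zero)).mpr hA

end Fermat.Agent.S05
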