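/-
S05: definitions for the "tropical" analysis of the Kummer line at a prime of multiplicative
reduction (`v a = 0`, `v b > 0`).
-/
import Mathlib
import Fermat.Agent.S05.Defs

set_option autoImplicit false

namespace Fermat.Agent.S05

open scoped Classical in
/-- The valuation of the `X`-coordinate of `Q`, clamped to the interval `[0, v b]`
(`0` for `Q = 0`, and `v b` if `X Q = 0`). -/
noncomputable def tropW {G K : Type*} [AddCommGroup G] [Field K] (D : KummerData G K)
    (ν : AddVal K) (Q : G) : ℝ :=
  if Q = 0 then 0 else if D.X Q = 0 then ν.v D.b else max 0 (min (ν.v (D.X Q)) (ν.v D.b))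

/-- The sum `a + c` of two elements of `[0, h]`, folded back into `[0, h]`. -/
noncomputable def foldSum (h a c : ℝ) : ℝ := if a + c ≤ h then a + c else 2 * h - (a + c)

end Fermat.Agent.S05
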