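/-
S05: the "tropical" addition law for the clamped valuation `tropW` of the `X`-coordinate on a
Kummer line `Y² = X (X² + a X + b)` with `v a = 0`, `v b > 0` (multiplicative reduction).

Main results: `trop_step` (the pair `{w(Q+P), w(Q-P)}` is `{|w Q - w P|, foldSum h (w Q) (w P)}`)
and `trop_dbl` (`w(2P) = foldSum h (w P) (w P)`).
-/
import Mathlib
import Fermat.Agent.S05.Defs
import Fermat.Agent.S05.ValCalc
import Fermat.Agent.S05.TropDefs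
set_option autoImplicit false
namespace Fermat.Agent.S05

/-! ### Real-number bookkeeping -/

theorem trs_fold_le {h a c : ℝ} (hle : a + c ≤ h) : foldSum h a c = a + c := by
  unfold foldSum
  rw [if_pos hle]

theorem trs_fold_gt {h a c : ℝ} (hlt : h < a + c) : foldSum h a c = 2 * h - (a + c) := by
  unfold foldSum
  rw [if_neg (not_le.mpr hlt)]

/-- The conclusion of the tropical addition law, for abstract real numbers. -/
def trs_Concl (h wx wy wp wm : ℝ) : Prop :=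
  (wp = |wx - wy| ∧ wm = foldSum h wx wy) ∨ (wp = foldSum h wx wy ∧ wm = |wx - wy|)

theorem trs_Concl_swap {h wx wy wp wm : ℝ} (H : trs_Concl h wy wx wp wm) :
    trs_Concl h wx wy wp wm := by
  unfold trs_Concl at H ⊢
  have e1 : |wx - wy| = |wy - wx| := abs_sub_comm _ _
  have e2 : foldSum h wx wy = foldSum h wy wx := by
    unfold foldSum
    rw [add_comm]
  rw [e1, e2]
  exact H

theorem trs_Concl_same {h wx wy wp wm A C V : ℝ} (hx : wx = A) (hy : wy = C) (hp : wp = V)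
    (hm : wm = V) (h1 : |A - C| = V) (h2 : foldSum h A C = V) : trs_Concl h wx wy wp wm := by
  unfold trs_Concl
  rw [hx, hy, hp, hm, h1, h2]
  exact Or.inl ⟨rfl, rfl⟩

section trs_generic
variable {K : Type*} [Field K]

open scoped Classical in
/-- The valuation of `z` clamped to `[0, v b]` (and `v b` for `z = 0`). -/
noncomputable def trs_W (ν : AddVal K) (b z : K) : ℝ :=
  if z = 0 then ν.v b else max 0 (min (ν.v z) (ν.v b))

theorem trs_W_of_le {ν : AddVal K} {b z : K} (hb : 0 < ν.v b) (hz : z ≠ 0) (h : ν.v z ≤ 0) :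
    trs_W ν b z = 0 := by
  unfold trs_W
  rw [if_neg hz, min_eq_left (le_trans h hb.le), max_eq_left h]

theorem trs_W_of_eq {ν : AddVal K} {b z : K} {r : ℝ} (hz : z ≠ 0) (hv : ν.v z = r)
    (h0 : 0 ≤ r) (h1 : r ≤ ν.v b) : trs_W ν b z = r := by
  unfold trs_W
  rw [if_neg hz, hv, min_eq_left h1, max_eq_right h0]

theorem trs_W_of_mid {ν : AddVal K} {b z : K} (hz : z ≠ 0) (h0 : 0 ≤ ν.v z)
    (h1 : ν.v z ≤ ν.v b) : trs_W ν b z = ν.v z :=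
  trs_W_of_eq hz rfl h0 h1

theorem trs_W_of_ge {ν : AddVal K} {b z : K} (hb : 0 < ν.v b) (h : ν.Ge z (ν.v b)) :
    trs_W ν b z = ν.v b := by
  unfold trs_W
  rcases eq_or_ne z 0 with rfl | hz
  · rw [if_pos rfl]
  · rw [if_neg hz, min_eq_right (h.le hz), max_eq_right hb.le]

/-- Every `z` lies in one of the three zones. -/
theorem trs_zone (ν : AddVal K) (b z : K) :
    (z ≠ 0 ∧ ν.v z ≤ 0) ∨ (z ≠ 0 ∧ 0 < ν.v z ∧ ν.v z < ν.v b) ∨ ν.Ge z (ν.v b) := by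
  rcases eq_or_ne z 0 with rfl | hz
  · exact Or.inr (Or.inr (AddVal.Ge.zero _))
  · rcases le_or_gt (ν.v z) 0 with h | h
    · exact Or.inl ⟨hz, h⟩
    · rcases lt_or_ge (ν.v z) (ν.v b) with h' | h'
      · exact Or.inr (Or.inl ⟨hz, h, h'⟩)
      · exact Or.inr (Or.inr (AddVal.ge_of_ne h'))

/-! ### Generic valuation lemmas -/

theorem trs_ge_sq {ν : AddVal K} {z : K} {r : ℝ} (h : ν.Ge z r) : ν.Ge (z ^ 2) (2 * r) := by
  have h' := h.mul h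
  rw [← pow_two, ← two_mul] at h'
  exact h'

/-- If `u * d = n` with `d ≠ 0`, `n ≠ 0`, then `u ≠ 0` and `v u = v n - v d`. -/
theorem trs_v_of_mul_eq {ν : AddVal K} {u d n : K} (h : u * d = n) (hd : d ≠ 0) (hn : n ≠ 0) :
    u ≠ 0 ∧ ν.v u = ν.v n - ν.v d := by
  have hu : u ≠ 0 := by
    rintro rfl
    rw [zero_mul] at h
    exact hn h.symm
  refine ⟨hu, ?_⟩
  rw [← h, ν.v_mul hu hd]
  ring

/-- If `u * d = n` with `d ≠ 0` and "`v n ≥ r`", then "`v u ≥ r - v d`". -/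
theorem trs_ge_of_mul_eq {ν : AddVal K} {u d n : K} {r : ℝ} (h : u * d = n) (hd : d ≠ 0)
    (hn : ν.Ge n r) : ν.Ge u (r - ν.v d) := by
  rcases eq_or_ne u 0 with rfl | hu
  · exact AddVal.Ge.zero _
  · refine AddVal.ge_of_ne ?_
    have hn0 : n ≠ 0 := by
      rw [← h]
      exact mul_ne_zero hu hd
    have h1 := hn.le hn0
    rw [← h, ν.v_mul hu hd] at h1
    linarith

/-- (NP1) "`v (r₁ r₂) ≥ 2 r`" and "`v (r₁ + r₂) ≥ r`" imply "`v r₁ ≥ r`" and "`v r₂ ≥ r`". -/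
theorem trs_np1 {ν : AddVal K} {r₁ r₂ : K} {r : ℝ} (hp : ν.Ge (r₁ * r₂) (2 * r))
    (hs : ν.Ge (r₁ + r₂) r) : ν.Ge r₁ r ∧ ν.Ge r₂ r := by
  rcases eq_or_ne r₁ 0 with rfl | h₁
  · rw [zero_add] at hs
    exact ⟨AddVal.Ge.zero _, hs⟩
  rcases eq_or_ne r₂ 0 with rfl | h₂
  · rw [add_zero] at hs
    exact ⟨hs, AddVal.Ge.zero _⟩
  have hp' := hp.le (mul_ne_zero h₁ h₂)
  rw [ν.v_mul h₁ h₂] at hp'
  have key₁ : r ≤ ν.v r₁ := by
    by_contra hcon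
    have hlt : ν.v r₁ < r := not_le.mp hcon
    obtain ⟨hne0, hv⟩ := ν.v_add_eq_of_lt h₁ h₂ (by linarith)
    have h3 := hs.le hne0
    linarith
  have key₂ : r ≤ ν.v r₂ := by
    by_contra hcon
    have hlt : ν.v r₂ < r := not_le.mp hcon
    obtain ⟨hne0, hv⟩ := ν.v_add_eq_of_lt' h₁ h₂ (by linarith)
    have h3 := hs.le hne0
    linarith
  exact ⟨AddVal.ge_of_ne key₁, AddVal.ge_of_ne key₂⟩

/-- (NP2) If `v (r₁ + r₂) = s` and "`v (r₁ r₂) ≥ s + t`" with `s < t`, then one of `r₁`, `r₂` has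
valuation exactly `s` and the other one is "`≥ t`". -/
theorem trs_np2 {ν : AddVal K} {r₁ r₂ : K} {s t : ℝ} (hsum0 : r₁ + r₂ ≠ 0)
    (hs : ν.v (r₁ + r₂) = s) (hp : ν.Ge (r₁ * r₂) (s + t)) (hst : s < t) :
    (r₁ ≠ 0 ∧ ν.v r₁ = s ∧ ν.Ge r₂ t) ∨ (r₂ ≠ 0 ∧ ν.v r₂ = s ∧ ν.Ge r₁ t) := by
  rcases eq_or_ne r₁ 0 with rfl | h₁
  · rw [zero_add] at hsum0 hs
    exact Or.inr ⟨hsum0, hs, AddVal.Ge.zero _⟩
  rcases eq_or_ne r₂ 0 with rfl | h₂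
  · rw [add_zero] at hsum0 hs
    exact Or.inl ⟨hsum0, hs, AddVal.Ge.zero _⟩
  have hp' := hp.le (mul_ne_zero h₁ h₂)
  rw [ν.v_mul h₁ h₂] at hp'
  rcases lt_trichotomy (ν.v r₁) (ν.v r₂) with hlt | heq | hgt
  · obtain ⟨_, hv⟩ := ν.v_add_eq_of_lt h₁ h₂ hlt
    exact Or.inl ⟨h₁, by linarith, AddVal.ge_of_ne (by linarith)⟩
  · exfalso
    have h := ν.v_add_ge h₁ h₂ hsum0
    rw [heq, min_self] at h
    linarith
  · obtain ⟨_, hv⟩ := ν.v_add_eq_of_lt' h₁ h₂ hgt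
    exact Or.inr ⟨h₂, by linarith, AddVal.ge_of_ne (by linarith)⟩

/-- (NP2) in terms of the clamped valuation. -/
theorem trs_np2_W {ν : AddVal K} {b p m : K} {s t : ℝ} (hb : 0 < ν.v b)
    (hsum0 : p + m ≠ 0) (hs : ν.v (p + m) = s) (hst : s < t) (ht0 : 0 ≤ t) (hth : t ≤ ν.v b)
    (hprod : (p ≠ 0 ∧ m ≠ 0 ∧ ν.v p + ν.v m = s + t) ∨ (t = ν.v b ∧ ν.Ge (p * m) (s + t))) :
    (trs_W ν b p = max 0 s ∧ trs_W ν b m = t) ∨ (trs_W ν b p = t ∧ trs_W ν b m = max 0 s) := by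
  have hWs : ∀ z : K, z ≠ 0 → ν.v z = s → trs_W ν b z = max 0 s := by
    intro z hz hzv
    unfold trs_W
    rw [if_neg hz, hzv, min_eq_left (by linarith)]
  have hWt : ∀ z : K, z ≠ 0 → ν.v z = t → trs_W ν b z = t := by
    intro z hz hzv
    exact trs_W_of_eq hz hzv ht0 hth
  rcases hprod with ⟨hp, hm, hpm⟩ | ⟨hth', hge⟩
  · rcases AddVal.eq_or_eq_of_add_of_mul hp hm hsum0 hs hpm hst with ⟨h1, h2⟩ | ⟨h1, h2⟩
    · exact Or.inl ⟨hWs p hp h1, hWt m hm h2⟩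
    · exact Or.inr ⟨hWt p hp h1, hWs m hm h2⟩
  · rcases trs_np2 hsum0 hs hge hst with ⟨hp, h1, h2⟩ | ⟨hm, h1, h2⟩
    · refine Or.inl ⟨hWs p hp h1, ?_⟩
      rw [hth'] at h2 ⊢
      exact trs_W_of_ge hb h2
    · refine Or.inr ⟨?_, hWs m hm h1⟩
      rw [hth'] at h2 ⊢
      exact trs_W_of_ge hb h2

/-- From (K1): if `N₁ ≠ 0` then `p, m ≠ 0` and `v p + v m = 2 v N₁ - 2 v Dl`. -/
theorem trs_prod_eq {ν : AddVal K} {p m dl n : K} (K1 : p * m * dl ^ 2 = n ^ 2) (hdl : dl ≠ 0)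
    (hn : n ≠ 0) : p ≠ 0 ∧ m ≠ 0 ∧ ν.v p + ν.v m = 2 * ν.v n - 2 * ν.v dl := by
  obtain ⟨hpm, hv⟩ := trs_v_of_mul_eq (ν := ν) K1 (pow_ne_zero 2 hdl) (pow_ne_zero 2 hn)
  have hp : p ≠ 0 := left_ne_zero_of_mul hpm
  have hm : m ≠ 0 := right_ne_zero_of_mul hpm
  refine ⟨hp, hm, ?_⟩
  rw [ν.v_mul hp hm, ν.v_sq hn, ν.v_sq hdl] at hv
  exact hv

/-- From (K1): if "`v N₁ ≥ r`" then "`v (p m) ≥ 2 r - 2 v Dl`". -/
theorem trs_prod_ge {ν : AddVal K} {p m dl n : K} {r : ℝ} (K1 : p * m * dl ^ 2 = n ^ 2)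
    (hdl : dl ≠ 0) (hn : ν.Ge n r) : ν.Ge (p * m) (2 * r - 2 * ν.v dl) := by
  have h1 := trs_ge_of_mul_eq K1 (pow_ne_zero 2 hdl) (trs_ge_sq hn)
  rw [ν.v_sq hdl] at h1
  exact h1

/-- From (K2): if `N₂ ≠ 0` then `p + m ≠ 0` and `v (p + m) = v N₂ - 2 v Dl`. -/
theorem trs_sum_eq {ν : AddVal K} (h2 : (2 : K) ≠ 0) (hν2 : ν.v 2 = 0) {p m dl n : K}
    (K2 : (p + m) * dl ^ 2 = 2 * n) (hdl : dl ≠ 0) (hn : n ≠ 0) :
    p + m ≠ 0 ∧ ν.v (p + m) = ν.v n - 2 * ν.v dl := by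
  obtain ⟨hpm, hv⟩ := trs_v_of_mul_eq (ν := ν) K2 (pow_ne_zero 2 hdl) (mul_ne_zero h2 hn)
  refine ⟨hpm, ?_⟩
  rw [ν.v_mul h2 hn, hν2, ν.v_sq hdl] at hv
  linarith

/-- From (K2): if "`v N₂ ≥ r`" then "`v (p + m) ≥ r - 2 v Dl`". -/
theorem trs_sum_ge {ν : AddVal K} (hν2 : ν.v 2 = 0) {p m dl n : K} {r : ℝ}
    (K2 : (p + m) * dl ^ 2 = 2 * n) (hdl : dl ≠ 0) (hn : ν.Ge n r) :
    ν.Ge (p + m) (r - 2 * ν.v dl) := by
  have h2n : ν.Ge (2 * n) r := by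
    have h0 : ν.Ge (2 : K) 0 := AddVal.ge_of_ne (le_of_eq hν2.symm)
    have h1 := h0.mul hn
    rw [zero_add] at h1
    exact h1
  have h1 := trs_ge_of_mul_eq K2 (pow_ne_zero 2 hdl) h2n
  rw [ν.v_sq hdl] at h1
  exact h1

theorem trs_2a_ge {ν : AddVal K} {a : K} (hν2 : ν.v 2 = 0) (ha : ν.v a = 0) {z : K} {r : ℝ}
    (hz : ν.Ge z r) : ν.Ge (2 * a * z) r := by
  have h0 : ν.Ge (2 : K) 0 := AddVal.ge_of_ne (le_of_eq hν2.symm)
  have ha' : ν.Ge a 0 := AddVal.ge_of_ne (le_of_eq ha.symm)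
  have h1 := (h0.mul ha').mul hz
  rw [zero_add, zero_add] at h1
  exact h1

theorem trs_2a_eq {ν : AddVal K} {a : K} (h2 : (2 : K) ≠ 0) (hν2 : ν.v 2 = 0) (ha0 : a ≠ 0)
    (ha : ν.v a = 0) {z : K} (hz : z ≠ 0) : ν.v (2 * a * z) = ν.v z := by
  rw [ν.v_mul (mul_ne_zero h2 ha0) hz, ν.v_mul h2 ha0, hν2, ha, zero_add, zero_add]

/-! ### The case analysis for the addition law -/

variable {ν : AddVal K} {a b x y p m : K}

theorem trs_K1_swap (K1 : p * m * (x - y) ^ 2 = (x * y - b) ^ 2) :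
    p * m * (y - x) ^ 2 = (y * x - b) ^ 2 := by
  have e : (y - x) ^ 2 = (x - y) ^ 2 := by ring
  rw [e, mul_comm y x]
  exact K1

theorem trs_K2_swap
    (K2 : (p + m) * (x - y) ^ 2 = 2 * ((x + y) * (x * y + b) + 2 * a * (x * y))) :
    (p + m) * (y - x) ^ 2 = 2 * ((y + x) * (y * x + b) + 2 * a * (y * x)) := by
  have e : (y - x) ^ 2 = (x - y) ^ 2 := by ring
  rw [e, mul_comm y x, add_comm y x]
  exact K2

/-- Case 1: `x` in zone `Z0`, `y` in zone `Zmid`. -/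
theorem trs_case1 (hν2 : ν.v 2 = 0) (ha : ν.v a = 0) (hb0 : b ≠ 0) (hb : 0 < ν.v b)
    (K1 : p * m * (x - y) ^ 2 = (x * y - b) ^ 2)
    (K2 : (p + m) * (x - y) ^ 2 = 2 * ((x + y) * (x * y + b) + 2 * a * (x * y)))
    (hx : x ≠ 0) (hxv : ν.v x ≤ 0) (hy : y ≠ 0) (hy0 : 0 < ν.v y) (hyh : ν.v y < ν.v b) :
    trs_Concl (ν.v b) (trs_W ν b x) (trs_W ν b y) (trs_W ν b p) (trs_W ν b m) := by
  have hdl : x - y ≠ 0 ∧ ν.v (x - y) = ν.v x := ν.v_sub_eq_of_lt hx hy (by linarith)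
  have hxy : x * y ≠ 0 := mul_ne_zero hx hy
  have hvxy : ν.v (x * y) = ν.v x + ν.v y := ν.v_mul hx hy
  have hN1 : x * y - b ≠ 0 ∧ ν.v (x * y - b) = ν.v (x * y) :=
    ν.v_sub_eq_of_lt hxy hb0 (by rw [hvxy]; linarith)
  obtain ⟨hp, hm, hpm⟩ := trs_prod_eq (ν := ν) K1 hdl.1 hN1.1
  rw [hN1.2, hvxy, hdl.2] at hpm
  have hxy_sum : ν.Ge (x + y) (ν.v x) :=
    (AddVal.ge_self x).add (AddVal.ge_of_ne (by linarith))
  have hxyb : ν.Ge (x * y + b) (ν.v x + ν.v y) :=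
    (AddVal.ge_of_ne (le_of_eq hvxy.symm)).add (AddVal.ge_of_ne (by linarith))
  have hT12 : ν.Ge ((x + y) * (x * y + b)) (ν.v x + (ν.v x + ν.v y)) := hxy_sum.mul hxyb
  have hT3 : ν.Ge (2 * a * (x * y)) (ν.v x + ν.v y) :=
    trs_2a_ge hν2 ha (AddVal.ge_of_ne (le_of_eq hvxy.symm))
  have hN2 : ν.Ge ((x + y) * (x * y + b) + 2 * a * (x * y)) (ν.v x + (ν.v x + ν.v y)) :=
    hT12.add (hT3.mono (by linarith))
  have hsum := trs_sum_ge hν2 K2 hdl.1 hN2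
  rw [hdl.2] at hsum
  obtain ⟨hvp, hvm⟩ := AddVal.eq_eq_of_mul_of_add_ge hp hm (m := ν.v y) (by linarith)
    (hsum.mono (by linarith))
  have hWx : trs_W ν b x = 0 := trs_W_of_le hb hx hxv
  have hWy : trs_W ν b y = ν.v y := trs_W_of_mid hy hy0.le hyh.le
  have hWp : trs_W ν b p = ν.v y := trs_W_of_eq hp hvp hy0.le hyh.le
  have hWm : trs_W ν b m = ν.v y := trs_W_of_eq hm hvm hy0.le hyh.le
  have h1 : |(0 : ℝ) - ν.v y| = ν.v y := by rw [zero_sub, abs_neg, abs_of_pos hy0]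
  have hle : (0 : ℝ) + ν.v y ≤ ν.v b := by linarith
  have h2 : foldSum (ν.v b) 0 (ν.v y) = ν.v y := by rw [trs_fold_le hle, zero_add]
  exact trs_Concl_same hWx hWy hWp hWm h1 h2

/-- Case 2: `x` in zone `Z0`, `y` in zone `Zh`. -/
theorem trs_case2 (hν2 : ν.v 2 = 0) (ha : ν.v a = 0) (hb : 0 < ν.v b)
    (K1 : p * m * (x - y) ^ 2 = (x * y - b) ^ 2)
    (K2 : (p + m) * (x - y) ^ 2 = 2 * ((x + y) * (x * y + b) + 2 * a * (x * y)))
    (hx : x ≠ 0) (hxv : ν.v x ≤ 0) (hy : ν.Ge y (ν.v b)) :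
    trs_Concl (ν.v b) (trs_W ν b x) (trs_W ν b y) (trs_W ν b p) (trs_W ν b m) := by
  have hygt : ν.Gt y (ν.v x) := hy.gt_of_lt (by linarith)
  have hdl : x - y ≠ 0 ∧ ν.v (x - y) = ν.v x := AddVal.v_sub_eq_of_gt hx hygt
  have hxy : ν.Ge (x * y) (ν.v x + ν.v b) := (AddVal.ge_self x).mul hy
  have hbge : ν.Ge b (ν.v x + ν.v b) := AddVal.ge_of_ne (by linarith)
  have hN1 : ν.Ge (x * y - b) (ν.v x + ν.v b) := hxy.sub hbge
  have hprod := trs_prod_ge K1 hdl.1 hN1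
  rw [hdl.2] at hprod
  have hxy_sum : ν.Ge (x + y) (ν.v x) := (AddVal.ge_self x).add hygt.ge
  have hxyb : ν.Ge (x * y + b) (ν.v x + ν.v b) := hxy.add hbge
  have hT12 : ν.Ge ((x + y) * (x * y + b)) (ν.v x + (ν.v x + ν.v b)) := hxy_sum.mul hxyb
  have hT3 : ν.Ge (2 * a * (x * y)) (ν.v x + ν.v b) := trs_2a_ge hν2 ha hxy
  have hN2 : ν.Ge ((x + y) * (x * y + b) + 2 * a * (x * y)) (ν.v x + (ν.v x + ν.v b)) :=
    hT12.add (hT3.mono (by linarith))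
  have hsum := trs_sum_ge hν2 K2 hdl.1 hN2
  rw [hdl.2] at hsum
  obtain ⟨hgp, hgm⟩ := trs_np1 (r := ν.v b) (hprod.mono (by linarith)) (hsum.mono (by linarith))
  have hWx : trs_W ν b x = 0 := trs_W_of_le hb hx hxv
  have hWy : trs_W ν b y = ν.v b := trs_W_of_ge hb hy
  have hWp : trs_W ν b p = ν.v b := trs_W_of_ge hb hgp
  have hWm : trs_W ν b m = ν.v b := trs_W_of_ge hb hgm
  have h1 : |(0 : ℝ) - ν.v b| = ν.v b := by rw [zero_sub, abs_neg, abs_of_pos hb]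
  have hle : (0 : ℝ) + ν.v b ≤ ν.v b := by linarith
  have h2 : foldSum (ν.v b) 0 (ν.v b) = ν.v b := by rw [trs_fold_le hle, zero_add]
  exact trs_Concl_same hWx hWy hWp hWm h1 h2

/-- For `x`, `y` both in zone `Zmid`, the numerator `N₂` has valuation exactly `v x + v y`. -/
theorem trs_N2_mid (h2 : (2 : K) ≠ 0) (hν2 : ν.v 2 = 0) (ha0 : a ≠ 0) (ha : ν.v a = 0)
    (hx : x ≠ 0) (hx0 : 0 < ν.v x) (hxh : ν.v x < ν.v b)
    (hy : y ≠ 0) (hy0 : 0 < ν.v y) (hyh : ν.v y < ν.v b) :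
    (x + y) * (x * y + b) + 2 * a * (x * y) ≠ 0 ∧
      ν.v ((x + y) * (x * y + b) + 2 * a * (x * y)) = ν.v x + ν.v y := by
  have hxy : x * y ≠ 0 := mul_ne_zero hx hy
  have hvxy : ν.v (x * y) = ν.v x + ν.v y := ν.v_mul hx hy
  have hT3ne : 2 * a * (x * y) ≠ 0 := mul_ne_zero (mul_ne_zero h2 ha0) hxy
  have hT3 : ν.v (2 * a * (x * y)) = ν.v x + ν.v y := by
    rw [trs_2a_eq h2 hν2 ha0 ha hxy, hvxy]
  have hxy_sum : ν.Ge (x + y) (min (ν.v x) (ν.v y)) :=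
    (AddVal.ge_of_ne (min_le_left _ _)).add (AddVal.ge_of_ne (min_le_right _ _))
  have hlt1 : max (ν.v x) (ν.v y) < ν.v (x * y) := by
    rw [hvxy]
    exact max_lt (by linarith) (by linarith)
  have hxyb : ν.Gt (x * y + b) (max (ν.v x) (ν.v y)) :=
    (AddVal.gt_of_ne hlt1).add (AddVal.gt_of_ne (max_lt hxh hyh))
  have hT12 : ν.Gt ((x + y) * (x * y + b)) (ν.v (2 * a * (x * y))) := by
    have h3 := hxy_sum.mul_gt hxyb
    rw [min_add_max] at h3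
    rw [hT3]
    exact h3
  have h4 := AddVal.v_add_eq_of_gt' hT3ne hT12
  rw [hT3] at h4
  exact h4

/-- Case 3 (both `x` and `y` in zone `Zmid`), assuming `v x ≤ v (x - y)` and the value of
`|v x - v y|` in terms of `v (x - y)`. -/
theorem trs_case3_aux (h2 : (2 : K) ≠ 0) (hν2 : ν.v 2 = 0) (ha0 : a ≠ 0) (ha : ν.v a = 0)
    (hb0 : b ≠ 0) (hb : 0 < ν.v b) (hne : x - y ≠ 0)
    (K1 : p * m * (x - y) ^ 2 = (x * y - b) ^ 2)
    (K2 : (p + m) * (x - y) ^ 2 = 2 * ((x + y) * (x * y + b) + 2 * a * (x * y)))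
    (hx : x ≠ 0) (hx0 : 0 < ν.v x) (hxh : ν.v x < ν.v b)
    (hy : y ≠ 0) (hy0 : 0 < ν.v y) (hyh : ν.v y < ν.v b)
    (hdlge : ν.v x ≤ ν.v (x - y))
    (habs : |ν.v x - ν.v y| = max 0 (ν.v x + ν.v y - 2 * ν.v (x - y))) :
    trs_Concl (ν.v b) (trs_W ν b x) (trs_W ν b y) (trs_W ν b p) (trs_W ν b m) := by
  have hN2 := trs_N2_mid (b := b) h2 hν2 ha0 ha hx hx0 hxh hy hy0 hyh
  obtain ⟨hsum0, hsum⟩ := trs_sum_eq h2 hν2 K2 hne hN2.1
  rw [hN2.2] at hsum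
  have hxy : x * y ≠ 0 := mul_ne_zero hx hy
  have hvxy : ν.v (x * y) = ν.v x + ν.v y := ν.v_mul hx hy
  have hWx : trs_W ν b x = ν.v x := trs_W_of_mid hx hx0.le hxh.le
  have hWy : trs_W ν b y = ν.v y := trs_W_of_mid hy hy0.le hyh.le
  unfold trs_Concl
  rw [hWx, hWy, habs]
  rcases lt_trichotomy (ν.v x + ν.v y) (ν.v b) with hlt | heq | hgt
  · have hN1 : x * y - b ≠ 0 ∧ ν.v (x * y - b) = ν.v (x * y) :=
      ν.v_sub_eq_of_lt hxy hb0 (by rw [hvxy]; exact hlt)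
    obtain ⟨hp, hm, hpm⟩ := trs_prod_eq (ν := ν) K1 hne hN1.1
    rw [hN1.2, hvxy] at hpm
    rw [trs_fold_le hlt.le]
    exact trs_np2_W hb hsum0 hsum (by linarith) (by linarith) hlt.le
      (Or.inl ⟨hp, hm, by linarith⟩)
  · have hN1 : ν.Ge (x * y - b) (ν.v b) :=
      (AddVal.ge_of_ne (by rw [hvxy]; exact heq.ge)).sub (AddVal.ge_self b)
    have hprod := trs_prod_ge K1 hne hN1
    rw [trs_fold_le heq.le]
    exact trs_np2_W hb hsum0 hsum (by linarith) (by linarith) heq.le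
      (Or.inr ⟨heq, hprod.mono (by linarith)⟩)
  · have hN1 : x * y - b ≠ 0 ∧ ν.v (x * y - b) = ν.v b :=
      ν.v_sub_eq_of_lt' hxy hb0 (by rw [hvxy]; exact hgt)
    obtain ⟨hp, hm, hpm⟩ := trs_prod_eq (ν := ν) K1 hne hN1.1
    rw [hN1.2] at hpm
    rw [trs_fold_gt hgt]
    exact trs_np2_W hb hsum0 hsum (by linarith) (by linarith) (by linarith)
      (Or.inl ⟨hp, hm, by linarith⟩)

/-- Case 3 with `v x ≤ v y`. -/
theorem trs_case3_le (h2 : (2 : K) ≠ 0) (hν2 : ν.v 2 = 0) (ha0 : a ≠ 0) (ha : ν.v a = 0)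
    (hb0 : b ≠ 0) (hb : 0 < ν.v b) (hne : x - y ≠ 0)
    (K1 : p * m * (x - y) ^ 2 = (x * y - b) ^ 2)
    (K2 : (p + m) * (x - y) ^ 2 = 2 * ((x + y) * (x * y + b) + 2 * a * (x * y)))
    (hx : x ≠ 0) (hx0 : 0 < ν.v x) (hxh : ν.v x < ν.v b)
    (hy : y ≠ 0) (hy0 : 0 < ν.v y) (hyh : ν.v y < ν.v b) (hle : ν.v x ≤ ν.v y) :
    trs_Concl (ν.v b) (trs_W ν b x) (trs_W ν b y) (trs_W ν b p) (trs_W ν b m) := by
  rcases lt_or_eq_of_le hle with hlt | heq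
  · have hdl : x - y ≠ 0 ∧ ν.v (x - y) = ν.v x := ν.v_sub_eq_of_lt hx hy hlt
    have habs : |ν.v x - ν.v y| = max 0 (ν.v x + ν.v y - 2 * ν.v (x - y)) := by
      have e1 : ν.v x - ν.v y ≤ 0 := by linarith
      have e2 : (0 : ℝ) ≤ ν.v x + ν.v y - 2 * ν.v x := by linarith
      rw [hdl.2, abs_of_nonpos e1, max_eq_right e2]
      ring
    exact trs_case3_aux h2 hν2 ha0 ha hb0 hb hne K1 K2 hx hx0 hxh hy hy0 hyh hdl.2.ge habs
  · have hdlge : ν.v x ≤ ν.v (x - y) :=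
      ((AddVal.ge_self x).sub (AddVal.ge_of_ne heq.le)).le hne
    have habs : |ν.v x - ν.v y| = max 0 (ν.v x + ν.v y - 2 * ν.v (x - y)) := by
      have e2 : ν.v x + ν.v y - 2 * ν.v (x - y) ≤ 0 := by linarith
      have e3 : ν.v x - ν.v y = 0 := by linarith
      rw [e3, abs_zero, max_eq_left e2]
    exact trs_case3_aux h2 hν2 ha0 ha hb0 hb hne K1 K2 hx hx0 hxh hy hy0 hyh hdlge habs

/-- Case 3: both `x` and `y` in zone `Zmid`. -/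
theorem trs_case3 (h2 : (2 : K) ≠ 0) (hν2 : ν.v 2 = 0) (ha0 : a ≠ 0) (ha : ν.v a = 0)
    (hb0 : b ≠ 0) (hb : 0 < ν.v b) (hne : x - y ≠ 0)
    (K1 : p * m * (x - y) ^ 2 = (x * y - b) ^ 2)
    (K2 : (p + m) * (x - y) ^ 2 = 2 * ((x + y) * (x * y + b) + 2 * a * (x * y)))
    (hx : x ≠ 0) (hx0 : 0 < ν.v x) (hxh : ν.v x < ν.v b)
    (hy : y ≠ 0) (hy0 : 0 < ν.v y) (hyh : ν.v y < ν.v b) :
    trs_Concl (ν.v b) (trs_W ν b x) (trs_W ν b y) (trs_W ν b p) (trs_W ν b m) := by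
  rcases le_total (ν.v x) (ν.v y) with hle | hle
  · exact trs_case3_le h2 hν2 ha0 ha hb0 hb hne K1 K2 hx hx0 hxh hy hy0 hyh hle
  · have hne' : y - x ≠ 0 := fun h0 => hne (by rw [sub_eq_zero.mp h0, sub_self])
    exact trs_Concl_swap (trs_case3_le h2 hν2 ha0 ha hb0 hb hne' (trs_K1_swap K1)
      (trs_K2_swap K2) hy hy0 hyh hx hx0 hxh hle)

/-- Case 4: `x` in zone `Zh`, `y` in zone `Zmid`. -/
theorem trs_case4 (hν2 : ν.v 2 = 0) (ha : ν.v a = 0) (hb0 : b ≠ 0) (hb : 0 < ν.v b)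
    (K1 : p * m * (x - y) ^ 2 = (x * y - b) ^ 2)
    (K2 : (p + m) * (x - y) ^ 2 = 2 * ((x + y) * (x * y + b) + 2 * a * (x * y)))
    (hx : ν.Ge x (ν.v b)) (hy : y ≠ 0) (hy0 : 0 < ν.v y) (hyh : ν.v y < ν.v b) :
    trs_Concl (ν.v b) (trs_W ν b x) (trs_W ν b y) (trs_W ν b p) (trs_W ν b m) := by
  have hxgt : ν.Gt x (ν.v y) := hx.gt_of_lt hyh
  have hdl : x - y ≠ 0 ∧ ν.v (x - y) = ν.v y := AddVal.v_sub_eq_of_gt' hy hxgt
  have hxy : ν.Gt (x * y) (ν.v b) := by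
    have h3 := hx.mul_gt (AddVal.gt_of_ne hy0)
    rw [add_zero] at h3
    exact h3
  have hN1 : x * y - b ≠ 0 ∧ ν.v (x * y - b) = ν.v b := AddVal.v_sub_eq_of_gt' hb0 hxy
  obtain ⟨hp, hm, hpm⟩ := trs_prod_eq (ν := ν) K1 hdl.1 hN1.1
  rw [hN1.2, hdl.2] at hpm
  have hxy_sum : ν.Ge (x + y) (ν.v y) := hxgt.ge.add (AddVal.ge_self y)
  have hxyb : ν.Ge (x * y + b) (ν.v b) := hxy.ge.add (AddVal.ge_self b)
  have hT12 : ν.Ge ((x + y) * (x * y + b)) (ν.v y + ν.v b) := hxy_sum.mul hxyb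
  have hxy' : ν.Ge (x * y) (ν.v b + ν.v y) := hx.mul (AddVal.ge_self y)
  have hT3 : ν.Ge (2 * a * (x * y)) (ν.v b + ν.v y) := trs_2a_ge hν2 ha hxy'
  have hN2 : ν.Ge ((x + y) * (x * y + b) + 2 * a * (x * y)) (ν.v y + ν.v b) :=
    hT12.add (hT3.mono (by linarith))
  have hsum := trs_sum_ge hν2 K2 hdl.1 hN2
  rw [hdl.2] at hsum
  obtain ⟨hvp, hvm⟩ := AddVal.eq_eq_of_mul_of_add_ge hp hm (m := ν.v b - ν.v y) (by linarith)
    (hsum.mono (by linarith))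
  have hWx : trs_W ν b x = ν.v b := trs_W_of_ge hb hx
  have hWy : trs_W ν b y = ν.v y := trs_W_of_mid hy hy0.le hyh.le
  have hWp : trs_W ν b p = ν.v b - ν.v y := trs_W_of_eq hp hvp (by linarith) (by linarith)
  have hWm : trs_W ν b m = ν.v b - ν.v y := trs_W_of_eq hm hvm (by linarith) (by linarith)
  have h1 : |ν.v b - ν.v y| = ν.v b - ν.v y := abs_of_pos (by linarith)
  have hlt : ν.v b < ν.v b + ν.v y := by linarith
  have h2 : foldSum (ν.v b) (ν.v b) (ν.v y) = ν.v b - ν.v y := by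
    rw [trs_fold_gt hlt]
    ring
  exact trs_Concl_same hWx hWy hWp hWm h1 h2

/-- Case 5: `x` in zone `Zmid`, `y` in zone `Zh` (symmetric to Case 4). -/
theorem trs_case5 (hν2 : ν.v 2 = 0) (ha : ν.v a = 0) (hb0 : b ≠ 0) (hb : 0 < ν.v b)
    (K1 : p * m * (x - y) ^ 2 = (x * y - b) ^ 2)
    (K2 : (p + m) * (x - y) ^ 2 = 2 * ((x + y) * (x * y + b) + 2 * a * (x * y)))
    (hx : x ≠ 0) (hx0 : 0 < ν.v x) (hxh : ν.v x < ν.v b) (hy : ν.Ge y (ν.v b)) :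
    trs_Concl (ν.v b) (trs_W ν b x) (trs_W ν b y) (trs_W ν b p) (trs_W ν b m) :=
  trs_Concl_swap (trs_case4 hν2 ha hb0 hb (trs_K1_swap K1) (trs_K2_swap K2) hy hx hx0 hxh)

/-- Case 6: both `x` and `y` in zone `Zh`. -/
theorem trs_case6 (hν2 : ν.v 2 = 0) (ha : ν.v a = 0) (hb0 : b ≠ 0) (hb : 0 < ν.v b)
    (hne : x - y ≠ 0)
    (K1 : p * m * (x - y) ^ 2 = (x * y - b) ^ 2)
    (K2 : (p + m) * (x - y) ^ 2 = 2 * ((x + y) * (x * y + b) + 2 * a * (x * y)))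
    (hx : ν.Ge x (ν.v b)) (hy : ν.Ge y (ν.v b)) :
    trs_Concl (ν.v b) (trs_W ν b x) (trs_W ν b y) (trs_W ν b p) (trs_W ν b m) := by
  have hdlge : ν.v b ≤ ν.v (x - y) := (hx.sub hy).le hne
  have hxy2 : ν.Ge (x * y) (ν.v b + ν.v b) := hx.mul hy
  have hxy : ν.Gt (x * y) (ν.v b) := hxy2.gt_of_lt (by linarith)
  have hN1 : x * y - b ≠ 0 ∧ ν.v (x * y - b) = ν.v b := AddVal.v_sub_eq_of_gt' hb0 hxy
  obtain ⟨hp, hm, hpm⟩ := trs_prod_eq (ν := ν) K1 hne hN1.1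
  rw [hN1.2] at hpm
  have hxy_sum : ν.Ge (x + y) (ν.v b) := hx.add hy
  have hxyb : ν.Ge (x * y + b) (ν.v b) := hxy.ge.add (AddVal.ge_self b)
  have hT12 : ν.Ge ((x + y) * (x * y + b)) (ν.v b + ν.v b) := hxy_sum.mul hxyb
  have hT3 : ν.Ge (2 * a * (x * y)) (ν.v b + ν.v b) := trs_2a_ge hν2 ha hxy2
  have hN2 : ν.Ge ((x + y) * (x * y + b) + 2 * a * (x * y)) (ν.v b + ν.v b) := hT12.add hT3
  have hsum := trs_sum_ge hν2 K2 hne hN2
  have hvp : ν.v p ≤ 0 := by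
    by_contra hcon
    have hpos : 0 < ν.v p := not_le.mp hcon
    obtain ⟨hne0, hv⟩ := ν.v_add_eq_of_lt' hp hm (by linarith)
    have h3 := hsum.le hne0
    linarith
  have hvm : ν.v m ≤ 0 := by
    by_contra hcon
    have hpos : 0 < ν.v m := not_le.mp hcon
    obtain ⟨hne0, hv⟩ := ν.v_add_eq_of_lt hp hm (by linarith)
    have h3 := hsum.le hne0
    linarith
  have hWx : trs_W ν b x = ν.v b := trs_W_of_ge hb hx
  have hWy : trs_W ν b y = ν.v b := trs_W_of_ge hb hy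
  have hWp : trs_W ν b p = 0 := trs_W_of_le hb hp hvp
  have hWm : trs_W ν b m = 0 := trs_W_of_le hb hm hvm
  have h1 : |ν.v b - ν.v b| = 0 := by rw [sub_self, abs_zero]
  have hlt : ν.v b < ν.v b + ν.v b := by linarith
  have h2 : foldSum (ν.v b) (ν.v b) (ν.v b) = 0 := by
    rw [trs_fold_gt hlt]
    ring
  exact trs_Concl_same hWx hWy hWp hWm h1 h2

/-- The tropical addition law, in purely field-theoretic form. -/
theorem trs_core (h2 : (2 : K) ≠ 0) (hν2 : ν.v 2 = 0) (ha0 : a ≠ 0) (ha : ν.v a = 0)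
    (hb0 : b ≠ 0) (hb : 0 < ν.v b) (hne : x - y ≠ 0)
    (K1 : p * m * (x - y) ^ 2 = (x * y - b) ^ 2)
    (K2 : (p + m) * (x - y) ^ 2 = 2 * ((x + y) * (x * y + b) + 2 * a * (x * y)))
    (hc : 0 < trs_W ν b y) :
    trs_Concl (ν.v b) (trs_W ν b x) (trs_W ν b y) (trs_W ν b p) (trs_W ν b m) := by
  rcases trs_zone ν b y with ⟨hy, hyv⟩ | ⟨hy, hy0, hyh⟩ | hy
  · exfalso
    rw [trs_W_of_le hb hy hyv] at hc
    exact lt_irrefl _ hc
  · rcases trs_zone ν b x with ⟨hx, hxv⟩ | ⟨hx, hx0, hxh⟩ | hx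
    · exact trs_case1 hν2 ha hb0 hb K1 K2 hx hxv hy hy0 hyh
    · exact trs_case3 h2 hν2 ha0 ha hb0 hb hne K1 K2 hx hx0 hxh hy hy0 hyh
    · exact trs_case4 hν2 ha hb0 hb K1 K2 hx hy hy0 hyh
  · rcases trs_zone ν b x with ⟨hx, hxv⟩ | ⟨hx, hx0, hxh⟩ | hx
    · exact trs_case2 hν2 ha hb K1 K2 hx hxv hy
    · exact trs_case5 hν2 ha hb0 hb K1 K2 hx hx0 hxh hy
    · exact trs_case6 hν2 ha hb0 hb hne K1 K2 hx hy

/-! ### Doubling -/

/-- For `x` in zone `Zmid`, the factor `F = x² + a x + b` has valuation exactly `v x`. -/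
theorem trs_F_mid (ha0 : a ≠ 0) (ha : ν.v a = 0)
    (hx : x ≠ 0) (hx0 : 0 < ν.v x) (hxh : ν.v x < ν.v b) :
    x ^ 2 + a * x + b ≠ 0 ∧ ν.v (x ^ 2 + a * x + b) = ν.v x := by
  have hax : a * x ≠ 0 := mul_ne_zero ha0 hx
  have hvax : ν.v (a * x) = ν.v x := by rw [ν.v_mul ha0 hx, ha, zero_add]
  have hx2 : ν.Gt (x ^ 2) (ν.v (a * x)) :=
    AddVal.gt_of_ne (by rw [ν.v_sq hx, hvax]; linarith)
  have h1 : x ^ 2 + a * x ≠ 0 ∧ ν.v (x ^ 2 + a * x) = ν.v (a * x) :=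
    AddVal.v_add_eq_of_gt' hax hx2
  have hbgt : ν.Gt b (ν.v (x ^ 2 + a * x)) :=
    AddVal.gt_of_ne (by rw [h1.2, hvax]; exact hxh)
  have h3 := AddVal.v_add_eq_of_gt h1.1 hbgt
  rw [h1.2, hvax] at h3
  exact h3

/-- A point with `x · F(x) = 0` and positive clamped valuation lies in zone `Zh`. -/
theorem trs_dbl_zero (ha0 : a ≠ 0) (ha : ν.v a = 0) (hb : 0 < ν.v b)
    (heq : x * (x ^ 2 + a * x + b) = 0) (hc : 0 < trs_W ν b x) : trs_W ν b x = ν.v b := by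
  rcases trs_zone ν b x with ⟨hx, hxv⟩ | ⟨hx, hx0, hxh⟩ | hx
  · exfalso
    rw [trs_W_of_le hb hx hxv] at hc
    exact lt_irrefl _ hc
  · exfalso
    exact mul_ne_zero hx (trs_F_mid ha0 ha hx hx0 hxh).1 heq
  · exact trs_W_of_ge hb hx

/-- The tropical duplication law, in purely field-theoretic form. -/
theorem trs_dbl_core (h2 : (2 : K) ≠ 0) (hν2 : ν.v 2 = 0) (ha0 : a ≠ 0) (ha : ν.v a = 0)
    (hb0 : b ≠ 0) (hb : 0 < ν.v b) {yy d : K} (heq : yy ^ 2 = x * (x ^ 2 + a * x + b))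
    (hyy : yy ≠ 0) (hd : d * (2 * yy) ^ 2 = (x ^ 2 - b) ^ 2) (hc : 0 < trs_W ν b x) :
    trs_W ν b d = foldSum (ν.v b) (trs_W ν b x) (trs_W ν b x) := by
  have hxF : x * (x ^ 2 + a * x + b) ≠ 0 := by
    rw [← heq]
    exact pow_ne_zero 2 hyy
  have hx : x ≠ 0 := left_ne_zero_of_mul hxF
  have hF : x ^ 2 + a * x + b ≠ 0 := right_ne_zero_of_mul hxF
  have h2y : 2 * yy ≠ 0 := mul_ne_zero h2 hyy
  have hden : (2 * yy) ^ 2 ≠ 0 := pow_ne_zero 2 h2y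
  have e1 : ν.v ((2 * yy) ^ 2) = 2 * ν.v yy := by
    rw [ν.v_sq h2y, ν.v_mul h2 hyy, hν2, zero_add]
  have e2 : 2 * ν.v yy = ν.v x + ν.v (x ^ 2 + a * x + b) := by
    rw [← ν.v_sq hyy, heq, ν.v_mul hx hF]
  have hvden : ν.v ((2 * yy) ^ 2) = ν.v x + ν.v (x ^ 2 + a * x + b) := by rw [e1, e2]
  have hx2 : ν.v (x ^ 2) = 2 * ν.v x := ν.v_sq hx
  rcases trs_zone ν b x with ⟨_, hxv⟩ | ⟨_, hx0, hxh⟩ | hxge
  · exfalso
    rw [trs_W_of_le hb hx hxv] at hc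
    exact lt_irrefl _ hc
  · have hvF := (trs_F_mid ha0 ha hx hx0 hxh).2
    rw [hvF] at hvden
    have hWx : trs_W ν b x = ν.v x := trs_W_of_mid hx hx0.le hxh.le
    rw [hWx]
    rcases lt_trichotomy (2 * ν.v x) (ν.v b) with hlt | heq' | hgt
    · have hN : x ^ 2 - b ≠ 0 ∧ ν.v (x ^ 2 - b) = ν.v (x ^ 2) :=
        ν.v_sub_eq_of_lt (pow_ne_zero 2 hx) hb0 (by rw [hx2]; exact hlt)
      obtain ⟨hd0, hvd⟩ := trs_v_of_mul_eq (ν := ν) hd hden (pow_ne_zero 2 hN.1)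
      rw [ν.v_sq hN.1, hN.2, hx2, hvden] at hvd
      have hle : ν.v x + ν.v x ≤ ν.v b := by linarith
      rw [trs_fold_le hle]
      exact trs_W_of_eq hd0 (by linarith) (by linarith) (by linarith)
    · have hN : ν.Ge (x ^ 2 - b) (ν.v b) :=
        (AddVal.ge_of_ne (by rw [hx2]; exact heq'.ge)).sub (AddVal.ge_self b)
      have hge := trs_ge_of_mul_eq hd hden (trs_ge_sq hN)
      rw [hvden] at hge
      have hle : ν.v x + ν.v x ≤ ν.v b := by linarith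
      have e3 : ν.v x + ν.v x = ν.v b := by linarith
      rw [trs_fold_le hle, e3]
      exact trs_W_of_ge hb (hge.mono (by linarith))
    · have hN : x ^ 2 - b ≠ 0 ∧ ν.v (x ^ 2 - b) = ν.v b :=
        ν.v_sub_eq_of_lt' (pow_ne_zero 2 hx) hb0 (by rw [hx2]; exact hgt)
      obtain ⟨hd0, hvd⟩ := trs_v_of_mul_eq (ν := ν) hd hden (pow_ne_zero 2 hN.1)
      rw [ν.v_sq hN.1, hN.2, hvden] at hvd
      have hlt' : ν.v b < ν.v x + ν.v x := by linarith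
      rw [trs_fold_gt hlt']
      exact trs_W_of_eq hd0 (by linarith) (by linarith) (by linarith)
  · have hxv : ν.v b ≤ ν.v x := hxge.le hx
    have hFge : ν.v b ≤ ν.v (x ^ 2 + a * x + b) := by
      have h3 : ν.Ge (x ^ 2) (ν.v b) := AddVal.ge_of_ne (by rw [hx2]; linarith)
      have h4 : ν.Ge (a * x) (ν.v b) :=
        AddVal.ge_of_ne (by rw [ν.v_mul ha0 hx, ha]; linarith)
      exact ((h3.add h4).add (AddVal.ge_self b)).le hF
    have hN : x ^ 2 - b ≠ 0 ∧ ν.v (x ^ 2 - b) = ν.v b :=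
      AddVal.v_sub_eq_of_gt' hb0 (AddVal.gt_of_ne (by rw [hx2]; linarith))
    obtain ⟨hd0, hvd⟩ := trs_v_of_mul_eq (ν := ν) hd hden (pow_ne_zero 2 hN.1)
    rw [ν.v_sq hN.1, hN.2, hvden] at hvd
    have hWx : trs_W ν b x = ν.v b := trs_W_of_ge hb hxge
    have hWd : trs_W ν b d = 0 := trs_W_of_le hb hd0 (by linarith)
    have hlt' : ν.v b < ν.v b + ν.v b := by linarith
    rw [hWx, trs_fold_gt hlt', hWd]
    ring

end trs_generic

section trs_link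
variable {G K : Type*} [AddCommGroup G] [Field K]

theorem trs_tropW_eq (D : KummerData G K) (ν : AddVal K) {R : G} (hR : R ≠ 0) :
    tropW D ν R = trs_W ν D.b (D.X R) := by
  unfold tropW trs_W
  rw [if_neg hR]

end trs_link

section trop
variable {G K : Type*} [AddCommGroup G] [Field K] [CharZero K]

theorem trop_step (D : KummerData G K) (ν : AddVal K)
    (hν2 : ν.v 2 = 0) (ha0 : D.a ≠ 0) (ha : ν.v D.a = 0) (hb0 : D.b ≠ 0) (hb : 0 < ν.v D.b)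
    {P Q : G} (hP : P ≠ 0) (hQ : Q ≠ 0) (hne : D.X Q ≠ D.X P) (hc : 0 < tropW D ν P) :
    (tropW D ν (Q + P) = |tropW D ν Q - tropW D ν P| ∧
        tropW D ν (Q - P) = foldSum (ν.v D.b) (tropW D ν Q) (tropW D ν P)) ∨
      (tropW D ν (Q + P) = foldSum (ν.v D.b) (tropW D ν Q) (tropW D ν P) ∧
        tropW D ν (Q - P) = |tropW D ν Q - tropW D ν P|) := by
  have h2 : (2 : K) ≠ 0 := two_ne_zero
  have hQP : Q + P ≠ 0 := by
    intro h0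
    apply hne
    rw [eq_neg_of_add_eq_zero_left h0, D.X_neg]
  have hQP' : Q - P ≠ 0 := by
    intro h0
    apply hne
    rw [sub_eq_zero.mp h0]
  rw [trs_tropW_eq D ν hQP, trs_tropW_eq D ν hQP', trs_tropW_eq D ν hQ, trs_tropW_eq D ν hP]
  rw [trs_tropW_eq D ν hP] at hc
  exact trs_core h2 hν2 ha0 ha hb0 hb (sub_ne_zero.mpr hne) (D.addsub_mul Q P hQ hP hne)
    (D.addsub_add Q P hQ hP hne) hc

theorem trop_dbl (D : KummerData G K) (ν : AddVal K)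
    (hν2 : ν.v 2 = 0) (ha0 : D.a ≠ 0) (ha : ν.v D.a = 0) (hb0 : D.b ≠ 0) (hb : 0 < ν.v D.b)
    {P : G} (hP : P ≠ 0) (hc : 0 < tropW D ν P) :
    tropW D ν (P + P) = foldSum (ν.v D.b) (tropW D ν P) (tropW D ν P) := by
  have h2 : (2 : K) ≠ 0 := two_ne_zero
  by_cases hPP : P + P = 0
  · have hY : D.Y P = 0 := (D.two_torsion P hP).mp hPP
    have heq := D.eqn P hP
    rw [hY] at heq
    have heq' : D.X P * (D.X P ^ 2 + D.a * D.X P + D.b) = 0 := by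
      rw [← heq]
      exact zero_pow two_ne_zero
    have h0 : tropW D ν (P + P) = 0 := by
      rw [hPP]
      unfold tropW
      rw [if_pos rfl]
    rw [h0, trs_tropW_eq D ν hP]
    rw [trs_tropW_eq D ν hP] at hc
    have hW := trs_dbl_zero ha0 ha hb heq' hc
    have hlt : ν.v D.b < ν.v D.b + ν.v D.b := by linarith
    rw [hW, trs_fold_gt hlt]
    ring
  · have hY : D.Y P ≠ 0 := fun h => hPP ((D.two_torsion P hP).mpr h)
    rw [trs_tropW_eq D ν hPP, trs_tropW_eq D ν hP]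
    rw [trs_tropW_eq D ν hP] at hc
    exact trs_dbl_core h2 hν2 ha0 ha hb0 hb (D.eqn P hP) hY (D.dbl P hP hPP) hc

end trop
end Fermat.Agent.S05
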