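/-
S05: the valuation of the `X`-coordinate of a `p`-torsion point at a prime of multiplicative
reduction (`torsion_val_mult`), deduced from the tropical addition law of `TropStep.lean` by an
induction on the multiples `k • P`.
-/
import Mathlib
import Fermat.Agent.S05.Defs
import Fermat.Agent.S05.ValCalc
import Fermat.Agent.S05.TropDefs
import Fermat.Agent.S05.TropStep

set_option autoImplicit false

namespace Fermat.Agent.S05

/-! ### The folding function: distance to the nearest multiple of `2h` -/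

/-- The distance from `t` to the nearest multiple of `2 * h`. -/
noncomputable def tropFold (h t : ℝ) : ℝ :=
  2 * h * min (Int.fract (t / (2 * h))) (1 - Int.fract (t / (2 * h)))

theorem tropFold_add_int {h : ℝ} (h0 : 0 < h) (t : ℝ) (n : ℤ) :
    tropFold h (t + 2 * h * n) = tropFold h t := by
  unfold tropFold
  have e : (t + 2 * h * n) / (2 * h) = t / (2 * h) + n := by
    field_simp
  rw [e, Int.fract_add_intCast]

theorem tropFold_neg (h t : ℝ) : tropFold h (-t) = tropFold h t := by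
  unfold tropFold
  rw [neg_div]
  by_cases hf : Int.fract (t / (2 * h)) = 0
  · rw [Int.fract_neg_eq_zero.mpr hf, hf]
  · rw [Int.fract_neg hf, min_comm]
    congr 2
    ring

theorem tropFold_of_mem {h t : ℝ} (h0 : 0 < h) (ht0 : 0 ≤ t) (hth : t ≤ h) : tropFold h t = t := by
  unfold tropFold
  have hx0 : 0 ≤ t / (2 * h) := div_nonneg ht0 (by linarith)
  have hx1 : t / (2 * h) ≤ 1 / 2 := by
    rw [div_le_iff₀ (by linarith)]
    linarith
  have hfr : Int.fract (t / (2 * h)) = t / (2 * h) := Int.fract_eq_self.mpr ⟨hx0, by linarith⟩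
  rw [hfr, min_eq_left (by linarith)]
  field_simp

theorem tropFold_exists {h : ℝ} (h0 : 0 < h) (t : ℝ) :
    ∃ n : ℤ, tropFold h t = t - 2 * h * n ∨ tropFold h t = 2 * h * n - t := by
  have hfr : Int.fract (t / (2 * h)) = t / (2 * h) - ⌊t / (2 * h)⌋ := rfl
  have key : 2 * h * (t / (2 * h)) = t := by field_simp
  rcases le_total (Int.fract (t / (2 * h))) (1 - Int.fract (t / (2 * h))) with hle | hle
  · refine ⟨⌊t / (2 * h)⌋, Or.inl ?_⟩
    unfold tropFold
    rw [min_eq_left hle, hfr, mul_sub, key]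
  · refine ⟨⌊t / (2 * h)⌋ + 1, Or.inr ?_⟩
    unfold tropFold
    rw [min_eq_right hle, hfr]
    push_cast
    linear_combination -key

theorem tropFold_nonneg {h : ℝ} (h0 : 0 < h) (t : ℝ) : 0 ≤ tropFold h t := by
  unfold tropFold
  have h1 := Int.fract_nonneg (t / (2 * h))
  have h2 := Int.fract_lt_one (t / (2 * h))
  have : 0 ≤ min (Int.fract (t / (2 * h))) (1 - Int.fract (t / (2 * h))) :=
    le_min h1 (by linarith)
  positivity

theorem tropFold_le {h : ℝ} (h0 : 0 < h) (t : ℝ) : tropFold h t ≤ h := by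
  unfold tropFold
  have hm : min (Int.fract (t / (2 * h))) (1 - Int.fract (t / (2 * h))) ≤ 1 / 2 := by
    rcases le_total (Int.fract (t / (2 * h))) (1 / 2) with hle | hle
    · exact le_trans (min_le_left _ _) hle
    · exact le_trans (min_le_right _ _) (by linarith)
  nlinarith

theorem tropFold_eq_zero {h : ℝ} (h0 : 0 < h) {t : ℝ} (ht : tropFold h t = 0) :
    ∃ n : ℤ, t = 2 * h * n := by
  obtain ⟨n, hn | hn⟩ := tropFold_exists h0 t
  · exact ⟨n, by linarith⟩
  · exact ⟨n, by linarith⟩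

theorem tropFold_int {h : ℝ} (h0 : 0 < h) (n : ℤ) : tropFold h (2 * h * n) = 0 := by
  have h1 := tropFold_add_int h0 0 n
  rw [zero_add] at h1
  rw [h1]
  exact tropFold_of_mem h0 le_rfl h0.le

theorem tropFold_of_mem' {h t : ℝ} (h0 : 0 < h) (ht0 : h ≤ t) (hth : t ≤ 2 * h) :
    tropFold h t = 2 * h - t := by
  have h1 := tropFold_add_int h0 (-(2 * h - t)) 1
  have e : -(2 * h - t) + 2 * h * ((1 : ℤ) : ℝ) = t := by push_cast; ring
  rw [e, tropFold_neg] at h1
  rw [h1]
  exact tropFold_of_mem h0 (by linarith) (by linarith)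

theorem tropFold_add_eq_foldSum {h a c : ℝ} (h0 : 0 < h) (ha0 : 0 ≤ a) (hah : a ≤ h)
    (hc0 : 0 ≤ c) (hch : c ≤ h) : tropFold h (a + c) = foldSum h a c := by
  unfold foldSum
  split_ifs with hle
  · exact tropFold_of_mem h0 (by linarith) hle
  · exact tropFold_of_mem' h0 (by linarith) (by linarith)

theorem tropFold_sub_eq_abs {h a c : ℝ} (h0 : 0 < h) (ha0 : 0 ≤ a) (hah : a ≤ h)
    (hc0 : 0 ≤ c) (hch : c ≤ h) : tropFold h (a - c) = |a - c| := by
  rcases le_total 0 (a - c) with hle | hle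
  · rw [abs_of_nonneg hle]
    exact tropFold_of_mem h0 hle (by linarith)
  · rw [abs_of_nonpos hle, ← tropFold_neg]
    exact tropFold_of_mem h0 (by linarith) (by linarith)

/-- The key bookkeeping lemma: folding commutes with adding/subtracting `c`, up to swapping. -/
theorem tropFold_pair {h c : ℝ} (h0 : 0 < h) (hc0 : 0 ≤ c) (hch : c ≤ h) (s : ℝ) :
    (|tropFold h s - c| = tropFold h (s - c) ∧ foldSum h (tropFold h s) c = tropFold h (s + c)) ∨
      (|tropFold h s - c| = tropFold h (s + c) ∧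
        foldSum h (tropFold h s) c = tropFold h (s - c)) := by
  have ha0 := tropFold_nonneg h0 s
  have hah := tropFold_le h0 s
  have e1 := tropFold_add_eq_foldSum h0 ha0 hah hc0 hch
  have e2 := tropFold_sub_eq_abs h0 ha0 hah hc0 hch
  obtain ⟨n, hn | hn⟩ := tropFold_exists h0 s
  · left
    constructor
    · rw [← e2]
      have : s - c = (tropFold h s - c) + 2 * h * n := by linarith
      rw [this, tropFold_add_int h0]
    · rw [← e1]
      have : s + c = (tropFold h s + c) + 2 * h * n := by linarith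
      rw [this, tropFold_add_int h0]
  · right
    constructor
    · rw [← e2]
      have : s + c = -(tropFold h s - c) + 2 * h * n := by linarith
      rw [this, tropFold_add_int h0, tropFold_neg]
    · rw [← e1]
      have : s - c = -(tropFold h s + c) + 2 * h * n := by linarith
      rw [this, tropFold_add_int h0, tropFold_neg]

/-! ### Basic facts on `tropW` -/

section
variable {G K : Type*} [AddCommGroup G] [Field K]

theorem tropW_zero (D : KummerData G K) (ν : AddVal K) : tropW D ν 0 = 0 := by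
  simp [tropW]

theorem tropW_neg (D : KummerData G K) (ν : AddVal K) (Q : G) :
    tropW D ν (-Q) = tropW D ν Q := by
  unfold tropW
  rw [D.X_neg]
  by_cases hQ : Q = 0
  · simp [hQ]
  · have hQ' : -Q ≠ 0 := neg_ne_zero.mpr hQ
    simp [hQ, hQ']

theorem tropW_of_X_eq_zero (D : KummerData G K) (ν : AddVal K) {Q : G} (hQ : Q ≠ 0)
    (hX : D.X Q = 0) : tropW D ν Q = ν.v D.b := by
  simp [tropW, hQ, hX]

theorem tropW_of_X_ne_zero (D : KummerData G K) (ν : AddVal K) {Q : G} (hQ : Q ≠ 0)
    (hX : D.X Q ≠ 0) : tropW D ν Q = max 0 (min (ν.v (D.X Q)) (ν.v D.b)) := by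
  simp [tropW, hQ, hX]

theorem tropW_nonneg (D : KummerData G K) (ν : AddVal K) (hb : 0 < ν.v D.b) (Q : G) :
    0 ≤ tropW D ν Q := by
  by_cases hQ : Q = 0
  · rw [hQ, tropW_zero]
  by_cases hX : D.X Q = 0
  · rw [tropW_of_X_eq_zero D ν hQ hX]; exact hb.le
  · rw [tropW_of_X_ne_zero D ν hQ hX]; exact le_max_left _ _

theorem tropW_le (D : KummerData G K) (ν : AddVal K) (hb : 0 < ν.v D.b) (Q : G) :
    tropW D ν Q ≤ ν.v D.b := by
  by_cases hQ : Q = 0
  · rw [hQ, tropW_zero]; exact hb.le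
  by_cases hX : D.X Q = 0
  · rw [tropW_of_X_eq_zero D ν hQ hX]
  · rw [tropW_of_X_ne_zero D ν hQ hX]; exact max_le hb.le (min_le_right _ _)

end

/-! ### The induction on multiples -/

section
variable {G K : Type*} [AddCommGroup G] [Field K] [CharZero K]

/-- One step of the induction. -/
theorem tropW_nsmul_step (D : KummerData G K) (ν : AddVal K)
    (hν2 : ν.v 2 = 0) (ha0 : D.a ≠ 0) (ha : ν.v D.a = 0) (hb0 : D.b ≠ 0) (hb : 0 < ν.v D.b)
    {P : G} (hP : P ≠ 0) (hc : 0 < tropW D ν P) (k : ℕ)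
    (h1 : tropW D ν (k • P) = tropFold (ν.v D.b) (k * tropW D ν P))
    (h2 : tropW D ν ((k + 1) • P) = tropFold (ν.v D.b) ((k + 1 : ℕ) * tropW D ν P)) :
    tropW D ν ((k + 2) • P) = tropFold (ν.v D.b) ((k + 2 : ℕ) * tropW D ν P) := by
  set h := ν.v D.b with hh
  set c := tropW D ν P with hcdef
  have hch : c ≤ h := tropW_le D ν hb P
  have e2 : (k + 2) • P = (k + 1) • P + P := succ_nsmul P (k + 1)
  have e0 : (k + 1) • P - P = k • P := by rw [succ_nsmul]; abel
  have cast1 : ((k + 1 : ℕ) : ℝ) * c = k * c + c := by push_cast; ring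
  have cast2 : ((k + 2 : ℕ) : ℝ) * c = k * c + c + c := by push_cast; ring
  rw [cast1] at h2
  rw [cast2, e2]
  by_cases hQ0 : (k + 1) • P = 0
  · -- `(k+1) P = 0`
    rw [hQ0, tropW_zero] at h2
    obtain ⟨n, hn⟩ := tropFold_eq_zero hb h2.symm
    rw [hQ0, zero_add, hn, add_comm, tropFold_add_int hb, tropFold_of_mem hb hc.le hch]
  by_cases hX : D.X ((k + 1) • P) = D.X P
  · rcases D.eq_or_eq_neg _ _ hQ0 hP hX with hQP | hQP
    · -- `(k+1) P = P`, so `k P = 0`
      have hk0 : k • P = 0 := by rw [← e0, hQP, sub_self]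
      rw [hk0, tropW_zero] at h1
      obtain ⟨n, hn⟩ := tropFold_eq_zero hb h1.symm
      rw [hQP, trop_dbl D ν hν2 ha0 ha hb0 hb hP hc, hn]
      have : 2 * h * (n : ℝ) + c + c = (c + c) + 2 * h * n := by ring
      rw [this, tropFold_add_int hb, tropFold_add_eq_foldSum hb hc.le hch hc.le hch]
    · -- `(k+1) P = -P`, so `(k+2) P = 0`
      rw [hQP, neg_add_cancel, tropW_zero]
      rw [hQP, tropW_neg] at h2
      obtain ⟨n, hn | hn⟩ := tropFold_exists hb (k * c + c)
      · -- `c = k c + c - 2 h n`, so `k c = 2 h n`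
        have hkc : (k : ℝ) * c = 2 * h * n := by linarith
        rw [hkc, tropFold_int hb] at h1
        have hk : k • P = -(P + P) := by rw [← e0, hQP]; abel
        rw [hk, tropW_neg, trop_dbl D ν hν2 ha0 ha hb0 hb hP hc] at h1
        have hc2 : c = h := by
          unfold foldSum at h1
          split_ifs at h1 with hle
          · linarith
          · linarith
        have : (k : ℝ) * c + c + c = 2 * h * ((n + 1 : ℤ) : ℝ) := by
          push_cast; rw [hkc, hc2]; ring
        rw [this, tropFold_int hb]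
      · have : (k : ℝ) * c + c + c = 2 * h * (n : ℝ) := by linarith
        rw [this, tropFold_int hb]
  · -- generic case
    have hstep := trop_step D ν hν2 ha0 ha hb0 hb hP hQ0 hX hc
    rw [e0, h1] at hstep
    rw [h2] at hstep
    have hpair := tropFold_pair hb hc.le hch (k * c + c)
    have es : (k : ℝ) * c + c - c = k * c := by ring
    rw [es] at hpair
    rcases hpair with ⟨hp1, hp2⟩ | ⟨hp1, hp2⟩
    · rcases hstep with ⟨hs1, hs2⟩ | ⟨hs1, hs2⟩
      · rw [hs1, hp1, hs2, hp2]
      · rw [hs1, hp2]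
    · rcases hstep with ⟨hs1, hs2⟩ | ⟨hs1, hs2⟩
      · rw [hs1, hp1]
      · rw [hs1, hp2, hs2, hp1]

theorem tropW_nsmul (D : KummerData G K) (ν : AddVal K)
    (hν2 : ν.v 2 = 0) (ha0 : D.a ≠ 0) (ha : ν.v D.a = 0) (hb0 : D.b ≠ 0) (hb : 0 < ν.v D.b)
    {P : G} (hP : P ≠ 0) (hc : 0 < tropW D ν P) (k : ℕ) :
    tropW D ν (k • P) = tropFold (ν.v D.b) (k * tropW D ν P) ∧
      tropW D ν ((k + 1) • P) = tropFold (ν.v D.b) ((k + 1 : ℕ) * tropW D ν P) := by
  induction k with
  | zero =>
    constructor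
    · simp only [zero_smul, Nat.cast_zero, zero_mul]
      rw [tropW_zero, tropFold_of_mem hb le_rfl hb.le]
    · simp only [zero_add, one_smul, Nat.cast_one, one_mul]
      rw [tropFold_of_mem hb hc.le (tropW_le D ν hb P)]
  | succ k ih =>
    exact ⟨ih.2, tropW_nsmul_step D ν hν2 ha0 ha hb0 hb hP hc k ih.1 ih.2⟩

theorem torsion_val_mult (D : KummerData G K) (ν : AddVal K)
    (hν2 : ν.v 2 = 0) (ha0 : D.a ≠ 0) (ha : ν.v D.a = 0) (hb0 : D.b ≠ 0) (hb : 0 < ν.v D.b)
    {p : ℕ} (hp : Odd p) {P : G} (hP : P ≠ 0) (hpP : p • P = 0) :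
    D.X P ≠ 0 ∧ ν.v (D.X P) < ν.v D.b ∧
      (0 < ν.v (D.X P) → ∃ j : ℤ, (p : ℝ) * ν.v (D.X P) = 2 * ν.v D.b * j) := by
  rcases (tropW_nonneg D ν hb P).eq_or_lt with hc0 | hc
  · -- `tropW P = 0`
    have hX : D.X P ≠ 0 := by
      intro hX
      rw [tropW_of_X_eq_zero D ν hP hX] at hc0
      linarith
    rw [tropW_of_X_ne_zero D ν hP hX] at hc0
    have hmin : min (ν.v (D.X P)) (ν.v D.b) ≤ 0 := by
      have := le_max_right 0 (min (ν.v (D.X P)) (ν.v D.b))
      linarith
    have hv : ν.v (D.X P) ≤ 0 := by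
      rcases min_le_iff.mp hmin with h | h
      · exact h
      · linarith
    exact ⟨hX, by linarith, fun h => absurd h (by linarith)⟩
  · -- `tropW P > 0`
    have hS := (tropW_nsmul D ν hν2 ha0 ha hb0 hb hP hc p).1
    rw [hpP, tropW_zero] at hS
    obtain ⟨n, hn⟩ := tropFold_eq_zero hb hS.symm
    have hodd : ∀ m : ℤ, (p : ℝ) ≠ 2 * m := by
      intro m hm
      have h1 : (p : ℤ) = 2 * m := by exact_mod_cast hm
      obtain ⟨t, ht⟩ := hp
      omega
    have hnotZh : tropW D ν P ≠ ν.v D.b := by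
      intro heq
      rw [heq] at hn
      apply hodd n
      have hb' : ν.v D.b ≠ 0 := hb.ne'
      field_simp at hn
      linarith
    have hX : D.X P ≠ 0 := by
      intro hX
      exact hnotZh (tropW_of_X_eq_zero D ν hP hX)
    have hW := tropW_of_X_ne_zero D ν hP hX
    have hlt : ν.v (D.X P) < ν.v D.b := by
      by_contra hge
      push Not at hge
      apply hnotZh
      rw [hW, min_eq_right hge, max_eq_right hb.le]
    refine ⟨hX, hlt, fun hpos => ⟨n, ?_⟩⟩
    have hWv : tropW D ν P = ν.v (D.X P) := by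
      rw [hW, min_eq_left hlt.le, max_eq_right hpos.le]
    rw [hWv] at hn
    exact hn

end

end Fermat.Agent.S05
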